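import Mathlib

/-!
# S14 / package [HQ] (coordinator helper19): interface of the FIRST INEQUALITY (Lw)

`K ⊆ L` number fields, `L / K` Galois of prime degree `p`, unramified at every finite prime,
`K` totally complex.  Deliverable `StLw`: the norm map `Cl(L) → Cl(K)` is not surjective, i.e.
`P_K · N(I_L) ≠ I_K`.

Route (no Herbrand hexagon, only ranks): `T` a finite set of primes of `K` such that `T`
generates `Cl(K)` and the primes of `L` above `T` generate `Cl(L)`; `X = L^S` the `S`-units of
`L` (`S` = primes above `T`), `X^G = K^T`.  Then `H¹(G, X) = 1` (Hilbert 90), the ranks of `X`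
and `X^G` are known (Dirichlet), and the abstract index formula gives
`[K^T : N (L^S)] = p ^ (t - 1)`, `t` = number of inert primes in `T`; but if every class of `K`
were a norm, `x ↦ (v(x) mod p)_{v ∈ T inert}` would be a surjection `K^T / N (L^S) → (ℤ/p)^t`.
-/

set_option autoImplicit false

namespace Fermat.Agent.S14x.HQ

open NumberField IsDedekindDomain

section Defs

variable (K L : Type*) [Field K] [NumberField K] [Field L] [NumberField L] [Algebra K L]

/-- Every finite prime of `L` is unramified over `K` (elementary form: `v 𝓞_L ⊄ w ^ 2`). -/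
def UnramFin : Prop :=
  ∀ w : HeightOneSpectrum (𝓞 L),
    ¬ Ideal.map (algebraMap (𝓞 K) (𝓞 L)) (w.under (𝓞 K)).asIdeal ≤ w.asIdeal ^ 2

/-- The standing hypotheses of the first inequality. -/
structure UnramCyclic (p : ℕ) : Prop where
  prime : p.Prime
  galois : IsGalois K L
  finrank : Module.finrank K L = p
  unram : UnramFin K L
  complex : ∀ w : InfinitePlace K, w.IsComplex

/-- **(Lw)** the first inequality in the form used by the proof of reciprocity: some ideal class
of `K` is not the norm of an ideal class of `L`. -/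
def StLw (p : ℕ) : Prop :=
  UnramCyclic K L p →
    ∃ I : Ideal (𝓞 K), I ≠ ⊥ ∧ ∀ (J : Ideal (𝓞 L)) (a b : 𝓞 K), J ≠ ⊥ → a ≠ 0 → b ≠ 0 →
      Ideal.span {a} * I ≠ Ideal.span {b} * Ideal.relNorm (𝓞 K) J

/-- The primes of `L` above a set of primes of `K`. -/
def above (T : Set (HeightOneSpectrum (𝓞 K))) : Set (HeightOneSpectrum (𝓞 L)) :=
  {w | w.under (𝓞 K) ∈ T}

end Defs

section OneField

variable (F : Type*) [Field F] [NumberField F]

/-- `T` generates the class group of `F`, in valuation form: every finitely supported family of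
exponents outside `T` is realised by an element of `Fˣ`. -/
def GenVal (T : Set (HeightOneSpectrum (𝓞 F))) : Prop :=
  ∀ n : HeightOneSpectrum (𝓞 F) → ℤ, (Function.support n).Finite →
    ∃ a : Fˣ, ∀ v : HeightOneSpectrum (𝓞 F), v ∉ T →
      v.valuationOfNeZero a = Multiplicative.ofAdd (n v)

/-- [RANK] Dirichlet's unit theorem for `T`-units, `T` finite. -/
def StRank : Prop :=
  ∀ T : Finset (HeightOneSpectrum (𝓞 F)),
    Module.Finite ℤ (Additive ((T : Set (HeightOneSpectrum (𝓞 F))).unit F)) ∧
    Module.finrank ℤ (Additive ((T : Set (HeightOneSpectrum (𝓞 F))).unit F)) =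
      Fintype.card (InfinitePlace F) - 1 + T.card

/-- [GEN1] some finite set of primes generates the class group (and so does every larger set). -/
def StGen : Prop :=
  ∃ T₀ : Finset (HeightOneSpectrum (𝓞 F)),
    ∀ T : Set (HeightOneSpectrum (𝓞 F)), (T₀ : Set (HeightOneSpectrum (𝓞 F))) ⊆ T → GenVal F T

end OneField

section Leaves

variable (K L : Type*) [Field K] [NumberField K] [Field L] [NumberField L] [Algebra K L]

/-- `v` is inert: there is only one prime of `L` above `v`. -/
def Inert (v : HeightOneSpectrum (𝓞 K)) : Prop :=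
  ∀ w w' : HeightOneSpectrum (𝓞 L), w.under (𝓞 K) = v → w'.under (𝓞 K) = v → w = w'

/-- The norm as a homomorphism of unit groups. -/
noncomputable def normU : Lˣ →* Kˣ := Units.map (Algebra.norm K : L →* K)

/-- The inclusion `Kˣ → Lˣ`. -/
noncomputable def inclU : Kˣ →* Lˣ := Units.map (algebraMap K L : K →* L)

/-- [H1] `H¹(G, L^S) = 1`: Hilbert 90 inside the `S`-units (`S` = primes above `T`), when `T`
generates `Cl(K)`. -/
def StH1 (p : ℕ) : Prop :=
  UnramCyclic K L p → ∀ T : Set (HeightOneSpectrum (𝓞 K)), GenVal K T →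
    ∀ σ : L ≃ₐ[K] L, (∀ τ : L ≃ₐ[K] L, τ ∈ Subgroup.zpowers σ) →
      ∀ x : Lˣ, x ∈ (above K L T).unit L → normU K L x = 1 →
        ∃ y : Lˣ, y ∈ (above K L T).unit L ∧ (x : L) = σ (y : L) / (y : L)

/-- [FIX] the Galois-fixed `S`-units of `L` are the `T`-units of `K`. -/
def StFix (p : ℕ) : Prop :=
  UnramCyclic K L p → ∀ T : Set (HeightOneSpectrum (𝓞 K)), ∀ x : Lˣ,
    (x ∈ (above K L T).unit L ∧ ∀ σ : L ≃ₐ[K] L, σ (x : L) = x) ↔
      ∃ y : Kˣ, y ∈ T.unit K ∧ inclU K L y = x

/-- [COUNT] local structure: every prime of `K` is inert or has exactly `p` primes above it;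
`L` has `p` times as many infinite places as `K`. -/
def StCount (p : ℕ) : Prop :=
  UnramCyclic K L p →
    (∀ v : HeightOneSpectrum (𝓞 K),
      Inert K L v ∨ Nat.card {w : HeightOneSpectrum (𝓞 L) // w.under (𝓞 K) = v} = p) ∧
    (∀ v : HeightOneSpectrum (𝓞 K), Inert K L v →
      Nat.card {w : HeightOneSpectrum (𝓞 L) // w.under (𝓞 K) = v} = 1) ∧
    Fintype.card (InfinitePlace L) = p * Fintype.card (InfinitePlace K)

/-- [NORMVAL] at an inert prime the valuation of a norm is a `p`-th power. -/
def StNormVal (p : ℕ) : Prop :=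
  UnramCyclic K L p → ∀ (v : HeightOneSpectrum (𝓞 K)) (w : HeightOneSpectrum (𝓞 L)),
    w.under (𝓞 K) = v → Inert K L v → ∀ y : Lˣ,
      v.valuationOfNeZero (normU K L y) = (w.valuationOfNeZero y) ^ p

/-- [SURJ] if every ideal class of `K` were a norm (negation of `StLw`), then for every set `T`
whose primes above generate `Cl(L)` and every inert `v₀ ∈ T` there is a `T`-unit of `K` whose
valuation is `≡ 1 mod p` at `v₀` and `≡ 0 mod p` at the other inert primes of `T`. -/
def StSurj (p : ℕ) : Prop :=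
  UnramCyclic K L p →
    (∀ I : Ideal (𝓞 K), I ≠ ⊥ → ∃ (J : Ideal (𝓞 L)) (a b : 𝓞 K), J ≠ ⊥ ∧ a ≠ 0 ∧ b ≠ 0 ∧
      Ideal.span {a} * I = Ideal.span {b} * Ideal.relNorm (𝓞 K) J) →
    ∀ T : Set (HeightOneSpectrum (𝓞 K)), GenVal L (above K L T) →
      ∀ v₀ ∈ T, Inert K L v₀ →
        ∃ c : Kˣ, c ∈ T.unit K ∧
          (∃ m : ℤ, v₀.valuationOfNeZero c = Multiplicative.ofAdd (1 + (p : ℤ) * m)) ∧
          ∀ v ∈ T, v ≠ v₀ → Inert K L v →
            ∃ m : ℤ, v.valuationOfNeZero c = Multiplicative.ofAdd ((p : ℤ) * m)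

end Leaves

section Abstract

/-- [ABS] the abstract index formula in the form consumed by the assembly: a finitely generated
abelian group `X` with an automorphism `σ` of prime order `p` and `H¹ = 1`, of rank `r`, with
fixed subgroup of rank `a`, where `r + (p - 1) t = p a + (p - 1)`, admits NO surjection of the
fixed subgroup onto `(ℤ/p)^t` killing the norms. -/
def StAbs : Prop :=
  ∀ (X : Type) [CommGroup X] (σ : X ≃* X) (p : ℕ) (_ : p.Prime) (r a t : ℕ)
    (_ : Module.Finite ℤ (Additive X))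
    (_ : ∀ x : X, (σ ^ p) x = x)
    (_ : ∀ x : X, (∏ i ∈ Finset.range p, (σ ^ i) x) = 1 → ∃ y : X, x = σ y / y)
    (_ : Module.finrank ℤ (Additive X) = r)
    (Y : Subgroup X) (_ : ∀ x : X, x ∈ Y ↔ σ x = x)
    (_ : Module.finrank ℤ (Additive Y) = a)
    (_ : r + (p - 1) * t = p * a + (p - 1))
    (ν : Y →* Multiplicative (Fin t → ZMod p)) (_ : Function.Surjective ν)
    (_ : ∀ (x : X) (hx : (∏ i ∈ Finset.range p, (σ ^ i) x) ∈ Y),
      ν ⟨∏ i ∈ Finset.range p, (σ ^ i) x, hx⟩ = 1), False

end Abstract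

end Fermat.Agent.S14x.HQ
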