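import Mathlib

/-!
# S14 / HQ, leaf (B): `H¹(G, L^S) = 1` (helper16)

`K ⊆ L` number fields (as types), `L/K` cyclic Galois with generator `g`, `S` a set of primes of
`K` such that `L/K` is unramified outside `S` (`UnrOutside`) and such that every divisor of `K` is
principal up to primes in `S` (`GenCl`, i.e. the primes in `S` generate the class group).

`h1_sunit` : an element `y` of `L` of norm `1` which is a unit at all primes of `L` not above `S`
is of the form `z / g z` with `z` a unit at all primes of `L` not above `S`.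

Tools: the action of `Gal(L/K)` on `HeightOneSpectrum (𝓞 L)` (`smulH`), invariance of the adic
valuations (`valuation_smulH`), transitivity on the primes above a given prime
(`exists_smulH_eq`), Hilbert 90 (Mathlib).
-/

set_option autoImplicit false
set_option linter.unusedSectionVars false
set_option linter.style.haveILetI false

open IsDedekindDomain NumberField
open scoped Pointwise

namespace Fermat.Agent.S14x.HQ.H16

section Abstract

variable {B : Type*} [CommRing B] [IsDedekindDomain B] {G : Type*} [Group G]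
  [MulSemiringAction G B]

/-- The translate of a height one prime by a ring automorphism. -/
def smulH (σ : G) (w : HeightOneSpectrum B) : HeightOneSpectrum B where
  asIdeal := σ • w.asIdeal
  isPrime := Ideal.IsPrime.smul σ
  ne_bot := by
    intro h
    apply w.ne_bot
    have : σ • w.asIdeal = σ • (⊥ : Ideal B) := by rw [h, Ideal.smul_bot]
    exact smul_left_cancel σ this

@[simp] lemma smulH_asIdeal (σ : G) (w : HeightOneSpectrum B) :
    (smulH σ w).asIdeal = σ • w.asIdeal := rfl

lemma smul_pow_ideal (σ : G) (I : Ideal B) (n : ℕ) : σ • (I ^ n) = (σ • I) ^ n := by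
  rw [Ideal.pointwise_smul_def, Ideal.pointwise_smul_def, Ideal.map_pow]

lemma intValuation_smulH (σ : G) (w : HeightOneSpectrum B) (r : B) :
    (smulH σ w).intValuation (σ • r) = w.intValuation r := by
  have key : ∀ n : ℕ, (smulH σ w).intValuation (σ • r) ≤ WithZero.exp (-(n : ℤ)) ↔
      w.intValuation r ≤ WithZero.exp (-(n : ℤ)) := by
    intro n
    rw [HeightOneSpectrum.intValuation_le_pow_iff_mem, HeightOneSpectrum.intValuation_le_pow_iff_mem,
      smulH_asIdeal, ← smul_pow_ideal, Ideal.smul_mem_pointwise_smul_iff]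
  by_cases hr : r = 0
  · subst hr; simp
  have hr' : σ • r ≠ 0 := by
    intro h
    apply hr
    have : σ • r = σ • (0 : B) := by rw [h, smul_zero]
    exact smul_left_cancel σ this
  rw [HeightOneSpectrum.intValuation_eq_exp_neg_multiplicity _ hr] at key ⊢
  rw [HeightOneSpectrum.intValuation_eq_exp_neg_multiplicity _ hr'] at key ⊢
  set a := multiplicity (smulH σ w).asIdeal (Ideal.span {σ • r})
  set b := multiplicity w.asIdeal (Ideal.span {r})
  have h1 := (key a).1 le_rfl
  have h2 := (key b).2 le_rfl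
  rw [WithZero.exp_le_exp] at h1 h2
  congr 1
  omega

end Abstract

section NF

variable (K L : Type) [Field K] [Field L] [NumberField K] [NumberField L] [Algebra K L]

lemma valuation_smulH (σ : L ≃ₐ[K] L) (w : HeightOneSpectrum (𝓞 L)) (x : L) :
    (smulH σ w).valuation L (σ x) = w.valuation L x := by
  obtain ⟨a, b, hb, rfl⟩ := IsFractionRing.div_surjective (A := 𝓞 L) x
  have h1 : ∀ r : 𝓞 L, σ (algebraMap (𝓞 L) L r) = algebraMap (𝓞 L) L (σ • r) := fun r => rfl
  rw [map_div₀, h1, h1, map_div₀, map_div₀, HeightOneSpectrum.valuation_of_algebraMap,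
    HeightOneSpectrum.valuation_of_algebraMap, HeightOneSpectrum.valuation_of_algebraMap,
    HeightOneSpectrum.valuation_of_algebraMap, intValuation_smulH, intValuation_smulH]

lemma under_smulH (σ : L ≃ₐ[K] L) (w : HeightOneSpectrum (𝓞 L)) :
    (smulH σ w).under (𝓞 K) = w.under (𝓞 K) := by
  ext x
  simp only [HeightOneSpectrum.under_asIdeal, smulH_asIdeal, Ideal.under_def, Ideal.mem_comap]
  rw [Ideal.mem_pointwise_smul_iff_inv_smul_mem]
  have : σ⁻¹ • (algebraMap (𝓞 K) (𝓞 L) x) = algebraMap (𝓞 K) (𝓞 L) x := by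
    apply Subtype.ext
    show σ⁻¹ ((algebraMap (𝓞 K) (𝓞 L) x : 𝓞 L) : L) = _
    have h2 : ((algebraMap (𝓞 K) (𝓞 L) x : 𝓞 L) : L) = algebraMap K L (x : K) := rfl
    rw [h2, AlgEquiv.commutes]
    exact h2.symm
  rw [this]

lemma exists_smulH_eq [IsGalois K L] (w₁ w₂ : HeightOneSpectrum (𝓞 L))
    (h : w₁.under (𝓞 K) = w₂.under (𝓞 K)) : ∃ σ : L ≃ₐ[K] L, smulH σ w₁ = w₂ := by
  haveI : w₁.asIdeal.LiesOver (w₁.under (𝓞 K)).asIdeal := ⟨rfl⟩
  haveI : w₂.asIdeal.LiesOver (w₁.under (𝓞 K)).asIdeal := ⟨by rw [h]; rfl⟩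
  obtain ⟨σ, hσ⟩ := Ideal.exists_smul_eq_of_isGaloisGroup (w₁.under (𝓞 K)).asIdeal w₁.asIdeal
    w₂.asIdeal (L ≃ₐ[K] L)
  exact ⟨σ, HeightOneSpectrum.ext hσ⟩

/-- Every height one prime of `𝓞 K` lies under some height one prime of `𝓞 L`. -/
lemma exists_under_eq (v : HeightOneSpectrum (𝓞 K)) :
    ∃ w : HeightOneSpectrum (𝓞 L), w.under (𝓞 K) = v := by
  haveI := v.isPrime
  obtain ⟨P, hPm, hp⟩ := Ideal.exists_maximal_ideal_liesOver_of_isIntegral (S := 𝓞 L) v.asIdeal
  have hP0 : P ≠ ⊥ := by
    intro h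
    apply v.ne_bot
    have := hp.over
    rw [h] at this
    rw [this]
    exact Ideal.under_bot (𝓞 K) (𝓞 L)
  refine ⟨⟨P, hPm.isPrime, hP0⟩, ?_⟩
  ext1
  exact hp.over.symm

/-- The set of primes at which a nonzero element is not a unit is finite. -/
lemma finite_valuation_ne_one (z : Lˣ) :
    {w : HeightOneSpectrum (𝓞 L) | w.valuation L (z : L) ≠ 1}.Finite := by
  have h1 := HeightOneSpectrum.Support.finite (𝓞 L) (z : L)
  have h2 := HeightOneSpectrum.Support.finite (𝓞 L) ((z⁻¹ : Lˣ) : L)
  refine (h1.union h2).subset ?_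
  intro w hw
  simp only [Set.mem_ofPred_eq] at hw
  rcases lt_or_gt_of_ne hw with h | h
  · right
    show 1 < w.valuation L ((z⁻¹ : Lˣ) : L)
    rw [Units.val_inv_eq_inv_val, map_inv₀]
    have hz : w.valuation L (z : L) ≠ 0 := by simp
    exact (one_lt_inv₀ (zero_lt_iff.mpr hz)).mpr h
  · left
    exact h

/-- `S` generates the class group of `K`, in valuation form: every divisor is principal up to
primes in `S`. -/
def GenCl (S : Set (HeightOneSpectrum (𝓞 K))) : Prop :=
  ∀ n : HeightOneSpectrum (𝓞 K) → ℤ, (Function.support n).Finite →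
    ∃ c : Kˣ, ∀ v, v ∉ S → v.valuation K (c : K) = WithZero.exp (n v)

/-- `L/K` is unramified outside (the primes above) `S`, in valuation form. -/
def UnrOutside (S : Set (HeightOneSpectrum (𝓞 K))) : Prop :=
  ∀ w : HeightOneSpectrum (𝓞 L), w.under (𝓞 K) ∉ S → ∀ x : K,
    w.valuation L (algebraMap K L x) = (w.under (𝓞 K)).valuation K x

/-- **Leaf (B)**: `H¹(G, L^S) = 1` for a cyclic extension `L/K` unramified outside `S`, when `S`
generates the class group of `K`. -/
theorem h1_sunit [IsGalois K L] (g : L ≃ₐ[K] L) (hg : ∀ x, x ∈ Subgroup.zpowers g)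
    (S : Set (HeightOneSpectrum (𝓞 K))) (hunr : UnrOutside K L S) (hS : GenCl K S)
    (y : L) (hN : Algebra.norm K y = 1)
    (hy : ∀ w : HeightOneSpectrum (𝓞 L), w.under (𝓞 K) ∉ S → w.valuation L y = 1) :
    ∃ z : Lˣ, (∀ w : HeightOneSpectrum (𝓞 L), w.under (𝓞 K) ∉ S → w.valuation L (z : L) = 1) ∧
      (z : L) / g z = y := by
  classical
  haveI : IsCyclic (L ≃ₐ[K] L) := ⟨⟨g, hg⟩⟩
  obtain ⟨z₀, hz₀⟩ := groupCohomology.exists_div_of_norm_eq_one hg hN
  -- invariance under `g`
  have hinv1 : ∀ w : HeightOneSpectrum (𝓞 L), w.under (𝓞 K) ∉ S →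
      w.valuation L (g z₀) = w.valuation L (z₀ : L) := by
    intro w hw
    have h1 := hy w hw
    rw [← hz₀, map_div₀] at h1
    have hne : w.valuation L (g z₀) ≠ 0 := by simp
    exact ((div_eq_one_iff_eq hne).mp h1).symm
  -- invariance under all of `G`
  have hinv : ∀ σ : L ≃ₐ[K] L, ∀ w : HeightOneSpectrum (𝓞 L), w.under (𝓞 K) ∉ S →
      w.valuation L (σ z₀) = w.valuation L (z₀ : L) := by
    intro σ
    have hnat : ∀ m : ℕ, ∀ w : HeightOneSpectrum (𝓞 L), w.under (𝓞 K) ∉ S →
        w.valuation L ((g ^ m) z₀) = w.valuation L (z₀ : L) := by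
      intro m
      induction m with
      | zero => intro w _; simp
      | succ m ih =>
        intro w hw
        rw [pow_succ, AlgEquiv.mul_apply]
        have hw' : (smulH (g ^ m)⁻¹ w).under (𝓞 K) ∉ S := by rwa [under_smulH]
        have e1 := valuation_smulH K L (g ^ m) (smulH (g ^ m)⁻¹ w) (g z₀)
        have e2 : smulH (g ^ m) (smulH (g ^ m)⁻¹ w) = w := by
          apply HeightOneSpectrum.ext
          simp
        rw [e2] at e1
        rw [e1, hinv1 _ hw']
        have e3 := valuation_smulH K L (g ^ m) (smulH (g ^ m)⁻¹ w) (z₀ : L)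
        rw [e2] at e3
        rw [← e3, ih w hw]
    have hσ : σ ∈ Submonoid.powers g :=
      (isOfFinOrder_of_finite g).mem_powers_iff_mem_zpowers.mpr (hg σ)
    obtain ⟨m, rfl⟩ := hσ
    exact hnat m
  -- the divisor of `z₀` outside `S` comes from `K`
  let wv : HeightOneSpectrum (𝓞 K) → HeightOneSpectrum (𝓞 L) :=
    fun v => Classical.choose (exists_under_eq K L v)
  have hwv : ∀ v, (wv v).under (𝓞 K) = v := fun v => Classical.choose_spec (exists_under_eq K L v)
  let n : HeightOneSpectrum (𝓞 K) → ℤ :=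
    fun v => if v ∈ S then 0 else WithZero.log ((wv v).valuation L (z₀ : L))
  have hfin : (Function.support n).Finite := by
    have h1 := (finite_valuation_ne_one L z₀).image (fun w => w.under (𝓞 K))
    refine h1.subset ?_
    intro v hv
    simp only [Function.mem_support, n] at hv
    by_cases hvS : v ∈ S
    · simp [hvS] at hv
    · simp only [hvS, if_false] at hv
      refine ⟨wv v, ?_, hwv v⟩
      intro h1
      apply hv
      rw [h1]
      simp
  obtain ⟨c, hc⟩ := hS n hfin
  have hval : ∀ w : HeightOneSpectrum (𝓞 L), w.under (𝓞 K) ∉ S →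
      w.valuation L (algebraMap K L (c : K)) = w.valuation L (z₀ : L) := by
    intro w hw
    rw [hunr w hw, hc _ hw]
    simp only [n, hw, if_false]
    have hne : (wv (w.under (𝓞 K))).valuation L (z₀ : L) ≠ 0 := by simp
    rw [WithZero.exp_log hne]
    obtain ⟨σ, hσ⟩ := exists_smulH_eq K L (wv (w.under (𝓞 K))) w (hwv _)
    have e1 := valuation_smulH K L σ (wv (w.under (𝓞 K))) (z₀ : L)
    rw [hσ] at e1
    rw [← e1, hinv σ w hw]
  refine ⟨z₀ * (Units.map (algebraMap K L).toMonoidHom c)⁻¹, ?_, ?_⟩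
  · intro w hw
    have hcne : w.valuation L (algebraMap K L (c : K)) ≠ 0 := by simp
    simp only [Units.val_mul, Units.val_inv_eq_inv_val, Units.coe_map, RingHom.toMonoidHom_eq_coe,
      MonoidHom.coe_coe, map_mul, map_inv₀]
    rw [hval w hw]
    exact mul_inv_cancel₀ (by simp)
  · simp only [Units.val_mul, Units.val_inv_eq_inv_val, Units.coe_map, RingHom.toMonoidHom_eq_coe,
      MonoidHom.coe_coe, map_mul, map_inv₀, AlgEquiv.commutes]
    rw [← hz₀]
    have h1 : (algebraMap K L (c : K)) ≠ 0 := by simp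
    have h2 : g (z₀ : L) ≠ 0 := by simp
    field_simp

end NF

end Fermat.Agent.S14x.HQ.H16
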