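import Fermat.Agent.S14x.HQ.Defs
import Fermat.Agent.S14x.HQ.H16_H1

/-!
# S14 / HQ, leaf [H1] (helper16): `StH1`, verbatim the interface Prop of `HQ/Defs.lean`

Adapter from `H16.h1_sunit` (file `H16_H1.lean`).  Also: the valuation form of `UnramFin`
(`valuation_algebraMap_of_unramFin`) and `GenVal → GenCl`.
-/

set_option autoImplicit false
set_option linter.unusedSectionVars false
set_option linter.style.haveILetI false

open IsDedekindDomain NumberField

namespace Fermat.Agent.S14x.HQ.H16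

variable (K L : Type) [Field K] [Field L] [NumberField K] [NumberField L] [Algebra K L]

/-- `UnramFin` gives the valuation form of unramifiedness. -/
lemma valuation_algebraMap_of_unramFin (h : UnramFin K L) (w : HeightOneSpectrum (𝓞 L)) (x : K) :
    w.valuation L (algebraMap K L x) = (w.under (𝓞 K)).valuation K x := by
  haveI : w.asIdeal.LiesOver (w.under (𝓞 K)).asIdeal := ⟨rfl⟩
  have h1 := HeightOneSpectrum.valuation_liesOver L (w.under (𝓞 K)) w x
  have hle : Ideal.map (algebraMap (𝓞 K) (𝓞 L)) (w.under (𝓞 K)).asIdeal ≤ w.asIdeal ^ 1 := by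
    rw [pow_one, Ideal.map_le_iff_le_comap]
    exact le_rfl
  have he : (w.under (𝓞 K)).asIdeal.ramificationIdx' w.asIdeal = 1 :=
    Ideal.ramificationIdx'_spec hle (h w)
  rw [he, pow_one] at h1
  exact h1.symm

lemma unrOutside_of_unramFin (h : UnramFin K L) (T : Set (HeightOneSpectrum (𝓞 K))) :
    UnrOutside K L T :=
  fun w _ x => valuation_algebraMap_of_unramFin K L h w x

lemma genCl_of_genVal (T : Set (HeightOneSpectrum (𝓞 K))) (h : GenVal K T) : GenCl K T := by
  intro n hn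
  obtain ⟨a, ha⟩ := h n hn
  refine ⟨a, fun v hv => ?_⟩
  rw [← HeightOneSpectrum.valuationOfNeZero_eq, ha v hv]
  rfl

/-- **[H1]** `H¹(G, L^S) = 1`, verbatim helper19's Prop. -/
theorem stH1 (p : ℕ) : StH1 K L p := by
  intro hU T hT σ hσ x hx hN
  haveI := hU.galois
  have hN' : Algebra.norm K ((x⁻¹ : Lˣ) : L) = 1 := by
    have h1 : ((normU K L x : Kˣ) : K) = 1 := by rw [hN]; rfl
    have h2 : ((normU K L x : Kˣ) : K) = Algebra.norm K (x : L) := rfl
    rw [Units.val_inv_eq_inv_val, Algebra.norm_inv, ← h2, h1, inv_one]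
  have hx' : ∀ w : HeightOneSpectrum (𝓞 L), w.under (𝓞 K) ∉ T →
      w.valuation L ((x⁻¹ : Lˣ) : L) = 1 := by
    intro w hw
    have := (above K L T).unit_valuation_eq_one (K := L) ⟨x⁻¹, inv_mem hx⟩ (v := w) hw
    exact this
  obtain ⟨z, hz, hzx⟩ := h1_sunit K L σ hσ T (unrOutside_of_unramFin K L hU.unram T)
    (genCl_of_genVal K T hT) _ hN' hx'
  refine ⟨z, fun w hw => hz w hw, ?_⟩
  have hz0 : (z : L) ≠ 0 := z.ne_zero
  have hσz0 : σ (z : L) ≠ 0 := by simp
  have hx0 : (x : L) ≠ 0 := x.ne_zero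
  rw [Units.val_inv_eq_inv_val] at hzx
  field_simp at hzx ⊢
  rw [← hzx]

end Fermat.Agent.S14x.HQ.H16
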