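import Fermat.Agent.S14x.HQ.Defs
import Fermat.Agent.S14x.HQ.H16_StH1

/-!
# S14 / HQ, leaf [FIX] (helper16): `StFix`, verbatim the interface Prop of `HQ/Defs.lean`

The Galois-fixed `S`-units of `L` (`S` = primes above `T`) are the `T`-units of `K`.
-/

set_option autoImplicit false
set_option linter.unusedSectionVars false
set_option linter.style.haveILetI false

open IsDedekindDomain NumberField

namespace Fermat.Agent.S14x.HQ.H16

variable (K L : Type) [Field K] [Field L] [NumberField K] [NumberField L] [Algebra K L]

/-- **[FIX]** the Galois-fixed `S`-units of `L` are the `T`-units of `K`. -/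
theorem stFix (p : ℕ) : StFix K L p := by
  intro hU T x
  haveI := hU.galois
  constructor
  · rintro ⟨hx, hfix⟩
    have hmem : (x : L) ∈ Set.range (algebraMap K L) := by
      rw [IsGalois.mem_range_algebraMap_iff_fixed]
      exact hfix
    obtain ⟨y, hy⟩ := hmem
    have hy0 : y ≠ 0 := by
      rintro rfl
      rw [map_zero] at hy
      exact x.ne_zero hy.symm
    refine ⟨Units.mk0 y hy0, ?_, ?_⟩
    · intro v hv
      obtain ⟨w, hw⟩ := exists_under_eq K L v
      have hwT : w ∉ above K L T := by
        show ¬ (w.under (𝓞 K) ∈ T)
        rw [hw]; exact hv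
      have h1 : w.valuation L (x : L) = 1 := hx w hwT
      rw [← hy, valuation_algebraMap_of_unramFin K L hU.unram w y, hw] at h1
      exact h1
    · apply Units.ext
      exact hy
  · rintro ⟨y, hy, rfl⟩
    refine ⟨?_, ?_⟩
    · intro w hw
      have hv : w.under (𝓞 K) ∉ T := hw
      have h1 : (w.under (𝓞 K)).valuation K (y : K) = 1 := hy _ hv
      show w.valuation L (algebraMap K L (y : K)) = 1
      rw [valuation_algebraMap_of_unramFin K L hU.unram w y, h1]
    · intro σ
      exact σ.commutes (y : K)

end Fermat.Agent.S14x.HQ.H16
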