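import Fermat.Agent.S14x.HQ.Defs
import Fermat.Agent.S14x.HQ.H16_StH1

/-!
# S14 / HQ, leaf [NORMVAL] (helper16): `StNormVal`, verbatim the interface Prop of `HQ/Defs.lean`

At an inert prime `v` (unique `w` above `v`) the valuation of a norm is a `p`-th power:
`v(N y) = w(y) ^ p`.
-/

set_option autoImplicit false
set_option linter.unusedSectionVars false
set_option linter.style.haveILetI false

open IsDedekindDomain NumberField

namespace Fermat.Agent.S14x.HQ.H16

variable (K L : Type) [Field K] [Field L] [NumberField K] [NumberField L] [Algebra K L]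

/-- At an inert prime, the valuation is Galois invariant. -/
lemma valuation_apply_of_inert (v : HeightOneSpectrum (𝓞 K)) (w : HeightOneSpectrum (𝓞 L))
    (hw : w.under (𝓞 K) = v) (hin : Inert K L v) (σ : L ≃ₐ[K] L) (y : L) :
    w.valuation L (σ y) = w.valuation L y := by
  have h1 : smulH σ w = w := hin _ _ (by rw [under_smulH, hw]) hw
  have h2 := valuation_smulH K L σ w y
  rwa [h1] at h2

/-- **[NORMVAL]** at an inert prime the valuation of a norm is a `p`-th power. -/
theorem stNormVal (p : ℕ) : StNormVal K L p := by
  intro hU v w hw hin y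
  haveI := hU.galois
  apply WithZero.coe_injective
  rw [HeightOneSpectrum.valuationOfNeZero_eq, WithZero.coe_pow,
    HeightOneSpectrum.valuationOfNeZero_eq]
  have h1 : ((normU K L y : Kˣ) : K) = Algebra.norm K (y : L) := rfl
  rw [h1, ← hw, ← valuation_algebraMap_of_unramFin K L hU.unram w, 
    Algebra.norm_eq_prod_automorphisms, map_prod]
  rw [Finset.prod_congr rfl (fun σ _ => valuation_apply_of_inert K L v w hw hin σ (y : L))]
  rw [Finset.prod_const, Finset.card_univ, ← Nat.card_eq_fintype_card,
    IsGalois.card_aut_eq_finrank, hU.finrank]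

end Fermat.Agent.S14x.HQ.H16
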