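import Fermat.Agent.S14x.HQ.Defs
import Fermat.Agent.S14x.HQ.H16_NormVal

/-!
# S14 / HQ, leaf [SURJ] (helper16): `StSurj`, verbatim the interface Prop of `HQ/Defs.lean`

If every ideal class of `K` is a norm from `L`, then for every set `T` of primes of `K` whose
primes above generate `Cl(L)` and every inert `v₀ ∈ T` there is a `T`-unit `c` of `K` with
`v₀(c) ≡ 1 mod p` and `v(c) ≡ 0 mod p` at the other inert primes of `T`.

Tools (namespace `Fermat.Agent.S14x.HQ.H16`):
* multiplicities of primes in ideals of a Dedekind domain: `mult_mul`, `mult_pow`, `mult_self`,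
  `mult_of_ne`, `exists_gcd_decomp`;
* `mult_relNorm_eq_zero`, `mult_relNorm_congr` : the multiplicity of `v` in `relNorm I` depends
  only on the multiplicities of the primes above `v` in `I`;
* `inertiaDeg_of_inert`, `relNorm_of_inert`, `mult_relNorm_inert` : at an inert prime of an
  unramified extension of prime degree `p`, `f = p` and `v(N I) = p · w(I)`.
-/

set_option autoImplicit false
set_option linter.unusedSectionVars false
set_option linter.style.haveILetI false

open IsDedekindDomain NumberField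

namespace Fermat.Agent.S14x.HQ.H16

section Mult

variable {R : Type*} [CommRing R] [IsDedekindDomain R]

lemma mult_mul (v : HeightOneSpectrum R) {I J : Ideal R} (hI : I ≠ ⊥) (hJ : J ≠ ⊥) :
    multiplicity v.asIdeal (I * J) = multiplicity v.asIdeal I + multiplicity v.asIdeal J :=
  multiplicity_mul v.prime (FiniteMultiplicity.of_prime_left v.prime (mul_ne_zero hI hJ))

lemma mult_top (v : HeightOneSpectrum R) : multiplicity v.asIdeal (⊤ : Ideal R) = 0 := by
  rw [multiplicity_eq_zero, Ideal.dvd_iff_le]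
  intro h
  exact v.isPrime.ne_top (top_le_iff.mp h)

lemma mult_of_isUnit (v : HeightOneSpectrum R) {I : Ideal R} (hI : IsUnit I) :
    multiplicity v.asIdeal I = 0 := by
  rw [Ideal.isUnit_iff] at hI
  rw [hI]
  exact mult_top v

lemma mult_self (v : HeightOneSpectrum R) : multiplicity v.asIdeal v.asIdeal = 1 := by
  have := multiplicity_pow_self_of_prime v.prime 1
  rwa [pow_one] at this

lemma mult_pow (v : HeightOneSpectrum R) {I : Ideal R} (hI : I ≠ ⊥) (n : ℕ) :
    multiplicity v.asIdeal (I ^ n) = n * multiplicity v.asIdeal I := by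
  induction n with
  | zero => rw [pow_zero, Ideal.one_eq_top, mult_top]; simp
  | succ n ih =>
    rw [pow_succ, mult_mul v (pow_ne_zero n hI) hI, ih]
    ring

lemma mult_of_ne {v w : HeightOneSpectrum R} (h : v ≠ w) :
    multiplicity v.asIdeal w.asIdeal = 0 := by
  rw [multiplicity_eq_zero, Ideal.dvd_iff_le]
  intro hle
  apply h
  have hmax : w.asIdeal.IsMaximal := w.isMaximal
  have := hmax.eq_of_le v.isPrime.ne_top hle
  exact (HeightOneSpectrum.ext this).symm

/-- two-sided gcd decomposition -/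
lemma exists_gcd_decomp (I₁ I₂ : Ideal R) (h₁ : I₁ ≠ ⊥) (h₂ : I₂ ≠ ⊥) :
    ∃ G J₁ J₂ : Ideal R, G ≠ ⊥ ∧ J₁ ≠ ⊥ ∧ J₂ ≠ ⊥ ∧ I₁ = G * J₁ ∧ I₂ = G * J₂ ∧
      ∀ v : HeightOneSpectrum R, multiplicity v.asIdeal I₁ = multiplicity v.asIdeal I₂ →
        multiplicity v.asIdeal J₁ = 0 ∧ multiplicity v.asIdeal J₂ = 0 := by
  have hG : I₁ ⊔ I₂ ≠ ⊥ := by
    intro h
    apply h₁
    exact eq_bot_iff.mpr (h ▸ le_sup_left)
  obtain ⟨J₁, hJ₁⟩ : I₁ ⊔ I₂ ∣ I₁ := Ideal.dvd_iff_le.mpr le_sup_left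
  obtain ⟨J₂, hJ₂⟩ : I₁ ⊔ I₂ ∣ I₂ := Ideal.dvd_iff_le.mpr le_sup_right
  have hJ₁0 : J₁ ≠ ⊥ := by
    rintro rfl
    apply h₁
    rw [hJ₁]; simp
  have hJ₂0 : J₂ ≠ ⊥ := by
    rintro rfl
    apply h₂
    rw [hJ₂]; simp
  refine ⟨I₁ ⊔ I₂, J₁, J₂, hG, hJ₁0, hJ₂0, hJ₁, hJ₂, ?_⟩
  intro v hv
  have e1 : multiplicity v.asIdeal I₁ =
      multiplicity v.asIdeal (I₁ ⊔ I₂) + multiplicity v.asIdeal J₁ := by
    conv_lhs => rw [hJ₁]
    exact mult_mul v hG hJ₁0
  have e2 : multiplicity v.asIdeal I₂ =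
      multiplicity v.asIdeal (I₁ ⊔ I₂) + multiplicity v.asIdeal J₂ := by
    conv_lhs => rw [hJ₂]
    exact mult_mul v hG hJ₂0
  have e3 := HeightOneSpectrum.multiplicity_sup v h₁ h₂
  rw [hv] at e3 e1
  simp only [inf_idem] at e3
  omega

end Mult

section RelNorm

variable (K L : Type) [Field K] [Field L] [NumberField K] [NumberField L] [Algebra K L]

/-- The relative norm of a prime is a power of the prime below. -/
lemma relNorm_prime_eq_pow (w : HeightOneSpectrum (𝓞 L)) :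
    ∃ s : ℕ, Ideal.relNorm (𝓞 K) w.asIdeal = (w.under (𝓞 K)).asIdeal ^ s := by
  haveI : w.asIdeal.LiesOver (w.under (𝓞 K)).asIdeal := ⟨rfl⟩
  haveI := (w.under (𝓞 K)).isPrime
  exact Ideal.exists_relNorm_eq_pow_of_isPrime w.asIdeal (w.under (𝓞 K)).asIdeal

lemma relNorm_ne_bot {I : Ideal (𝓞 L)} (hI : I ≠ ⊥) : Ideal.relNorm (𝓞 K) I ≠ ⊥ := by
  rw [Ne, Ideal.relNorm_eq_bot_iff]
  exact hI

/-- (C1') if no prime above `v` divides `I`, then `v` does not divide the norm of `I`. -/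
lemma mult_relNorm_eq_zero (v : HeightOneSpectrum (𝓞 K)) (I : Ideal (𝓞 L)) (hI : I ≠ ⊥)
    (h : ∀ w : HeightOneSpectrum (𝓞 L), w.under (𝓞 K) = v → multiplicity w.asIdeal I = 0) :
    multiplicity v.asIdeal (Ideal.relNorm (𝓞 K) I) = 0 := by
  induction I using UniqueFactorizationMonoid.induction_on_prime with
  | h₁ => exact absurd rfl hI
  | h₂ x hx =>
    rw [Ideal.isUnit_iff] at hx
    rw [hx, Ideal.relNorm_top]
    exact mult_top v
  | h₃ a q ha hq ih =>
    have hq0 : q ≠ ⊥ := hq.ne_zero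
    let w₀ : HeightOneSpectrum (𝓞 L) := ⟨q, Ideal.isPrime_of_prime hq, hq0⟩
    have hmul : ∀ w : HeightOneSpectrum (𝓞 L),
        multiplicity w.asIdeal (q * a) = multiplicity w.asIdeal q + multiplicity w.asIdeal a :=
      fun w => mult_mul w hq0 ha
    have ha' : ∀ w : HeightOneSpectrum (𝓞 L), w.under (𝓞 K) = v →
        multiplicity w.asIdeal a = 0 := by
      intro w hw
      have := h w hw
      rw [hmul] at this
      omega
    have hw₀ : w₀.under (𝓞 K) ≠ v := by
      intro hw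
      have := h w₀ hw
      rw [hmul] at this
      have h1 : multiplicity w₀.asIdeal q = 1 := mult_self w₀
      omega
    rw [map_mul, mult_mul v (relNorm_ne_bot K L hq0) (relNorm_ne_bot K L ha), ih ha ha', add_zero]
    obtain ⟨s, hs⟩ := relNorm_prime_eq_pow K L w₀
    have hs' : Ideal.relNorm (𝓞 K) q = (w₀.under (𝓞 K)).asIdeal ^ s := hs
    rw [hs', mult_pow v (w₀.under (𝓞 K)).ne_bot, mult_of_ne (Ne.symm hw₀), mul_zero]

/-- (C1) the multiplicity of `v` in the norm of `I` depends only on the multiplicities of the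
primes above `v` in `I`. -/
lemma mult_relNorm_congr (v : HeightOneSpectrum (𝓞 K)) (I₁ I₂ : Ideal (𝓞 L)) (h₁ : I₁ ≠ ⊥)
    (h₂ : I₂ ≠ ⊥)
    (h : ∀ w : HeightOneSpectrum (𝓞 L), w.under (𝓞 K) = v →
      multiplicity w.asIdeal I₁ = multiplicity w.asIdeal I₂) :
    multiplicity v.asIdeal (Ideal.relNorm (𝓞 K) I₁) =
      multiplicity v.asIdeal (Ideal.relNorm (𝓞 K) I₂) := by
  obtain ⟨G, J₁, J₂, hG, hJ₁, hJ₂, e₁, e₂, hJ⟩ := exists_gcd_decomp I₁ I₂ h₁ h₂
  rw [e₁, e₂, map_mul, map_mul, mult_mul v (relNorm_ne_bot K L hG) (relNorm_ne_bot K L hJ₁),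
    mult_mul v (relNorm_ne_bot K L hG) (relNorm_ne_bot K L hJ₂),
    mult_relNorm_eq_zero K L v J₁ hJ₁ (fun w hw => (hJ w (h w hw)).1),
    mult_relNorm_eq_zero K L v J₂ hJ₂ (fun w hw => (hJ w (h w hw)).2)]

end RelNorm

section Inert

variable (K L : Type) [Field K] [Field L] [NumberField K] [NumberField L] [Algebra K L]

/-- The inertia degree at an inert prime of an unramified extension of degree `p` is `p`. -/
lemma inertiaDeg_of_inert (p : ℕ) (hU : UnramCyclic K L p) (v : HeightOneSpectrum (𝓞 K))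
    (w : HeightOneSpectrum (𝓞 L)) (hw : w.under (𝓞 K) = v) (hin : Inert K L v) :
    w.asIdeal.inertiaDeg (𝓞 K) = p := by
  haveI := hU.galois
  haveI : w.asIdeal.LiesOver v.asIdeal := ⟨by rw [← hw]; rfl⟩
  haveI := v.isPrime
  have h := Ideal.ncard_primesOver_mul_ramificationIdxIn_mul_inertiaDegIn v.asIdeal (𝓞 L)
    (L ≃ₐ[K] L)
  have h1 : (v.asIdeal.primesOver (𝓞 L)).ncard = 1 := by
    rw [Set.ncard_eq_one]
    refine ⟨w.asIdeal, ?_⟩
    ext Q
    simp only [Set.mem_singleton_iff]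
    constructor
    · rintro ⟨hQp, hQl⟩
      have hQ0 : Q ≠ ⊥ := by
        intro hQ
        apply v.ne_bot
        have := hQl.over
        rw [hQ] at this
        rw [this]
        exact Ideal.under_bot (𝓞 K) (𝓞 L)
      have := hin ⟨Q, hQp, hQ0⟩ w (by ext1; exact hQl.over.symm) hw
      exact congrArg HeightOneSpectrum.asIdeal this
    · rintro rfl
      exact ⟨w.isPrime, inferInstance⟩
  have h2 : Ideal.ramificationIdxIn v.asIdeal (𝓞 L) = 1 := by
    rw [Ideal.ramificationIdxIn_eq_ramificationIdx v.asIdeal w.asIdeal (L ≃ₐ[K] L),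
      ← Ideal.ramificationIdx'_eq_ramificationIdx v.asIdeal w.asIdeal v.ne_bot]
    have hle : Ideal.map (algebraMap (𝓞 K) (𝓞 L)) v.asIdeal ≤ w.asIdeal ^ 1 := by
      rw [pow_one, Ideal.map_le_iff_le_comap, ← hw]
      exact le_rfl
    refine Ideal.ramificationIdx'_spec hle ?_
    have := hU.unram w
    rwa [hw] at this
  have h3 : Ideal.inertiaDegIn v.asIdeal (𝓞 L) = w.asIdeal.inertiaDeg (𝓞 K) :=
    Ideal.inertiaDegIn_eq_inertiaDeg v.asIdeal w.asIdeal (L ≃ₐ[K] L)
  rw [h1, h2, h3, one_mul, one_mul, IsGalois.card_aut_eq_finrank, hU.finrank] at h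
  exact h

end Inert

section Surj

variable (K L : Type) [Field K] [Field L] [NumberField K] [NumberField L] [Algebra K L]

/-- The relative norm of an inert prime. -/
lemma relNorm_of_inert (p : ℕ) (hU : UnramCyclic K L p) (v : HeightOneSpectrum (𝓞 K))
    (w : HeightOneSpectrum (𝓞 L)) (hw : w.under (𝓞 K) = v) (hin : Inert K L v) :
    Ideal.relNorm (𝓞 K) w.asIdeal = v.asIdeal ^ p := by
  haveI : w.asIdeal.LiesOver v.asIdeal := ⟨by rw [← hw]; rfl⟩
  haveI := v.isMaximal
  haveI := w.isMaximal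
  rw [Ideal.relNorm_eq_pow_of_isMaximal w.asIdeal v.asIdeal,
    inertiaDeg_of_inert K L p hU v w hw hin]

/-- (C2) at an inert prime, the multiplicity of the norm is `p` times the multiplicity. -/
lemma mult_relNorm_inert (p : ℕ) (hU : UnramCyclic K L p) (v : HeightOneSpectrum (𝓞 K))
    (w : HeightOneSpectrum (𝓞 L)) (hw : w.under (𝓞 K) = v) (hin : Inert K L v)
    (I : Ideal (𝓞 L)) (hI : I ≠ ⊥) :
    multiplicity v.asIdeal (Ideal.relNorm (𝓞 K) I) = p * multiplicity w.asIdeal I := by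
  induction I using UniqueFactorizationMonoid.induction_on_prime with
  | h₁ => exact absurd rfl hI
  | h₂ x hx =>
    rw [Ideal.isUnit_iff] at hx
    rw [hx, Ideal.relNorm_top, mult_top, mult_top, mul_zero]
  | h₃ a q ha hq ih =>
    have hq0 : q ≠ ⊥ := hq.ne_zero
    let w₀ : HeightOneSpectrum (𝓞 L) := ⟨q, Ideal.isPrime_of_prime hq, hq0⟩
    rw [map_mul, mult_mul v (relNorm_ne_bot K L hq0) (relNorm_ne_bot K L ha), ih ha,
      mult_mul w hq0 ha, mul_add]
    congr 1
    by_cases hww : w₀ = w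
    · have e1 : q = w.asIdeal := congrArg HeightOneSpectrum.asIdeal hww
      rw [e1, relNorm_of_inert K L p hU v w hw hin, mult_pow v v.ne_bot, mult_self, mult_self]
    · have hu : w₀.under (𝓞 K) ≠ v := fun h => hww (hin _ _ h hw)
      obtain ⟨s, hs⟩ := relNorm_prime_eq_pow K L w₀
      have hs' : Ideal.relNorm (𝓞 K) q = (w₀.under (𝓞 K)).asIdeal ^ s := hs
      have e2 : multiplicity w.asIdeal q = 0 := mult_of_ne (v := w) (w := w₀) (Ne.symm hww)
      rw [hs', mult_pow v (w₀.under (𝓞 K)).ne_bot, mult_of_ne (Ne.symm hu), e2]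
      simp

lemma intValuation_eq_exp_mult {R : Type*} [CommRing R] [IsDedekindDomain R]
    (v : HeightOneSpectrum R) {r : R} (hr : r ≠ 0) :
    v.intValuation r = WithZero.exp (-(multiplicity v.asIdeal (Ideal.span {r}) : ℤ)) :=
  v.intValuation_eq_exp_neg_multiplicity hr

lemma span_ne_bot' {R : Type*} [CommRing R] {r : R} (hr : r ≠ 0) : Ideal.span {r} ≠ ⊥ := by
  rw [Ne, Ideal.span_singleton_eq_bot]
  exact hr

/-- **[SURJ]**, verbatim helper19's Prop. -/
theorem stSurj (p : ℕ) : StSurj K L p := by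
  intro hU hNorm T hGen v₀ hv₀T hin₀
  haveI := hU.galois
  obtain ⟨J, a, b, hJ, ha, hb, hab⟩ := hNorm v₀.asIdeal v₀.ne_bot
  -- the element `γ`
  let n : HeightOneSpectrum (𝓞 L) → ℤ := fun w => -(multiplicity w.asIdeal J : ℤ)
  have hn : (Function.support n).Finite := by
    refine (Ideal.finite_factors hJ).subset ?_
    intro w hw
    simp only [Function.mem_support, n, ne_eq, neg_eq_zero, Nat.cast_eq_zero] at hw
    by_contra hdvd
    exact hw (multiplicity_eq_zero.mpr hdvd)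
  obtain ⟨γ, hγ⟩ := hGen n hn
  obtain ⟨γ₁, γ₂, hγ₂, hγe⟩ := IsFractionRing.div_surjective (A := 𝓞 L) (γ : L)
  have hγ₂0 : γ₂ ≠ 0 := nonZeroDivisors.ne_zero hγ₂
  have hγ₁0 : γ₁ ≠ 0 := by
    rintro rfl
    rw [map_zero, zero_div] at hγe
    exact γ.ne_zero hγe.symm
  -- multiplicities outside `above T`
  have hmult : ∀ w : HeightOneSpectrum (𝓞 L), w ∉ above K L T →
      multiplicity w.asIdeal (Ideal.span {γ₁}) =
        multiplicity w.asIdeal (J * Ideal.span {γ₂}) := by
    intro w hw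
    have h1 : w.valuation L (γ : L) = WithZero.exp (n w) := by
      rw [← HeightOneSpectrum.valuationOfNeZero_eq, hγ w hw]
      rfl
    rw [← hγe, map_div₀, HeightOneSpectrum.valuation_of_algebraMap,
      HeightOneSpectrum.valuation_of_algebraMap, intValuation_eq_exp_mult w hγ₁0,
      intValuation_eq_exp_mult w hγ₂0, ← WithZero.exp_sub, WithZero.exp_inj] at h1
    rw [mult_mul w hJ (span_ne_bot' hγ₂0)]
    simp only [n] at h1
    omega
  -- the element `c`
  set N₁ : 𝓞 K := Algebra.intNorm (𝓞 K) (𝓞 L) γ₁ with hN₁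
  set N₂ : 𝓞 K := Algebra.intNorm (𝓞 K) (𝓞 L) γ₂ with hN₂
  have hR₁ : Ideal.relNorm (𝓞 K) (Ideal.span {γ₁}) = Ideal.span {N₁} :=
    Ideal.relNorm_singleton (𝓞 K) γ₁
  have hR₂ : Ideal.relNorm (𝓞 K) (Ideal.span {γ₂}) = Ideal.span {N₂} :=
    Ideal.relNorm_singleton (𝓞 K) γ₂
  have hN₁0 : N₁ ≠ 0 := by
    have := relNorm_ne_bot K L (span_ne_bot' hγ₁0)
    rw [hR₁, Ne, Ideal.span_singleton_eq_bot] at this
    exact this
  have hN₂0 : N₂ ≠ 0 := by
    have := relNorm_ne_bot K L (span_ne_bot' hγ₂0)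
    rw [hR₂, Ne, Ideal.span_singleton_eq_bot] at this
    exact this
  have haN : a * N₂ ≠ 0 := mul_ne_zero ha hN₂0
  have hbN : b * N₁ ≠ 0 := mul_ne_zero hb hN₁0
  have hcK : algebraMap (𝓞 K) K (a * N₂) / algebraMap (𝓞 K) K (b * N₁) ≠ 0 := by
    apply div_ne_zero
    · exact (map_ne_zero_iff _ (IsFractionRing.injective (𝓞 K) K)).mpr haN
    · exact (map_ne_zero_iff _ (IsFractionRing.injective (𝓞 K) K)).mpr hbN
  -- valuations of `c`
  have hE : ∀ v : HeightOneSpectrum (𝓞 K),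
      v.valuation K (algebraMap (𝓞 K) K (a * N₂) / algebraMap (𝓞 K) K (b * N₁)) =
        WithZero.exp ((multiplicity v.asIdeal v₀.asIdeal : ℤ) +
          multiplicity v.asIdeal (Ideal.relNorm (𝓞 K) (Ideal.span {γ₁})) -
          multiplicity v.asIdeal (Ideal.relNorm (𝓞 K) (J * Ideal.span {γ₂}))) := by
    intro v
    rw [map_div₀, HeightOneSpectrum.valuation_of_algebraMap,
      HeightOneSpectrum.valuation_of_algebraMap, intValuation_eq_exp_mult v haN,
      intValuation_eq_exp_mult v hbN, ← WithZero.exp_sub, WithZero.exp_inj]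
    have e1 : multiplicity v.asIdeal (Ideal.span {a * N₂}) =
        multiplicity v.asIdeal (Ideal.span {a}) +
          multiplicity v.asIdeal (Ideal.relNorm (𝓞 K) (Ideal.span {γ₂})) := by
      rw [hR₂, ← mult_mul v (span_ne_bot' ha) (span_ne_bot' hN₂0), Ideal.span_singleton_mul_span_singleton]
    have e2 : multiplicity v.asIdeal (Ideal.span {b * N₁}) =
        multiplicity v.asIdeal (Ideal.span {b}) +
          multiplicity v.asIdeal (Ideal.relNorm (𝓞 K) (Ideal.span {γ₁})) := by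
      rw [hR₁, ← mult_mul v (span_ne_bot' hb) (span_ne_bot' hN₁0), Ideal.span_singleton_mul_span_singleton]
    have e3 : multiplicity v.asIdeal (Ideal.span {a}) + multiplicity v.asIdeal v₀.asIdeal =
        multiplicity v.asIdeal (Ideal.span {b}) +
          multiplicity v.asIdeal (Ideal.relNorm (𝓞 K) J) := by
      rw [← mult_mul v (span_ne_bot' ha) v₀.ne_bot, hab,
        mult_mul v (span_ne_bot' hb) (relNorm_ne_bot K L hJ)]
    have e4 : multiplicity v.asIdeal (Ideal.relNorm (𝓞 K) (J * Ideal.span {γ₂})) =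
        multiplicity v.asIdeal (Ideal.relNorm (𝓞 K) J) +
          multiplicity v.asIdeal (Ideal.relNorm (𝓞 K) (Ideal.span {γ₂})) := by
      rw [map_mul, mult_mul v (relNorm_ne_bot K L hJ) (relNorm_ne_bot K L (span_ne_bot' hγ₂0))]
    rw [e1, e2, e4]
    push_cast
    have e3' : (multiplicity v.asIdeal (Ideal.span {a}) : ℤ) +
        multiplicity v.asIdeal v₀.asIdeal =
        multiplicity v.asIdeal (Ideal.span {b}) +
          multiplicity v.asIdeal (Ideal.relNorm (𝓞 K) J) := by exact_mod_cast e3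
    linarith
  have hJγ : J * Ideal.span {γ₂} ≠ ⊥ := mul_ne_zero hJ (span_ne_bot' hγ₂0)
  refine ⟨Units.mk0 _ hcK, ?_, ?_, ?_⟩
  · -- `T`-unit
    intro v hv
    show v.valuation K (algebraMap (𝓞 K) K (a * N₂) / algebraMap (𝓞 K) K (b * N₁)) = 1
    rw [hE v]
    have h1 : multiplicity v.asIdeal v₀.asIdeal = 0 := by
      apply mult_of_ne
      rintro rfl
      exact hv hv₀T
    have h2 := mult_relNorm_congr K L v (Ideal.span {γ₁}) (J * Ideal.span {γ₂})
      (span_ne_bot' hγ₁0) hJγ (fun w hw => hmult w (by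
        show ¬ (w.under (𝓞 K) ∈ T)
        rw [hw]; exact hv))
    rw [h1, h2]
    simp
  · -- at `v₀`
    obtain ⟨w, hw⟩ := exists_under_eq K L v₀
    refine ⟨(multiplicity w.asIdeal (Ideal.span {γ₁}) : ℤ) -
      multiplicity w.asIdeal (J * Ideal.span {γ₂}), ?_⟩
    apply WithZero.coe_injective
    rw [HeightOneSpectrum.valuationOfNeZero_eq]
    show v₀.valuation K (algebraMap (𝓞 K) K (a * N₂) / algebraMap (𝓞 K) K (b * N₁)) = _
    rw [hE v₀, mult_self, mult_relNorm_inert K L p hU v₀ w hw hin₀ _ (span_ne_bot' hγ₁0),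
      mult_relNorm_inert K L p hU v₀ w hw hin₀ _ hJγ]
    show WithZero.exp _ = WithZero.exp _
    congr 1
    push_cast
    ring
  · -- at the other inert primes
    intro v hvT hv hin
    obtain ⟨w, hw⟩ := exists_under_eq K L v
    refine ⟨(multiplicity w.asIdeal (Ideal.span {γ₁}) : ℤ) -
      multiplicity w.asIdeal (J * Ideal.span {γ₂}), ?_⟩
    apply WithZero.coe_injective
    rw [HeightOneSpectrum.valuationOfNeZero_eq]
    show v.valuation K (algebraMap (𝓞 K) K (a * N₂) / algebraMap (𝓞 K) K (b * N₁)) = _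
    rw [hE v, mult_of_ne hv, mult_relNorm_inert K L p hU v w hw hin _ (span_ne_bot' hγ₁0),
      mult_relNorm_inert K L p hU v w hw hin _ hJγ]
    show WithZero.exp _ = WithZero.exp _
    congr 1
    push_cast
    ring

end Surj

end Fermat.Agent.S14x.HQ.H16
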