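import Mathlib
import Fermat.Agent.S14x.HQ.Defs

/-!
# S14 / HQ, assembly of the first inequality: auxiliary lemmas (helper18)

* a generator of the Galois group of a cyclic extension of prime degree, the norm as the product
  of the powers of the generator;
* the primes of `L` above a finite set `T` of primes of `K`: finiteness and cardinality
  `t + p s` (`t` inert, `s` split primes in `T`);
* Galois action on the `S`-units of `L` (`S` = primes above `T`).
-/

set_option autoImplicit false
set_option linter.unusedSectionVars false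
set_option linter.style.haveILetI false

open IsDedekindDomain NumberField
open scoped Pointwise

namespace Fermat.Agent.S14x.HQ

section Generator

variable (K L : Type*) [Field K] [NumberField K] [Field L] [NumberField L] [Algebra K L]

lemma h18_finiteDimensional : FiniteDimensional K L :=
  Module.Finite.of_restrictScalars_finite ℚ K L

/-- The Galois group of a Galois extension of prime degree has a generator of order `p`. -/
lemma h18_exists_gen (p : ℕ) (h : UnramCyclic K L p) :
    ∃ σ : L ≃ₐ[K] L, (∀ τ : L ≃ₐ[K] L, τ ∈ Subgroup.zpowers σ) ∧ orderOf σ = p := by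
  haveI := h.galois
  haveI := h18_finiteDimensional K L
  haveI : Fact p.Prime := ⟨h.prime⟩
  have hcard : Nat.card (L ≃ₐ[K] L) = p := by
    rw [IsGalois.card_aut_eq_finrank, h.finrank]
  haveI : IsCyclic (L ≃ₐ[K] L) := isCyclic_of_prime_card hcard
  obtain ⟨σ, hσ⟩ := IsCyclic.exists_generator (α := L ≃ₐ[K] L)
  refine ⟨σ, hσ, ?_⟩
  rw [orderOf_eq_card_of_forall_mem_zpowers hσ, hcard]

/-- The norm is the product of the conjugates under the powers of a generator. -/
lemma h18_norm_eq_prod_pow [IsGalois K L] (p : ℕ) (σ : L ≃ₐ[K] L)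
    (hσ : ∀ τ : L ≃ₐ[K] L, τ ∈ Subgroup.zpowers σ) (hord : orderOf σ = p) (x : L) :
    algebraMap K L (Algebra.norm K x) = ∏ i ∈ Finset.range p, (σ ^ i) x := by
  classical
  haveI := h18_finiteDimensional K L
  rw [Algebra.norm_eq_prod_automorphisms]
  have himg : Finset.image (fun i => σ ^ i) (Finset.range (orderOf σ)) = Finset.univ :=
    IsCyclic.image_range_orderOf hσ
  rw [← himg, Finset.prod_image, hord]
  intro i hi j hj hij
  rw [Finset.coe_range] at hi hj
  exact pow_injOn_Iio_orderOf hi hj hij

end Generator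

section Above

variable (K L : Type*) [Field K] [NumberField K] [Field L] [NumberField L] [Algebra K L]

/-- The primes of `L` above a finite set of primes of `K` form a finite set. -/
lemma h18_above_finite (hfib : ∀ v : HeightOneSpectrum (𝓞 K),
      Nat.card {w : HeightOneSpectrum (𝓞 L) // w.under (𝓞 K) = v} ≠ 0)
    (T : Finset (HeightOneSpectrum (𝓞 K))) :
    (above K L (T : Set (HeightOneSpectrum (𝓞 K)))).Finite := by
  have h1 : above K L (T : Set (HeightOneSpectrum (𝓞 K))) =
      ⋃ v ∈ T, {w : HeightOneSpectrum (𝓞 L) | w.under (𝓞 K) = v} := by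
    ext w
    simp [above]
  rw [h1]
  refine Set.Finite.biUnion T.finite_toSet fun v _ => ?_
  have : Finite ↑{w : HeightOneSpectrum (𝓞 L) | w.under (𝓞 K) = v} :=
    Nat.finite_of_card_ne_zero (hfib v)
  exact Set.toFinite _

/-- The number of primes of `L` above a finite set `T` of primes of `K`. -/
lemma h18_card_above (hfib : ∀ v : HeightOneSpectrum (𝓞 K),
      Nat.card {w : HeightOneSpectrum (𝓞 L) // w.under (𝓞 K) = v} ≠ 0)
    (T : Finset (HeightOneSpectrum (𝓞 K))) :
    (h18_above_finite K L hfib T).toFinset.card =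
      ∑ v ∈ T, Nat.card {w : HeightOneSpectrum (𝓞 L) // w.under (𝓞 K) = v} := by
  classical
  set S' := (h18_above_finite K L hfib T).toFinset with hS'
  have hmem : ∀ w, w ∈ S' ↔ w.under (𝓞 K) ∈ T := by
    intro w
    rw [hS', Set.Finite.mem_toFinset]
    rfl
  rw [Finset.card_eq_sum_card_fiberwise (f := fun w => w.under (𝓞 K)) (t := T)
    (fun w hw => (hmem w).mp hw)]
  refine Finset.sum_congr rfl fun v hv => ?_
  symm
  apply Nat.subtype_card
  intro w
  rw [Finset.mem_filter, hmem]
  constructor
  · rintro ⟨-, h⟩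
    exact h
  · intro h
    exact ⟨h ▸ hv, h⟩

/-- `#S = t + p s`. -/
lemma h18_card_above_eq (p : ℕ) (hp : p ≠ 0)
    (h1 : ∀ v : HeightOneSpectrum (𝓞 K),
      Inert K L v ∨ Nat.card {w : HeightOneSpectrum (𝓞 L) // w.under (𝓞 K) = v} = p)
    (h2 : ∀ v : HeightOneSpectrum (𝓞 K), Inert K L v →
      Nat.card {w : HeightOneSpectrum (𝓞 L) // w.under (𝓞 K) = v} = 1)
    (T : Finset (HeightOneSpectrum (𝓞 K)))
    [DecidablePred (Inert K L)] :
    ∃ hfin : (above K L (T : Set (HeightOneSpectrum (𝓞 K)))).Finite,
      hfin.toFinset.card = (T.filter (Inert K L)).card + p * (T.filter (fun v => ¬ Inert K L v)).card := by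
  have hfib : ∀ v : HeightOneSpectrum (𝓞 K),
      Nat.card {w : HeightOneSpectrum (𝓞 L) // w.under (𝓞 K) = v} ≠ 0 := by
    intro v
    rcases h1 v with h | h
    · rw [h2 v h]
      exact one_ne_zero
    · rw [h]
      exact hp
  refine ⟨h18_above_finite K L hfib T, ?_⟩
  rw [h18_card_above K L hfib T]
  have h3 : ∀ v ∈ T, Nat.card {w : HeightOneSpectrum (𝓞 L) // w.under (𝓞 K) = v} =
      if Inert K L v then 1 else p := by
    intro v _
    split_ifs with hv
    · exact h2 v hv
    · exact (h1 v).resolve_left hv
  rw [Finset.sum_congr rfl h3, Finset.sum_ite, Finset.sum_const, Finset.sum_const,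
    smul_eq_mul, smul_eq_mul, mul_one, mul_comm]

end Above

end Fermat.Agent.S14x.HQ
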