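import Mathlib
import Fermat.Agent.S14x.HQ.Defs

/-!
# S14 / HQ, leaf [NORMVAL] (helper18)

`L / K` Galois of degree `p`, unramified; `v` a prime of `K` with a unique prime `w` of `L`
above it.  Then `v (N y) = w (y) ^ p` for every `y ∈ Lˣ`.

Proof: `N y = ∏ σ y` over `σ ∈ Gal(L/K)`; `σ • w` lies above `v`, hence `σ • w = w` and
`w (σ y) = w (y)`; `w (x) = v (x) ^ e` for `x ∈ K` with `e = 1`.
-/

set_option autoImplicit false
set_option linter.unusedSectionVars false
set_option linter.style.haveILetI false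

open IsDedekindDomain NumberField
open scoped Pointwise

namespace Fermat.Agent.S14x.HQ

section Abstract

variable {B : Type*} [CommRing B] [IsDedekindDomain B] {G : Type*} [Group G]
  [MulSemiringAction G B]

lemma h18_smul_pow_ideal (σ : G) (I : Ideal B) (n : ℕ) : σ • (I ^ n) = (σ • I) ^ n := by
  rw [Ideal.pointwise_smul_def, Ideal.pointwise_smul_def, Ideal.map_pow]

/-- If `σ` fixes the prime `w`, the `w`-adic valuation is `σ`-invariant (integral elements). -/
lemma h18_intValuation_smul (σ : G) (w : HeightOneSpectrum B)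
    (hσ : σ • w.asIdeal = w.asIdeal) (r : B) :
    w.intValuation (σ • r) = w.intValuation r := by
  have key : ∀ n : ℕ, w.intValuation (σ • r) ≤ WithZero.exp (-(n : ℤ)) ↔
      w.intValuation r ≤ WithZero.exp (-(n : ℤ)) := by
    intro n
    rw [HeightOneSpectrum.intValuation_le_pow_iff_mem,
      HeightOneSpectrum.intValuation_le_pow_iff_mem]
    conv_lhs => rw [← hσ, ← h18_smul_pow_ideal, Ideal.smul_mem_pointwise_smul_iff]
  by_cases hr : r = 0
  · subst hr; simp
  have hr' : σ • r ≠ 0 := by
    intro h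
    apply hr
    have : σ • r = σ • (0 : B) := by rw [h, smul_zero]
    exact smul_left_cancel σ this
  rw [HeightOneSpectrum.intValuation_eq_exp_neg_multiplicity _ hr] at key ⊢
  rw [HeightOneSpectrum.intValuation_eq_exp_neg_multiplicity _ hr'] at key ⊢
  set a := multiplicity w.asIdeal (Ideal.span {σ • r})
  set b := multiplicity w.asIdeal (Ideal.span {r})
  have h1 := (key a).1 le_rfl
  have h2 := (key b).2 le_rfl
  rw [WithZero.exp_le_exp] at h1 h2
  congr 1
  omega

end Abstract

section NF

variable (K L : Type*) [Field K] [NumberField K] [Field L] [NumberField L] [Algebra K L]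

/-- If `σ` fixes the prime `w`, the `w`-adic valuation is `σ`-invariant. -/
lemma h18_valuation_map (σ : L ≃ₐ[K] L) (w : HeightOneSpectrum (𝓞 L))
    (hσ : σ • w.asIdeal = w.asIdeal) (x : L) :
    w.valuation L (σ x) = w.valuation L x := by
  obtain ⟨a, b, hb, rfl⟩ := IsFractionRing.div_surjective (A := 𝓞 L) x
  have h1 : ∀ r : 𝓞 L, σ (algebraMap (𝓞 L) L r) = algebraMap (𝓞 L) L (σ • r) := fun r => rfl
  rw [map_div₀, h1, h1, map_div₀, map_div₀, HeightOneSpectrum.valuation_of_algebraMap,
    HeightOneSpectrum.valuation_of_algebraMap, HeightOneSpectrum.valuation_of_algebraMap,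
    HeightOneSpectrum.valuation_of_algebraMap, h18_intValuation_smul σ w hσ,
    h18_intValuation_smul σ w hσ]

/-- The translate of a prime by `σ ∈ Gal(L/K)` lies above the same prime of `K`. -/
lemma h18_under_smul (σ : L ≃ₐ[K] L) (w : HeightOneSpectrum (𝓞 L)) :
    (σ • w.asIdeal).under (𝓞 K) = w.asIdeal.under (𝓞 K) := by
  ext x
  simp only [Ideal.under_def, Ideal.mem_comap]
  rw [Ideal.mem_pointwise_smul_iff_inv_smul_mem]
  have : σ⁻¹ • (algebraMap (𝓞 K) (𝓞 L) x) = algebraMap (𝓞 K) (𝓞 L) x := by
    apply Subtype.ext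
    show σ⁻¹ ((algebraMap (𝓞 K) (𝓞 L) x : 𝓞 L) : L) = _
    have h2 : ((algebraMap (𝓞 K) (𝓞 L) x : 𝓞 L) : L) = algebraMap K L (x : K) := rfl
    rw [h2, AlgEquiv.commutes]
    exact h2.symm
  rw [this]

/-- At an inert prime, the unique prime above is fixed by the Galois group. -/
lemma h18_smul_eq_of_inert (v : HeightOneSpectrum (𝓞 K)) (w : HeightOneSpectrum (𝓞 L))
    (hw : w.under (𝓞 K) = v) (hin : Inert K L v) (σ : L ≃ₐ[K] L) :
    σ • w.asIdeal = w.asIdeal := by
  set w' : HeightOneSpectrum (𝓞 L) :=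
    { asIdeal := σ • w.asIdeal
      isPrime := Ideal.IsPrime.smul σ
      ne_bot := by
        intro h
        apply w.ne_bot
        have : σ • w.asIdeal = σ • (⊥ : Ideal (𝓞 L)) := by rw [h, Ideal.smul_bot]
        exact smul_left_cancel σ this } with hw'
  have h1 : w'.under (𝓞 K) = v := by
    rw [← hw]
    apply HeightOneSpectrum.ext
    exact h18_under_smul K L σ w
  have h2 : w' = w := hin w' w h1 hw
  have h3 := congrArg HeightOneSpectrum.asIdeal h2
  exact h3

/-- `e(w | v) = 1` from `UnramFin`. -/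
lemma h18_ramificationIdx_eq_one (hunr : UnramFin K L) (v : HeightOneSpectrum (𝓞 K))
    (w : HeightOneSpectrum (𝓞 L)) (hw : w.under (𝓞 K) = v) :
    v.asIdeal.ramificationIdx' w.asIdeal = 1 := by
  apply Ideal.ramificationIdx'_spec
  · rw [pow_one, Ideal.map_le_iff_le_comap, ← hw]
    exact le_rfl
  · have := hunr w
    rw [hw] at this
    exact this

end NF

section Main

variable (K L : Type*) [Field K] [NumberField K] [Field L] [NumberField L] [Algebra K L]

/-- **Leaf [NORMVAL]**, verbatim. -/
theorem h18_stNormVal (p : ℕ) : StNormVal K L p := by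
  classical
  intro h v w hwv hin y
  haveI := h.galois
  haveI : FiniteDimensional K L := Module.Finite.of_restrictScalars_finite ℚ K L
  apply WithZero.coe_injective
  rw [WithZero.coe_pow, HeightOneSpectrum.valuationOfNeZero_eq,
    HeightOneSpectrum.valuationOfNeZero_eq]
  have hN : ((normU K L y : Kˣ) : K) = Algebra.norm K (y : L) := rfl
  rw [hN]
  haveI : w.asIdeal.LiesOver v.asIdeal := ⟨by rw [← hwv]; rfl⟩
  have he := h18_ramificationIdx_eq_one K L h.unram v w hwv
  have h1 := HeightOneSpectrum.valuation_liesOver L v w (Algebra.norm K (y : L))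
  rw [he, pow_one] at h1
  rw [h1, Algebra.norm_eq_prod_automorphisms, map_prod]
  have h2 : ∀ σ ∈ (Finset.univ : Finset (L ≃ₐ[K] L)),
      w.valuation L (σ (y : L)) = w.valuation L (y : L) := fun σ _ =>
    h18_valuation_map K L σ w (h18_smul_eq_of_inert K L v w hwv hin σ) _
  rw [Finset.prod_congr rfl h2, Finset.prod_const, Finset.card_univ,
    ← Nat.card_eq_fintype_card, IsGalois.card_aut_eq_finrank, h.finrank]

end Main

end Fermat.Agent.S14x.HQ
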