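import Mathlib
import Fermat.Agent.S14x.HQ.Defs
import Fermat.Agent.S14x.HQ.H18_AsmAux
import Fermat.Agent.S14x.HQ.H18_NormVal
import Fermat.Agent.S14x.HQ.H16_H1

/-!
# S14 / HQ: assembly of the first inequality `StLw` from the leaves (helper18)

`h18_stLw_of_leaves : StAbs → StH1 K L p → StRank K → StRank L → StGen K → StGen L →
  StFix K L p → StCount K L p → StNormVal K L p → StSurj K L p → StLw K L p`.

`T` = a finite set of primes of `K` generating `Cl(K)` whose primes above generate `Cl(L)`;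
`X` = the `S`-units of `L` (`S` = primes above `T`) with the action of a generator `σ` of
`Gal(L/K)`; `Y = X^σ ≃ K^T`; `ν : Y → (ℤ/p)^t`, the valuations mod `p` at the inert primes of
`T` (computed at the primes of `L` above them).
-/

set_option autoImplicit false
set_option linter.unusedSectionVars false
set_option linter.style.haveILetI false

open IsDedekindDomain NumberField
open scoped Pointwise

namespace Fermat.Agent.S14x.HQ

section Abstract

/-- The subgroup of fixed points of an automorphism. -/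
def h18_fixed {X : Type*} [CommGroup X] (σ : X ≃* X) : Subgroup X where
  carrier := {x | σ x = x}
  one_mem' := map_one σ
  mul_mem' := by
    intro a b ha hb
    show σ (a * b) = a * b
    rw [map_mul, ha, hb]
  inv_mem' := by
    intro a ha
    show σ a⁻¹ = a⁻¹
    rw [map_inv, ha]

lemma h18_mem_fixed {X : Type*} [CommGroup X] (σ : X ≃* X) (x : X) :
    x ∈ h18_fixed σ ↔ σ x = x := Iff.rfl

/-- The reduction mod `p` of the valuation vector at a finite family of primes. -/
noncomputable def h18_nu (F : Type*) [Field F] [NumberField F] (p t : ℕ)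
    (w : Fin t → HeightOneSpectrum (𝓞 F)) : Fˣ →* Multiplicative (Fin t → ZMod p) :=
  AddMonoidHom.toMultiplicativeRight (AddMonoidHom.pi fun i =>
    (Int.castAddHom (ZMod p)).comp (MonoidHom.toAdditiveLeft (w i).valuationOfNeZero))

lemma h18_nu_apply (F : Type*) [Field F] [NumberField F] (p t : ℕ)
    (w : Fin t → HeightOneSpectrum (𝓞 F)) (x : Fˣ) (i : Fin t) :
    Multiplicative.toAdd (h18_nu F p t w x) i =
      ((Multiplicative.toAdd ((w i).valuationOfNeZero x) : ℤ) : ZMod p) := rfl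

/-- A homomorphism to `(ℤ/p)^t` whose image contains the standard basis is surjective. -/
lemma h18_surjective_of_single {Y : Type*} [CommGroup Y] (p t : ℕ) [NeZero p]
    (ν : Y →* Multiplicative (Fin t → ZMod p))
    (h : ∀ i : Fin t, ∃ y : Y, ν y = Multiplicative.ofAdd (Pi.single i (1 : ZMod p))) :
    Function.Surjective ν := by
  classical
  intro f
  have hf : Multiplicative.toAdd f = ∑ i, Pi.single i (Multiplicative.toAdd f i) :=
    (Finset.univ_sum_single (Multiplicative.toAdd f)).symm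
  choose y hy using h
  refine ⟨∏ i, (y i) ^ (Multiplicative.toAdd f i).val, ?_⟩
  rw [map_prod]
  apply Multiplicative.toAdd.injective
  rw [toAdd_prod, hf]
  refine Finset.sum_congr rfl fun i _ => ?_
  rw [map_pow, hy i, toAdd_pow, toAdd_ofAdd]
  ext j
  rw [← hf]
  by_cases hji : j = i
  · subst hji
    simp
  · simp [hji]

end Abstract


section Action

variable (K L : Type) [Field K] [NumberField K] [Field L] [NumberField L] [Algebra K L]

lemma h18_mem_unit_iff (S : Set (HeightOneSpectrum (𝓞 L))) (x : Lˣ) :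
    x ∈ S.unit L ↔ ∀ w : HeightOneSpectrum (𝓞 L), w ∉ S → w.valuation L (x : L) = 1 := Iff.rfl

/-- The `S`-units, `S` = primes above `T`, are stable under the Galois group. -/
lemma h18_map_mem_unit (T : Set (HeightOneSpectrum (𝓞 K))) (τ : L ≃ₐ[K] L) (x : Lˣ)
    (hx : x ∈ (above K L T).unit L) :
    Units.map (τ : L →* L) x ∈ (above K L T).unit L := by
  rw [h18_mem_unit_iff] at hx ⊢
  intro w hw
  have h1 : H16.smulH τ (H16.smulH τ⁻¹ w) = w := by
    apply HeightOneSpectrum.ext
    simp [H16.smulH_asIdeal, smul_smul]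
  have h2 : H16.smulH τ⁻¹ w ∉ above K L T := by
    show (H16.smulH τ⁻¹ w).under (𝓞 K) ∉ T
    rw [H16.under_smulH]
    exact hw
  have h3 := H16.valuation_smulH K L τ (H16.smulH τ⁻¹ w) (x : L)
  rw [h1] at h3
  show w.valuation L (τ (x : L)) = 1
  rw [h3]
  exact hx _ h2

/-- The action of the Galois group on the `S`-units. -/
noncomputable def h18_act (T : Set (HeightOneSpectrum (𝓞 K))) :
    (L ≃ₐ[K] L) →* MulAut ↥((above K L T).unit L) where
  toFun τ :=
    { toFun := fun x => ⟨Units.map (τ : L →* L) x.1, h18_map_mem_unit K L T τ x.1 x.2⟩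
      invFun := fun x => ⟨Units.map ((τ⁻¹ : L ≃ₐ[K] L) : L →* L) x.1,
        h18_map_mem_unit K L T τ⁻¹ x.1 x.2⟩
      left_inv := fun x => by
        apply Subtype.ext
        apply Units.ext
        show τ⁻¹ (τ (x.1 : L)) = _
        exact τ.symm_apply_apply _
      right_inv := fun x => by
        apply Subtype.ext
        apply Units.ext
        show τ (τ⁻¹ (x.1 : L)) = _
        exact τ.apply_symm_apply _
      map_mul' := fun x y => by
        apply Subtype.ext
        apply Units.ext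
        show τ ((x.1 : L) * (y.1 : L)) = τ (x.1 : L) * τ (y.1 : L)
        exact map_mul τ _ _ }
  map_one' := by
    ext x
    rfl
  map_mul' := fun τ τ' => by
    ext x
    rfl

@[simp] lemma h18_act_coe (T : Set (HeightOneSpectrum (𝓞 K))) (τ : L ≃ₐ[K] L)
    (x : ↥((above K L T).unit L)) :
    (((h18_act K L T τ x : ↥((above K L T).unit L)) : Lˣ) : L) = τ ((x : Lˣ) : L) := rfl

lemma h18_act_pow_coe (T : Set (HeightOneSpectrum (𝓞 K))) (τ : L ≃ₐ[K] L) (i : ℕ)
    (x : ↥((above K L T).unit L)) :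
    ((((h18_act K L T τ) ^ i) x : ↥((above K L T).unit L)) : Lˣ) =
      Units.map (((τ ^ i : L ≃ₐ[K] L)) : L →* L) (x : Lˣ) := by
  rw [← map_pow]
  rfl

end Action

section Val

variable (K L : Type) [Field K] [NumberField K] [Field L] [NumberField L] [Algebra K L]

/-- At an unramified prime `w | v`: `w (c) = v (c)` for `c ∈ Kˣ`. -/
lemma h18_valuationOfNeZero_inclU (hunr : UnramFin K L) (v : HeightOneSpectrum (𝓞 K))
    (w : HeightOneSpectrum (𝓞 L)) (hw : w.under (𝓞 K) = v) (c : Kˣ) :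
    w.valuationOfNeZero (inclU K L c) = v.valuationOfNeZero c := by
  apply WithZero.coe_injective
  rw [HeightOneSpectrum.valuationOfNeZero_eq, HeightOneSpectrum.valuationOfNeZero_eq]
  haveI : w.asIdeal.LiesOver v.asIdeal := ⟨by rw [← hw]; rfl⟩
  have he := h18_ramificationIdx_eq_one K L hunr v w hw
  have h1 := HeightOneSpectrum.valuation_liesOver L v w (c : K)
  rw [he, pow_one] at h1
  rw [h1]
  rfl

/-- At an inert prime: `w (∏_{i<p} σ^i x) = w (x) ^ p`. -/
lemma h18_valuationOfNeZero_prod (v : HeightOneSpectrum (𝓞 K)) (w : HeightOneSpectrum (𝓞 L))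
    (hw : w.under (𝓞 K) = v) (hin : Inert K L v) (σ : L ≃ₐ[K] L) (p : ℕ) (x : Lˣ) :
    w.valuationOfNeZero (∏ i ∈ Finset.range p, Units.map (((σ ^ i : L ≃ₐ[K] L)) : L →* L) x) =
      (w.valuationOfNeZero x) ^ p := by
  rw [map_prod]
  have h1 : ∀ i ∈ Finset.range p,
      w.valuationOfNeZero (Units.map (((σ ^ i : L ≃ₐ[K] L)) : L →* L) x) =
        w.valuationOfNeZero x := by
    intro i _
    apply WithZero.coe_injective
    rw [HeightOneSpectrum.valuationOfNeZero_eq, HeightOneSpectrum.valuationOfNeZero_eq]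
    exact h18_valuation_map K L (σ ^ i) w (h18_smul_eq_of_inert K L v w hw hin (σ ^ i)) _
  rw [Finset.prod_congr rfl h1, Finset.prod_const, Finset.card_range]

lemma h18_inclU_injective : Function.Injective (inclU K L) := by
  intro a b hab
  apply Units.ext
  have := congrArg (fun u : Lˣ => (u : L)) hab
  exact (algebraMap K L).injective this

end Val

section Fixed

variable (K L : Type) [Field K] [NumberField K] [Field L] [NumberField L] [Algebra K L]

/-- An element fixed by `σ` is fixed by every element of `zpowers σ`. -/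
lemma h18_fixed_of_gen (T : Set (HeightOneSpectrum (𝓞 K))) (σ : L ≃ₐ[K] L)
    (hσ : ∀ τ : L ≃ₐ[K] L, τ ∈ Subgroup.zpowers σ) (x : ↥((above K L T).unit L))
    (hx : h18_act K L T σ x = x) (τ : L ≃ₐ[K] L) : τ ((x : Lˣ) : L) = ((x : Lˣ) : L) := by
  obtain ⟨k, rfl⟩ := Subgroup.mem_zpowers_iff.mp (hσ τ)
  have h1 : h18_act K L T σ ∈ MulAction.stabilizer (MulAut ↥((above K L T).unit L)) x := by
    rw [MulAction.mem_stabilizer_iff]
    exact hx
  have h2 := Subgroup.zpow_mem _ h1 k
  rw [MulAction.mem_stabilizer_iff, ← map_zpow] at h2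
  have h3 : h18_act K L T (σ ^ k) x = x := h2
  have h4 := congrArg (fun y : ↥((above K L T).unit L) => ((y : Lˣ) : L)) h3
  exact h4

/-- `K^T → (L^S)^σ`. -/
noncomputable def h18_toFixed (p : ℕ) (h : UnramCyclic K L p) (hFix : StFix K L p)
    (T : Set (HeightOneSpectrum (𝓞 K))) (σ : L ≃ₐ[K] L) :
    ↥(T.unit K) →* ↥(h18_fixed (h18_act K L T σ)) where
  toFun y := ⟨⟨inclU K L y.1, ((hFix h T (inclU K L y.1)).mpr ⟨y.1, y.2, rfl⟩).1⟩, by
      rw [h18_mem_fixed]
      apply Subtype.ext
      apply Units.ext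
      show σ ((inclU K L y.1 : Lˣ) : L) = _
      exact ((hFix h T (inclU K L y.1)).mpr ⟨y.1, y.2, rfl⟩).2 σ⟩
  map_one' := by
    apply Subtype.ext
    apply Subtype.ext
    show inclU K L ((1 : ↥(T.unit K)) : Kˣ) = 1
    simp
  map_mul' a b := by
    apply Subtype.ext
    apply Subtype.ext
    show inclU K L ((a * b : ↥(T.unit K)) : Kˣ) = inclU K L a.1 * inclU K L b.1
    simp

lemma h18_toFixed_coe (p : ℕ) (h : UnramCyclic K L p) (hFix : StFix K L p)
    (T : Set (HeightOneSpectrum (𝓞 K))) (σ : L ≃ₐ[K] L) (y : ↥(T.unit K)) :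
    (((h18_toFixed K L p h hFix T σ y : ↥(h18_fixed (h18_act K L T σ))) :
      ↥((above K L T).unit L)) : Lˣ) = inclU K L y.1 := rfl

lemma h18_toFixed_bijective (p : ℕ) (h : UnramCyclic K L p) (hFix : StFix K L p)
    (T : Set (HeightOneSpectrum (𝓞 K))) (σ : L ≃ₐ[K] L)
    (hσ : ∀ τ : L ≃ₐ[K] L, τ ∈ Subgroup.zpowers σ) :
    Function.Bijective (h18_toFixed K L p h hFix T σ) := by
  constructor
  · intro a b hab
    apply Subtype.ext
    apply h18_inclU_injective K L
    have := congrArg (fun y : ↥(h18_fixed (h18_act K L T σ)) =>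
      ((y : ↥((above K L T).unit L)) : Lˣ)) hab
    exact this
  · intro x
    have hx : h18_act K L T σ x.1 = x.1 := (h18_mem_fixed _ _).mp x.2
    obtain ⟨y, hyT, hy⟩ := (hFix h T (x.1 : Lˣ)).mp
      ⟨x.1.2, fun τ => h18_fixed_of_gen K L T σ hσ x.1 hx τ⟩
    refine ⟨⟨y, hyT⟩, ?_⟩
    apply Subtype.ext
    apply Subtype.ext
    exact hy

/-- the rank of the fixed points is the rank of the `T`-units of `K`. -/
lemma h18_finrank_fixed (p : ℕ) (h : UnramCyclic K L p) (hFix : StFix K L p)
    (T : Set (HeightOneSpectrum (𝓞 K))) (σ : L ≃ₐ[K] L)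
    (hσ : ∀ τ : L ≃ₐ[K] L, τ ∈ Subgroup.zpowers σ) :
    Module.finrank ℤ (Additive ↥(h18_fixed (h18_act K L T σ))) =
      Module.finrank ℤ (Additive ↥(T.unit K)) := by
  set e : ↥(T.unit K) ≃* ↥(h18_fixed (h18_act K L T σ)) :=
    MulEquiv.ofBijective (h18_toFixed K L p h hFix T σ) (h18_toFixed_bijective K L p h hFix T σ hσ)
  exact (LinearEquiv.finrank_eq (MulEquiv.toAdditive e).toIntLinearEquiv).symm

end Fixed

section Main

variable (K L : Type) [Field K] [NumberField K] [Field L] [NumberField L] [Algebra K L]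

/-- the arithmetic of the ranks. -/
lemma h18_rank_arith (p W t s : ℕ) (hp : 1 ≤ p) (hW : 1 ≤ W) :
    (p * W - 1 + (t + p * s)) + (p - 1) * t = p * (W - 1 + (t + s)) + (p - 1) := by
  obtain ⟨W', rfl⟩ : ∃ W', W = W' + 1 := ⟨W - 1, by omega⟩
  obtain ⟨p', rfl⟩ : ∃ p', p = p' + 1 := ⟨p - 1, by omega⟩
  have h1 : (p' + 1) * (W' + 1) - 1 = p' * W' + p' + W' := by
    have : (p' + 1) * (W' + 1) = p' * W' + p' + W' + 1 := by ring
    omega
  rw [h1]
  simp only [Nat.add_sub_cancel]
  ring

/-- **[ASM-HQ]** the first inequality from the leaves. -/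
theorem h18_stLw_of_leaves (p : ℕ) (hAbs : StAbs) (hH1 : StH1 K L p) (hRK : StRank K)
    (hRL : StRank L) (hGK : StGen K) (hGL : StGen L) (hFix : StFix K L p)
    (hCount : StCount K L p) (_hNV : StNormVal K L p) (hSurj : StSurj K L p) :
    StLw K L p := by
  classical
  intro h
  by_contra hcon
  -- negation: every nonzero ideal is, up to principal ideals, a norm
  have hneg : ∀ I : Ideal (𝓞 K), I ≠ ⊥ → ∃ (J : Ideal (𝓞 L)) (a b : 𝓞 K), J ≠ ⊥ ∧ a ≠ 0 ∧
      b ≠ 0 ∧ Ideal.span {a} * I = Ideal.span {b} * Ideal.relNorm (𝓞 K) J := by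
    intro I hI
    by_contra hI'
    exact hcon ⟨I, hI, fun J a b hJ ha hb heq => hI' ⟨J, a, b, hJ, ha, hb, heq⟩⟩
  haveI := h.galois
  have hp := h.prime
  haveI : Fact p.Prime := ⟨hp⟩
  haveI : NeZero p := ⟨hp.ne_zero⟩
  obtain ⟨σ, hσgen, hσord⟩ := h18_exists_gen K L p h
  obtain ⟨hC1, hC2, hC3⟩ := hCount h
  obtain ⟨TK, hTK⟩ := hGK
  obtain ⟨TL, hTL⟩ := hGL
  -- the set `T`
  set T : Finset (HeightOneSpectrum (𝓞 K)) := TK ∪ TL.image (fun w => w.under (𝓞 K)) with hT
  have hGenK : GenVal K (T : Set (HeightOneSpectrum (𝓞 K))) := by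
    apply hTK
    intro v hv
    rw [Finset.mem_coe] at hv ⊢
    rw [hT]
    exact Finset.mem_union_left _ hv
  have hGenL : GenVal L (above K L (T : Set (HeightOneSpectrum (𝓞 K)))) := by
    apply hTL
    intro w hw
    rw [Finset.mem_coe] at hw
    show w.under (𝓞 K) ∈ (T : Set (HeightOneSpectrum (𝓞 K)))
    rw [Finset.mem_coe, hT]
    exact Finset.mem_union_right _ (Finset.mem_image_of_mem _ hw)
  obtain ⟨hfin, hcard⟩ := h18_card_above_eq K L p hp.ne_zero hC1 hC2 T
  -- ranks
  obtain ⟨hXfin, hXrank⟩ := hRL hfin.toFinset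
  rw [Set.Finite.coe_toFinset] at hXfin hXrank
  obtain ⟨-, hKrank⟩ := hRK T
  -- the inert primes of `T`
  set Tin : Finset (HeightOneSpectrum (𝓞 K)) := T.filter (Inert K L) with hTin
  set t : ℕ := Tin.card with ht
  set s : ℕ := (T.filter (fun v => ¬ Inert K L v)).card with hs
  have hTcard : T.card = t + s := (Finset.card_filter_add_card_filter_not (Inert K L)).symm
  let vI : Fin t → HeightOneSpectrum (𝓞 K) := fun i => (Tin.equivFin.symm i).1
  have hvI_mem : ∀ i, vI i ∈ T := fun i =>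
    (Finset.mem_filter.mp (Tin.equivFin.symm i).2).1
  have hvI_inert : ∀ i, Inert K L (vI i) := fun i =>
    (Finset.mem_filter.mp (Tin.equivFin.symm i).2).2
  have hvI_inj : Function.Injective vI := fun i j hij =>
    Tin.equivFin.symm.injective (Subtype.ext hij)
  have hvI_surj : ∀ v ∈ T, Inert K L v → ∃ i, vI i = v := by
    intro v hv hin
    refine ⟨Tin.equivFin ⟨v, Finset.mem_filter.mpr ⟨hv, hin⟩⟩, ?_⟩
    show ((Tin.equivFin.symm (Tin.equivFin ⟨v, _⟩)) : HeightOneSpectrum (𝓞 K)) = v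
    rw [Equiv.symm_apply_apply]
  have hwI : ∀ i, ∃ w : HeightOneSpectrum (𝓞 L), w.under (𝓞 K) = vI i := fun i =>
    H16.exists_under_eq K L (vI i)
  choose wI hwI using hwI
  -- the objects of `StAbs`
  set σX : MulAut ↥((above K L (T : Set (HeightOneSpectrum (𝓞 K)))).unit L) :=
    h18_act K L (T : Set (HeightOneSpectrum (𝓞 K))) σ with hσX
  set ν : ↥(h18_fixed σX) →* Multiplicative (Fin t → ZMod p) :=
    ((h18_nu L p t wI).comp (Subgroup.subtype _)).comp (Subgroup.subtype _) with hν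
  have hcoe_prod : ∀ x : ↥((above K L (T : Set (HeightOneSpectrum (𝓞 K)))).unit L),
      ((∏ i ∈ Finset.range p, (σX ^ i) x :
        ↥((above K L (T : Set (HeightOneSpectrum (𝓞 K)))).unit L)) : Lˣ) =
        ∏ i ∈ Finset.range p, Units.map (((σ ^ i : L ≃ₐ[K] L)) : L →* L) (x : Lˣ) := by
    intro x
    rw [Subgroup.val_finsetProd]
    exact Finset.prod_congr rfl fun i _ => h18_act_pow_coe K L _ σ i x
  refine hAbs ↥((above K L (T : Set (HeightOneSpectrum (𝓞 K)))).unit L) σX p hp
    (Fintype.card (InfinitePlace L) - 1 + hfin.toFinset.card)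
    (Fintype.card (InfinitePlace K) - 1 + T.card) t hXfin ?_ ?_ hXrank (h18_fixed σX)
    (fun x => h18_mem_fixed σX x) ?_ ?_ ν ?_ ?_
  · -- `σ ^ p = 1`
    intro x
    rw [hσX, ← map_pow, ← hσord, pow_orderOf_eq_one, map_one]
    rfl
  · -- `H¹ = 1`
    intro x hx
    have hnorm : normU K L (x : Lˣ) = 1 := by
      apply Units.ext
      apply (algebraMap K L).injective
      show algebraMap K L (Algebra.norm K ((x : Lˣ) : L)) = algebraMap K L 1
      rw [h18_norm_eq_prod_pow K L p σ hσgen hσord, map_one]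
      have h1 := congrArg (fun y : ↥((above K L (T : Set (HeightOneSpectrum (𝓞 K)))).unit L) =>
        ((y : Lˣ) : L)) hx
      simp only [hcoe_prod] at h1
      rw [Units.coe_prod] at h1
      exact h1
    obtain ⟨y, hyS, hy⟩ := hH1 h (T : Set (HeightOneSpectrum (𝓞 K))) hGenK σ hσgen (x : Lˣ) x.2
      hnorm
    refine ⟨⟨y, hyS⟩, ?_⟩
    apply Subtype.ext
    apply Units.ext
    rw [Subgroup.coe_div, Units.val_div_eq_div_val]
    exact hy
  · -- the rank of the fixed points
    rw [hσX, h18_finrank_fixed K L p h hFix _ σ hσgen, hKrank]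
  · -- the arithmetic
    rw [hC3, hcard, hTcard]
    exact h18_rank_arith p (Fintype.card (InfinitePlace K)) t s hp.one_le Fintype.card_pos
  · -- `ν` is onto
    apply h18_surjective_of_single
    intro i₀
    obtain ⟨c, hcT, ⟨m₀, hm₀⟩, hc⟩ := hSurj h hneg (T : Set (HeightOneSpectrum (𝓞 K))) hGenL
      (vI i₀) (hvI_mem i₀) (hvI_inert i₀)
    refine ⟨h18_toFixed K L p h hFix _ σ ⟨c, hcT⟩, ?_⟩
    apply Multiplicative.toAdd.injective
    ext i
    show Multiplicative.toAdd (h18_nu L p t wI (inclU K L c)) i = _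
    rw [h18_nu_apply, h18_valuationOfNeZero_inclU K L h.unram (vI i) (wI i) (hwI i) c,
      toAdd_ofAdd]
    by_cases hi : i = i₀
    · subst hi
      rw [hm₀, toAdd_ofAdd, Pi.single_eq_same]
      push_cast
      simp
    · rw [Pi.single_eq_of_ne hi]
      obtain ⟨m, hm⟩ := hc (vI i) (hvI_mem i) (fun hv => hi (hvI_inj hv)) (hvI_inert i)
      rw [hm, toAdd_ofAdd]
      push_cast
      simp
  · -- `ν` kills the norms
    intro x hx
    apply Multiplicative.toAdd.injective
    ext i
    show Multiplicative.toAdd (h18_nu L p t wI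
      ((∏ j ∈ Finset.range p, (σX ^ j) x :
        ↥((above K L (T : Set (HeightOneSpectrum (𝓞 K)))).unit L)) : Lˣ)) i = 0
    rw [h18_nu_apply, hcoe_prod,
      h18_valuationOfNeZero_prod K L (vI i) (wI i) (hwI i) (hvI_inert i) σ p (x : Lˣ),
      toAdd_pow]
    simp

end Main

end Fermat.Agent.S14x.HQ
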