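import Mathlib
import Fermat.Agent.S14x.HQ.Defs

/-!
# S14 / HQ, leaf [GEN] (helper18)

For a number field `F` there is a finite set `T₀` of primes such that every set `T ⊇ T₀`
generates the class group, in the valuation form `GenVal F T`.

Proof: `T₀` = the prime factors of integral representatives of the (finitely many) ideal
classes.  For a prime `v₀` let `I` be the representative of the class of `v₀⁻¹`; then
`v₀ I = (α)`, and `α` has valuation `1` at `v₀ ∉ T₀` and `0` at all other primes outside `T₀`.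
The general case follows by multiplicativity.
-/

set_option autoImplicit false
set_option linter.unusedSectionVars false
set_option linter.style.haveILetI false

open IsDedekindDomain NumberField
open scoped nonZeroDivisors

namespace Fermat.Agent.S14x.HQ

section Dedekind

variable {R : Type*} [CommRing R] [IsDedekindDomain R]

/-- `α ∉ v` ⇒ `v(α) = 1`. -/
lemma h18_intValuation_eq_one (v : HeightOneSpectrum R) {α : R} (h : α ∉ v.asIdeal) :
    v.intValuation α = 1 := by
  refine le_antisymm (v.intValuation_le_one α) (not_lt.mp fun hlt => h ?_)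
  exact (v.intValuation_lt_one_iff_mem α).mp hlt

/-- `α ∈ v`, `α ∉ v ^ 2` ⇒ `v(α) = exp (-1)`. -/
lemma h18_intValuation_eq_exp_neg_one (v : HeightOneSpectrum R) {α : R} (h1 : α ∈ v.asIdeal)
    (h2 : α ∉ v.asIdeal ^ 2) : v.intValuation α = WithZero.exp (-1 : ℤ) := by
  have hα : α ≠ 0 := by
    rintro rfl
    exact h2 (zero_mem _)
  have k1 : v.intValuation α ≤ WithZero.exp (-((1 : ℕ) : ℤ)) := by
    rw [v.intValuation_le_pow_iff_mem, pow_one]
    exact h1
  have k2 : ¬ v.intValuation α ≤ WithZero.exp (-((2 : ℕ) : ℤ)) := by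
    rw [v.intValuation_le_pow_iff_mem]
    exact h2
  rw [v.intValuation_eq_exp_neg_multiplicity hα] at k1 k2 ⊢
  rw [WithZero.exp_le_exp] at k1 k2
  congr 1
  push_cast at k1 k2
  omega

/-- the key computation: if `v₀ I = (α)` and `I` has no prime factor outside `T`, then for
`v ∉ T`: `v(α) = exp (-1)` if `v = v₀` and `v(α) = 1` otherwise. -/
lemma h18_intValuation_of_mul_eq [DecidableEq (HeightOneSpectrum R)]
    (v₀ : HeightOneSpectrum R) {I : Ideal R} {α : R}
    (hα : v₀.asIdeal * I = Ideal.span {α}) (v : HeightOneSpectrum R)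
    (hv : ¬ I ≤ v.asIdeal) :
    v.intValuation α = WithZero.exp (if v = v₀ then (-1 : ℤ) else 0) := by
  have hmem : α ∈ v₀.asIdeal * I := by
    rw [hα]
    exact Ideal.mem_span_singleton_self α
  by_cases hvv : v = v₀
  · subst hvv
    rw [if_pos rfl]
    apply h18_intValuation_eq_exp_neg_one
    · exact (Ideal.mul_le_left : v.asIdeal * I ≤ v.asIdeal) hmem
    · intro h2
      apply hv
      have h3 : v.asIdeal * I ≤ v.asIdeal * v.asIdeal := by
        rw [hα, Ideal.span_singleton_le_iff_mem, ← sq]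
        exact h2
      have h4 : v.asIdeal * v.asIdeal ∣ v.asIdeal * I := Ideal.dvd_iff_le.mpr h3
      have h5 : v.asIdeal ∣ I := (mul_dvd_mul_iff_left v.ne_bot).mp h4
      exact Ideal.dvd_iff_le.mp h5
  · rw [if_neg hvv, WithZero.exp_zero]
    apply h18_intValuation_eq_one
    intro h1
    have h2 : v₀.asIdeal * I ≤ v.asIdeal := by
      rw [hα, Ideal.span_singleton_le_iff_mem]
      exact h1
    rcases (Ideal.IsPrime.mul_le v.isPrime).mp h2 with h3 | h3
    · apply hvv
      have hmax : v₀.asIdeal.IsMaximal := v₀.isMaximal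
      have := hmax.eq_of_le v.isPrime.ne_top h3
      exact (HeightOneSpectrum.ext this).symm
    · exact hv h3

end Dedekind

section Main

variable (F : Type*) [Field F] [NumberField F]

/-- **Leaf [GEN]**, verbatim. -/
theorem h18_stGen : StGen F := by
  classical
  -- integral representatives of the classes
  have hsurj : ∀ c : ClassGroup (𝓞 F), ∃ I : (Ideal (𝓞 F))⁰, ClassGroup.mk0 I = c :=
    ClassGroup.mk0_surjective
  choose rep hrep using hsurj
  have hrep0 : ∀ c, (rep c : Ideal (𝓞 F)) ≠ 0 := fun c =>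
    mem_nonZeroDivisors_iff_ne_zero.mp (rep c).2
  set T₀ : Finset (HeightOneSpectrum (𝓞 F)) :=
    Finset.univ.biUnion (fun c => (Ideal.finite_factors (hrep0 c)).toFinset) with hT₀
  refine ⟨T₀, fun T hT => ?_⟩
  have hnot : ∀ v : HeightOneSpectrum (𝓞 F), v ∉ T → ∀ c, ¬ ((rep c : Ideal (𝓞 F)) ≤ v.asIdeal) := by
    intro v hv c hle
    apply hv
    apply hT
    rw [Finset.mem_coe, hT₀, Finset.mem_biUnion]
    refine ⟨c, Finset.mem_univ _, ?_⟩
    rw [Set.Finite.mem_toFinset]
    exact Ideal.dvd_iff_le.mpr hle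
  -- one prime at a time
  have hsingle : ∀ v₀ : HeightOneSpectrum (𝓞 F), ∃ a : Fˣ, ∀ v : HeightOneSpectrum (𝓞 F),
      v ∉ T → v.valuationOfNeZero a = Multiplicative.ofAdd (if v = v₀ then (-1 : ℤ) else 0) := by
    intro v₀
    have hv₀ : v₀.asIdeal ∈ (Ideal (𝓞 F))⁰ := mem_nonZeroDivisors_iff_ne_zero.mpr v₀.ne_bot
    set c : ClassGroup (𝓞 F) := (ClassGroup.mk0 ⟨v₀.asIdeal, hv₀⟩)⁻¹ with hc
    have hprod : v₀.asIdeal * (rep c : Ideal (𝓞 F)) ∈ (Ideal (𝓞 F))⁰ :=
      mul_mem hv₀ (rep c).2
    have hone : ClassGroup.mk0 ⟨v₀.asIdeal * (rep c : Ideal (𝓞 F)), hprod⟩ = 1 := by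
      have : (⟨v₀.asIdeal * (rep c : Ideal (𝓞 F)), hprod⟩ : (Ideal (𝓞 F))⁰) =
          ⟨v₀.asIdeal, hv₀⟩ * rep c := rfl
      rw [this, map_mul, hrep c, hc, mul_inv_cancel]
    have hprinc : (v₀.asIdeal * (rep c : Ideal (𝓞 F))).IsPrincipal :=
      (ClassGroup.mk0_eq_one_iff hprod).mp hone
    obtain ⟨α, hα⟩ := hprinc.principal
    have hα' : v₀.asIdeal * (rep c : Ideal (𝓞 F)) = Ideal.span {α} := by
      rw [hα]
    have hα0 : α ≠ 0 := by
      rintro rfl
      have h0 : v₀.asIdeal * (rep c : Ideal (𝓞 F)) = 0 := by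
        rw [hα']
        simp
      exact (mem_nonZeroDivisors_iff_ne_zero.mp hprod) h0
    have hαF : algebraMap (𝓞 F) F α ≠ 0 := by
      rw [Ne, map_eq_zero_iff _ (IsFractionRing.injective (𝓞 F) F)]
      exact hα0
    refine ⟨Units.mk0 _ hαF, fun v hv => ?_⟩
    apply WithZero.coe_injective
    rw [HeightOneSpectrum.valuationOfNeZero_eq, Units.val_mk0,
      HeightOneSpectrum.valuation_of_algebraMap]
    exact h18_intValuation_of_mul_eq v₀ hα' v (hnot v hv c)
  choose a ha using hsingle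
  intro n hn
  refine ⟨∏ w ∈ hn.toFinset, (a w) ^ (-(n w)), fun v hv => ?_⟩
  rw [map_prod]
  have h1 : ∀ w ∈ hn.toFinset, v.valuationOfNeZero ((a w) ^ (-(n w))) =
      Multiplicative.ofAdd (if v = w then n w else 0) := by
    intro w _
    rw [map_zpow, ha w v hv, ← ofAdd_zsmul]
    congr 1
    split_ifs <;> simp
  rw [Finset.prod_congr rfl h1, ← ofAdd_sum]
  congr 1
  rw [Finset.sum_ite_eq]
  split_ifs with h
  · rfl
  · rw [Set.Finite.mem_toFinset, Function.mem_support, not_not] at h
    exact h.symm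

end Main

end Fermat.Agent.S14x.HQ
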