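import Fermat.Agent.S14x.HQ.H19_AbsCore
import Fermat.Agent.S14x.HQ.Defs

set_option autoImplicit false

namespace Fermat.Agent.S14x.HQ

open Module

section Transport

variable {X : Type*} [CommGroup X]

/-- the endomorphism of `Additive X` attached to an automorphism of `X`. -/
noncomputable def h19_addEnd (σ : X ≃* X) : Module.End ℤ (Additive X) :=
  (MonoidHom.toAdditive σ.toMonoidHom).toIntLinearMap

theorem h19_addEnd_apply (σ : X ≃* X) (x : Additive X) :
    h19_addEnd σ x = Additive.ofMul (σ (Additive.toMul x)) := rfl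

theorem h19_addEnd_pow_apply (σ : X ≃* X) (i : ℕ) (x : Additive X) :
    (h19_addEnd σ ^ i) x = Additive.ofMul ((σ ^ i) (Additive.toMul x)) := by
  induction i generalizing x with
  | zero => simp
  | succ i ih =>
    rw [pow_succ, Module.End.mul_apply, ih, h19_addEnd_apply, pow_succ]
    rfl

theorem h19_addEnd_norm_apply (σ : X ≃* X) (p : ℕ) (x : Additive X) :
    (∑ i ∈ Finset.range p, h19_addEnd σ ^ i) x =
      Additive.ofMul (∏ i ∈ Finset.range p, (σ ^ i) (Additive.toMul x)) := by
  rw [LinearMap.sum_apply, ofMul_prod]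
  exact Finset.sum_congr rfl fun i _ => h19_addEnd_pow_apply σ i x

theorem h19_mem_ker_iff (σ : X ≃* X) (x : Additive X) :
    x ∈ LinearMap.ker (h19_addEnd σ - 1) ↔ σ (Additive.toMul x) = Additive.toMul x := by
  rw [LinearMap.mem_ker, LinearMap.sub_apply, sub_eq_zero, h19_addEnd_apply]
  constructor
  · intro h
    exact congrArg Additive.toMul h
  · intro h
    exact congrArg Additive.ofMul h

end Transport

theorem h19_stAbs : StAbs := by
  intro X _ σ p hp r a t hfin hσ hH1 hr Y hY ha hrat ν hν hνN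
  have hYk : ∀ x : Additive X, x ∈ LinearMap.ker (h19_addEnd σ - 1) ↔ Additive.toMul x ∈ Y :=
    fun x => (h19_mem_ker_iff σ x).trans (hY _).symm
  -- the linear equivalence `Additive Y ≃ ker (s - 1)`
  let e : Additive Y ≃+ LinearMap.ker (h19_addEnd σ - 1) :=
    { toFun := fun y => ⟨Additive.ofMul ((Additive.toMul y : Y) : X),
        (hYk _).mpr (Additive.toMul y).2⟩
      invFun := fun x => Additive.ofMul ⟨Additive.toMul x.1, (hYk _).mp x.2⟩
      left_inv := fun y => rfl
      right_inv := fun x => rfl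
      map_add' := fun y z => rfl }
  have ha' : Module.finrank ℤ (LinearMap.ker (h19_addEnd σ - 1)) = a := by
    rw [← ha]
    exact (e.toIntLinearEquiv.finrank_eq).symm
  let ν' : LinearMap.ker (h19_addEnd σ - 1) →+ (Fin t → ZMod p) :=
    (AddEquiv.additiveMultiplicative (Fin t → ZMod p)).toAddMonoidHom.comp
      ((MonoidHom.toAdditive ν).comp e.symm.toAddMonoidHom)
  have hν' : ∀ x : LinearMap.ker (h19_addEnd σ - 1),
      ν' x = Multiplicative.toAdd (ν ⟨Additive.toMul x.1, (hYk _).mp x.2⟩) := fun x => rfl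
  refine h19_core (A := Additive X) (h19_addEnd σ) p hp ?_ ?_ r a t hr ha' hrat ν' ?_ ?_
  · ext x
    rw [h19_addEnd_pow_apply, hσ]
    rfl
  · intro x hx
    rw [h19_addEnd_norm_apply] at hx
    obtain ⟨y, hy⟩ := hH1 (Additive.toMul x) (congrArg Additive.toMul hx)
    refine ⟨Additive.ofMul y, ?_⟩
    rw [h19_addEnd_apply]
    exact congrArg Additive.ofMul hy
  · intro z
    obtain ⟨y, hy⟩ := hν (Multiplicative.ofAdd z)
    refine ⟨⟨Additive.ofMul y.1, (hYk _).mpr y.2⟩, ?_⟩
    rw [hν']
    have : (⟨Additive.toMul (Additive.ofMul y.1), (hYk _).mp ((hYk _).mpr y.2)⟩ : Y) = y := rfl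
    exact (congrArg (fun u => Multiplicative.toAdd (ν u)) this).trans
      (congrArg Multiplicative.toAdd hy)
  · intro x hx
    rw [hν']
    have h1 := h19_addEnd_norm_apply σ p x
    have hmem : (∏ i ∈ Finset.range p, (σ ^ i) (Additive.toMul x)) ∈ Y := by
      have := (hYk _).mp hx
      rw [h1] at this
      exact this
    have h2 := hνN (Additive.toMul x) hmem
    have h3 : (⟨Additive.toMul ((∑ i ∈ Finset.range p, h19_addEnd σ ^ i) x), (hYk _).mp hx⟩ : Y)
        = ⟨∏ i ∈ Finset.range p, (σ ^ i) (Additive.toMul x), hmem⟩ := by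
      apply Subtype.ext
      exact congrArg Additive.toMul h1
    exact (congrArg (fun u => Multiplicative.toAdd (ν u)) h3).trans
      (congrArg Multiplicative.toAdd h2)

end Fermat.Agent.S14x.HQ
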