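import Fermat.Agent.S14x.HQ.Defs
import Fermat.Agent.S14x.Asm.Defs

/-!
# S14 / HQ leaf [ADAPT] (helper3): from `HQ.StLw` to the interface `Asm.StLw`

* `h3_unramFin_of_unramifiedEverywhere` : trivial inertia groups ⇒ `UnramFin K L` (`e = 1`);
* `h3_unramCyclic` : the hypotheses of `Asm.StLw` give `UnramCyclic K L (finrank K L)`;
* `h3_not_normEquiv` : clearing the ideal `𝔄` in `(a) 𝔞 N(𝔄) = (b) N(𝔅)`;
* `h3_asm_stLw_of_hq : (∀ K L p, HQ.StLw K L p) → Asm.StLw`.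
-/

set_option autoImplicit false
set_option linter.unusedSectionVars false
set_option linter.style.haveILetI false

namespace Fermat.Agent.S14x.HQ

open NumberField IsDedekindDomain

section

variable (K L : Type*) [Field K] [NumberField K] [Field L] [NumberField L] [Algebra K L]

/-- Trivial inertia groups ⇒ `v 𝓞_L ⊄ w ^ 2`. -/
theorem h3_unramFin_of_inertia_trivial [IsGalois K L]
    (h : ∀ P : Ideal (𝓞 L), P.IsPrime → P ≠ ⊥ →
      ∀ σ : L ≃ₐ[K] L, (∀ x : 𝓞 L, σ • x - x ∈ P) → σ = 1) : UnramFin K L := by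
  intro w hle
  haveI : w.asIdeal.LiesOver (w.under (𝓞 K)).asIdeal := ⟨rfl⟩
  have hbot : w.asIdeal.inertia (L ≃ₐ[K] L) = ⊥ := by
    rw [eq_bot_iff]
    intro σ hσ
    rw [Subgroup.mem_bot]
    exact h w.asIdeal w.isPrime w.ne_bot σ hσ
  have hcard := Ideal.card_inertia_eq_ramificationIdxIn (G := (L ≃ₐ[K] L))
    (w.under (𝓞 K)).asIdeal w.asIdeal
  rw [hbot, Subgroup.card_bot,
    Ideal.ramificationIdxIn_eq_ramificationIdx (w.under (𝓞 K)).asIdeal w.asIdeal (L ≃ₐ[K] L),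
    ← Ideal.ramificationIdx'_eq_ramificationIdx (w.under (𝓞 K)).asIdeal w.asIdeal
      (w.under (𝓞 K)).ne_bot] at hcard
  have hmap : Ideal.map (algebraMap (𝓞 K) (𝓞 L)) (w.under (𝓞 K)).asIdeal ≠ ⊥ :=
    Ideal.map_ne_bot_of_ne_bot (w.under (𝓞 K)).ne_bot
  rw [Ideal.IsDedekindDomain.ramificationIdx'_eq_multiplicity hmap w.isPrime] at hcard
  have hfin : FiniteMultiplicity w.asIdeal
      (Ideal.map (algebraMap (𝓞 K) (𝓞 L)) (w.under (𝓞 K)).asIdeal) :=
    FiniteMultiplicity.of_prime_left w.prime hmap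
  have h2 : w.asIdeal ^ 2 ∣ Ideal.map (algebraMap (𝓞 K) (𝓞 L)) (w.under (𝓞 K)).asIdeal :=
    Ideal.dvd_iff_le.mpr hle
  have h3 := hfin.le_multiplicity_of_pow_dvd h2
  omega

end

section

variable (K L : Type) [Field K] [NumberField K] [Field L] [NumberField L] [Algebra K L]

/-- `Asm.UnramifiedEverywhere` ⇒ `UnramFin`. -/
theorem h3_unramFin_of_unramifiedEverywhere [IsGalois K L]
    (h : Asm.UnramifiedEverywhere K L) : UnramFin K L :=
  h3_unramFin_of_inertia_trivial K L h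

/-- The hypotheses of `Asm.StLw` give the standing hypotheses of HQ. -/
theorem h3_unramCyclic [IsGalois K L] (hp : (Module.finrank K L).Prime)
    (hc : IsTotallyComplex K) (h : Asm.UnramifiedEverywhere K L) :
    UnramCyclic K L (Module.finrank K L) where
  prime := hp
  galois := inferInstance
  finrank := rfl
  unram := h3_unramFin_of_unramifiedEverywhere K L h
  complex := hc.isComplex

end

section

variable (K L : Type*) [Field K] [NumberField K] [Field L] [NumberField L] [Algebra K L]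

/-- Every nonzero ideal divides a nonzero principal ideal. -/
theorem h3_exists_mul_eq_span (A : Ideal (𝓞 L)) (hA : A ≠ ⊥) :
    ∃ (A' : Ideal (𝓞 L)) (α : 𝓞 L), A' ≠ ⊥ ∧ α ≠ 0 ∧ A * A' = Ideal.span {α} := by
  obtain ⟨α, hαA, hα0⟩ := Submodule.exists_mem_ne_zero_of_ne_bot hA
  have hdvd : A ∣ Ideal.span {α} := by
    rw [Ideal.dvd_iff_le, Ideal.span_singleton_le_iff_mem]
    exact hαA
  obtain ⟨A', hA'⟩ := hdvd
  refine ⟨A', α, ?_, hα0, hA'.symm⟩
  rintro rfl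
  rw [Ideal.mul_bot, Ideal.span_singleton_eq_bot] at hA'
  exact hα0 hA'

/-- Clearing the ideal `𝔄`: if `I` is not of the form `(b)/(a) · N(J)`, then it is not of the
form `(b)/(a) · N(𝔅) / N(𝔄)` either. -/
theorem h3_clear (I : Ideal (𝓞 K))
    (hI : ∀ (J : Ideal (𝓞 L)) (a b : 𝓞 K), J ≠ ⊥ → a ≠ 0 → b ≠ 0 →
      Ideal.span {a} * I ≠ Ideal.span {b} * Ideal.relNorm (𝓞 K) J)
    (a b : 𝓞 K) (A B : Ideal (𝓞 L)) (ha : a ≠ 0) (hb : b ≠ 0) (hA : A ≠ ⊥) (hB : B ≠ ⊥)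
    (h : Ideal.span {a} * I * Ideal.relNorm (𝓞 K) A =
      Ideal.span {b} * ⊤ * Ideal.relNorm (𝓞 K) B) : False := by
  obtain ⟨A', α, hA', hα, hAA'⟩ := h3_exists_mul_eq_span L A hA
  have hN : Ideal.relNorm (𝓞 K) A * Ideal.relNorm (𝓞 K) A' =
      Ideal.span {Algebra.intNorm (𝓞 K) (𝓞 L) α} := by
    rw [← map_mul, hAA', Ideal.relNorm_singleton]
  have hNα : Algebra.intNorm (𝓞 K) (𝓞 L) α ≠ 0 := by
    rw [Ne, Algebra.intNorm_eq_zero]
    exact hα
  refine hI (B * A') (a * Algebra.intNorm (𝓞 K) (𝓞 L) α) b (mul_ne_zero hB hA')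
    (mul_ne_zero ha hNα) hb ?_
  have h1 : Ideal.span {a * Algebra.intNorm (𝓞 K) (𝓞 L) α} * I =
      Ideal.span {a} * I * Ideal.relNorm (𝓞 K) A * Ideal.relNorm (𝓞 K) A' := by
    rw [mul_assoc (Ideal.span {a} * I), hN, ← Ideal.span_singleton_mul_span_singleton]
    ring
  rw [h1, h, map_mul, Ideal.mul_top]
  ring

end

/-- **[ADAPT]** the interface `Asm.StLw` from the HQ form of the first inequality. -/
theorem h3_asm_stLw_of_hq
    (hq : ∀ (K L : Type) [Field K] [NumberField K] [Field L] [NumberField L] [Algebra K L]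
      (p : ℕ), StLw K L p) : Asm.StLw := by
  intro K L _ _ _ _ _ _ hp hc hun
  obtain ⟨I, hI0, hI⟩ := hq K L (Module.finrank K L) (h3_unramCyclic K L hp hc hun)
  refine ⟨I, hI0, ?_⟩
  rintro ⟨a, b, A, B, ha, hb, -, -, hA, hB, -, -, h⟩
  exact h3_clear K L I hI a b A B ha hb hA hB h

end Fermat.Agent.S14x.HQ
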