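import Fermat.Agent.S14x.HQ.Defs

/-!
# S14 / HQ leaf [COUNT] (helper3): local structure of an unramified extension of prime degree

`h3_stCount K L p : StCount K L p`:
* every prime `v` of `K` is inert or has exactly `p` primes of `L` above it (`e f g = p`, `e = 1`);
* an inert prime has exactly one prime above it;
* `L` has `p` times as many infinite places as `K` (`K` totally complex).
-/

set_option autoImplicit false
set_option linter.unusedSectionVars false
set_option linter.style.haveILetI false

namespace Fermat.Agent.S14x.HQ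

open NumberField IsDedekindDomain

section

variable {K L : Type*} [Field K] [NumberField K] [Field L] [NumberField L] [Algebra K L]

/-- The primes of `L` above `v`, as a subtype of the height one spectrum, are in bijection with
Mathlib's `primesOver`. -/
noncomputable def h3_equivPrimesOver (v : HeightOneSpectrum (𝓞 K)) :
    {w : HeightOneSpectrum (𝓞 L) // w.under (𝓞 K) = v} ≃ v.asIdeal.primesOver (𝓞 L) where
  toFun w := ⟨w.1.asIdeal, w.1.isPrime, ⟨by
    have h := congrArg HeightOneSpectrum.asIdeal w.2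
    exact h.symm⟩⟩
  invFun Q := ⟨⟨Q.1, Q.2.1, Ideal.ne_bot_of_mem_primesOver v.ne_bot Q.2⟩, by
    apply HeightOneSpectrum.ext
    have h := Q.2.2
    exact (h.over).symm⟩
  left_inv w := rfl
  right_inv Q := rfl

theorem h3_card_above (v : HeightOneSpectrum (𝓞 K)) :
    Nat.card {w : HeightOneSpectrum (𝓞 L) // w.under (𝓞 K) = v} =
      (v.asIdeal.primesOver (𝓞 L)).ncard := by
  rw [Nat.card_congr (h3_equivPrimesOver (L := L) v)]
  exact Nat.card_coe_set_eq _

/-- There is a prime of `L` above every prime of `K`. -/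
theorem h3_exists_above (v : HeightOneSpectrum (𝓞 K)) :
    ∃ w : HeightOneSpectrum (𝓞 L), w.under (𝓞 K) = v := by
  have h := IsDedekindDomain.primesOver_ncard_ne_zero v.asIdeal (𝓞 L)
  rw [← h3_card_above] at h
  have : Nonempty {w : HeightOneSpectrum (𝓞 L) // w.under (𝓞 K) = v} := by
    by_contra hne
    rw [not_nonempty_iff] at hne
    exact h Nat.card_of_isEmpty
  obtain ⟨w, hw⟩ := this
  exact ⟨w, hw⟩

/-- For an inert prime there is exactly one prime above. -/
theorem h3_card_above_of_inert (v : HeightOneSpectrum (𝓞 K)) (hv : Inert K L v) :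
    Nat.card {w : HeightOneSpectrum (𝓞 L) // w.under (𝓞 K) = v} = 1 := by
  obtain ⟨w, hw⟩ := h3_exists_above (L := L) v
  rw [Nat.card_eq_one_iff_unique]
  exact ⟨⟨fun a b => Subtype.ext (hv a.1 b.1 a.2 b.2)⟩, ⟨⟨w, hw⟩⟩⟩

/-- If there is only one prime above `v`, then `v` is inert. -/
theorem h3_inert_of_card (v : HeightOneSpectrum (𝓞 K))
    (h : Nat.card {w : HeightOneSpectrum (𝓞 L) // w.under (𝓞 K) = v} = 1) : Inert K L v := by
  rw [Nat.card_eq_one_iff_unique] at h
  obtain ⟨hs, _⟩ := h
  intro w w' hw hw'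
  have := hs.elim ⟨w, hw⟩ ⟨w', hw'⟩
  exact congrArg Subtype.val this

/-- Unramifiedness in terms of the ramification index. -/
theorem h3_ramificationIdx_eq_one (hun : UnramFin K L) (w : HeightOneSpectrum (𝓞 L)) :
    w.asIdeal.ramificationIdx (𝓞 K) = 1 := by
  have hle : Ideal.map (algebraMap (𝓞 K) (𝓞 L)) (w.under (𝓞 K)).asIdeal ≤ w.asIdeal ^ 1 := by
    rw [pow_one, Ideal.map_le_iff_le_comap]
    exact le_of_eq rfl
  have h1 : Ideal.ramificationIdx' (w.under (𝓞 K)).asIdeal w.asIdeal = 1 :=
    Ideal.ramificationIdx'_spec hle (hun w)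
  haveI : w.asIdeal.LiesOver (w.under (𝓞 K)).asIdeal := ⟨rfl⟩
  rw [← Ideal.ramificationIdx'_eq_ramificationIdx (w.under (𝓞 K)).asIdeal w.asIdeal
    (w.under (𝓞 K)).ne_bot]
  exact h1

end

section

variable (K L : Type*) [Field K] [NumberField K] [Field L] [NumberField L] [Algebra K L]

/-- `e f g = p`, `e = 1`: the number of primes above `v` is `1` or `p`. -/
theorem h3_card_above_eq (p : ℕ) (h : UnramCyclic K L p) (v : HeightOneSpectrum (𝓞 K)) :
    Nat.card {w : HeightOneSpectrum (𝓞 L) // w.under (𝓞 K) = v} = 1 ∨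
      Nat.card {w : HeightOneSpectrum (𝓞 L) // w.under (𝓞 K) = v} = p := by
  haveI := h.galois
  obtain ⟨w, hw⟩ := h3_exists_above (L := L) v
  haveI : w.asIdeal.LiesOver v.asIdeal := ⟨by
    have := congrArg HeightOneSpectrum.asIdeal hw
    exact this.symm⟩
  have hfund := Ideal.ncard_primesOver_mul_ramificationIdxIn_mul_inertiaDegIn v.asIdeal (𝓞 L)
    (L ≃ₐ[K] L)
  rw [Ideal.ramificationIdxIn_eq_ramificationIdx v.asIdeal w.asIdeal (L ≃ₐ[K] L),
    h3_ramificationIdx_eq_one h.unram w, one_mul, IsGalois.card_aut_eq_finrank, h.finrank,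
    ← h3_card_above] at hfund
  have hdvd : Nat.card {w : HeightOneSpectrum (𝓞 L) // w.under (𝓞 K) = v} ∣ p :=
    Dvd.intro _ hfund
  exact (Nat.dvd_prime h.prime).mp hdvd

/-- `L` has `p` times as many infinite places as `K`. -/
theorem h3_card_infinitePlace (p : ℕ) (h : UnramCyclic K L p) :
    Fintype.card (InfinitePlace L) = p * Fintype.card (InfinitePlace K) := by
  haveI hK : IsTotallyComplex K := ⟨h.complex⟩
  haveI hL : IsTotallyComplex L := isTotallyComplex_of_algebra K L
  have h1 := IsTotallyComplex.finrank K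
  have h2 := IsTotallyComplex.finrank L
  have h3 : Module.finrank ℚ K * Module.finrank K L = Module.finrank ℚ L :=
    Module.finrank_mul_finrank ℚ K L
  have h4 := InfinitePlace.card_eq_nrRealPlaces_add_nrComplexPlaces (K := K)
  have h5 := InfinitePlace.card_eq_nrRealPlaces_add_nrComplexPlaces (K := L)
  rw [IsTotallyComplex.nrRealPlaces_eq_zero, zero_add] at h4 h5
  rw [h4, h5]
  rw [h.finrank, h1, h2] at h3
  have h6 : 2 * (p * InfinitePlace.nrComplexPlaces K) = 2 * InfinitePlace.nrComplexPlaces L := by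
    rw [← h3]; ring
  exact (Nat.eq_of_mul_eq_mul_left (by norm_num) h6).symm

/-- **[COUNT]** -/
theorem h3_stCount (p : ℕ) : StCount K L p := by
  intro h
  refine ⟨fun v => ?_, fun v hv => h3_card_above_of_inert v hv, h3_card_infinitePlace K L p h⟩
  rcases h3_card_above_eq K L p h v with h1 | h1
  · exact Or.inl (h3_inert_of_card v h1)
  · exact Or.inr h1

end

end Fermat.Agent.S14x.HQ
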