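import Mathlib

/-!
# S14 / HQ (helper3): the rank of the group of `S`-units of a number field

For a number field `L` and a finite set `S` of finite primes of `L`, the group of `S`-units
`S.unit L ≤ Lˣ` (Mathlib `Set.unit`) is a finitely generated abelian group of rank
`rank (𝓞 L)ˣ + #S`.

* `valVec L S` : the valuation vector `S.unit L → (S → ℤ)` as a `ℤ`-linear map;
* `unitsToSU L S` : the inclusion of the units of `𝓞 L`;
* `range_unitsToSU` : exactness `(𝓞 L)ˣ → S.unit L → ℤ^S`;
* `exists_gen_pow` : `v ^ h` is principal (`h` the class number);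
* `finite_sUnit`, `finrank_sUnit`.
-/

set_option autoImplicit false

namespace Fermat.Agent.S14x.HQ.H3

open IsDedekindDomain NumberField

variable (L : Type*) [Field L] [NumberField L]

/-- The group of `S`-units of `L` for a finite set `S` of primes. -/
noncomputable abbrev SU (S : Finset (HeightOneSpectrum (𝓞 L))) : Subgroup Lˣ :=
  (S : Set (HeightOneSpectrum (𝓞 L))).unit L

variable {L} in
theorem mem_SU_iff {S : Finset (HeightOneSpectrum (𝓞 L))} {x : Lˣ} :
    x ∈ SU L S ↔ ∀ v : HeightOneSpectrum (𝓞 L), v ∉ S → v.valuation L (x : L) = 1 := by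
  constructor
  · intro h v hv
    exact h v (by simpa using hv)
  · intro h v hv
    exact h v (by simpa using hv)

/-- A power of every prime is principal. -/
theorem exists_gen_pow (v : HeightOneSpectrum (𝓞 L)) :
    ∃ a : 𝓞 L, a ≠ 0 ∧ Ideal.span {a} = v.asIdeal ^ (classNumber L) := by
  classical
  have hv0 : v.asIdeal ∈ nonZeroDivisors (Ideal (𝓞 L)) :=
    mem_nonZeroDivisors_of_ne_zero v.ne_bot
  have h1 : (ClassGroup.mk0 ⟨v.asIdeal, hv0⟩) ^ (classNumber L) = 1 := by
    unfold classNumber
    exact pow_card_eq_one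
  have h0 : (⟨v.asIdeal, hv0⟩ : nonZeroDivisors (Ideal (𝓞 L))) ^ (classNumber L) =
      ⟨v.asIdeal ^ classNumber L, pow_mem hv0 _⟩ := rfl
  have h3 : (v.asIdeal ^ classNumber L).IsPrincipal := by
    rw [← map_pow, h0] at h1
    exact (ClassGroup.mk0_eq_one_iff _).mp h1
  obtain ⟨a, ha⟩ := h3.principal
  have ha' : v.asIdeal ^ classNumber L = Ideal.span {a} := ha
  refine ⟨a, ?_, ha'.symm⟩
  rintro rfl
  rw [Ideal.span_singleton_eq_bot.mpr rfl] at ha'
  exact v.ne_bot (pow_eq_zero_iff (classNumber_ne_zero L) |>.mp ha')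

variable {L} in
/-- The valuation at `v` of a generator of `v ^ n`. -/
theorem intValuation_gen_self {v : HeightOneSpectrum (𝓞 L)} {a : 𝓞 L} {n : ℕ}
    (ha : Ideal.span {a} = v.asIdeal ^ n) :
    v.intValuation a = WithZero.exp (-(n : ℤ)) := by
  apply le_antisymm
  · rw [HeightOneSpectrum.intValuation_le_pow_iff_dvd, ha]
  · by_contra hlt
    rw [not_le] at hlt
    have h1 : v.intValuation a ≤ WithZero.exp (-((n + 1 : ℕ) : ℤ)) := by
      have ha0 : a ≠ 0 := by
        rintro rfl
        rw [Ideal.span_singleton_eq_bot.mpr rfl] at ha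
        exact pow_ne_zero _ v.ne_bot ha.symm
      rw [v.intValuation_if_neg ha0] at hlt ⊢
      rw [WithZero.exp_lt_exp] at hlt
      rw [WithZero.exp_le_exp]
      push_cast
      omega
    rw [HeightOneSpectrum.intValuation_le_pow_iff_dvd, ha] at h1
    have h2 : v.asIdeal ^ (n + 1) ≤ v.asIdeal ^ n := Ideal.pow_le_pow_right (Nat.le_succ n)
    have h3 : v.asIdeal ^ n ≤ v.asIdeal ^ (n + 1) := Ideal.le_of_dvd h1
    have h4 : v.asIdeal ^ n = v.asIdeal ^ (n + 1) := le_antisymm h3 h2
    have h5 : v.asIdeal ^ n ≠ 0 := pow_ne_zero _ v.ne_bot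
    have h6 : v.asIdeal ^ n * 1 = v.asIdeal ^ n * v.asIdeal := by
      rw [mul_one, ← pow_succ]; exact h4
    have h7 : (1 : Ideal (𝓞 L)) = v.asIdeal := mul_left_cancel₀ h5 h6
    exact v.isPrime.ne_top (by rw [← h7, Ideal.one_eq_top])

variable {L} in
/-- The valuation at `w ≠ v` of a generator of `v ^ n`. -/
theorem intValuation_gen_other {v w : HeightOneSpectrum (𝓞 L)} (hvw : w ≠ v) {a : 𝓞 L} {n : ℕ}
    (ha : Ideal.span {a} = v.asIdeal ^ n) :
    w.intValuation a = 1 := by
  rw [HeightOneSpectrum.intValuation_eq_one_iff]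
  intro hmem
  have h1 : v.asIdeal ^ n ≤ w.asIdeal := by
    rw [← ha, Ideal.span_singleton_le_iff_mem]
    exact hmem
  have h2 : v.asIdeal ≤ w.asIdeal := w.isPrime.le_of_pow_le h1
  have h3 : v.asIdeal = w.asIdeal :=
    (v.isMaximal.eq_of_le w.isPrime.ne_top h2)
  exact hvw (HeightOneSpectrum.ext h3.symm)

/-- The valuation vector of an `S`-unit. -/
noncomputable def valVec (S : Finset (HeightOneSpectrum (𝓞 L))) :
    Additive (SU L S) →ₗ[ℤ] (S → ℤ) :=
  AddMonoidHom.toIntLinearMap
    { toFun := fun x v =>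
        Multiplicative.toAdd (v.1.valuationOfNeZero (((Additive.toMul x : SU L S) : Lˣ)))
      map_zero' := by
        funext v
        simp
      map_add' := fun x y => by
        funext v
        simp }

variable {L} in
theorem valVec_apply (S : Finset (HeightOneSpectrum (𝓞 L))) (x : Additive (SU L S)) (v : S) :
    valVec L S x v =
      Multiplicative.toAdd (v.1.valuationOfNeZero (((Additive.toMul x : SU L S) : Lˣ))) := rfl

/-- Units of `𝓞 L` are `S`-units. -/
theorem units_mem_SU (S : Finset (HeightOneSpectrum (𝓞 L))) (u : (𝓞 L)ˣ) :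
    Units.map (algebraMap (𝓞 L) L : 𝓞 L →* L) u ∈ SU L S := by
  rw [mem_SU_iff]
  intro v _
  have h := HeightOneSpectrum.valuation_of_unit_eq (K := L) v u
  rw [← WithZero.coe_inj, HeightOneSpectrum.valuationOfNeZero_eq] at h
  exact h

/-- The inclusion of the units of `𝓞 L` into the `S`-units. -/
noncomputable def unitsToSU (S : Finset (HeightOneSpectrum (𝓞 L))) :
    Additive (𝓞 L)ˣ →ₗ[ℤ] Additive (SU L S) :=
  AddMonoidHom.toIntLinearMap
    (MonoidHom.toAdditive
      ((Units.map (algebraMap (𝓞 L) L : 𝓞 L →* L)).codRestrict (SU L S) (units_mem_SU L S)))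

variable {L} in
theorem unitsToSU_apply (S : Finset (HeightOneSpectrum (𝓞 L))) (u : Additive (𝓞 L)ˣ) :
    (((Additive.toMul (unitsToSU L S u) : SU L S) : Lˣ) : L) =
      algebraMap (𝓞 L) L ((Additive.toMul u : (𝓞 L)ˣ) : 𝓞 L) := rfl

theorem unitsToSU_injective (S : Finset (HeightOneSpectrum (𝓞 L))) :
    Function.Injective (unitsToSU L S) := by
  intro u u' h
  have h1 := unitsToSU_apply S u
  rw [h, unitsToSU_apply S u'] at h1
  have h2 := (FaithfulSMul.algebraMap_injective (𝓞 L) L) h1
  exact Additive.toMul.injective (Units.ext h2.symm)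

variable {L} in
/-- An element of `Lˣ` all of whose valuations are `1` is a unit of `𝓞 L`. -/
theorem exists_unit_of_valuation_eq_one (x : Lˣ)
    (hx : ∀ v : HeightOneSpectrum (𝓞 L), v.valuation L (x : L) = 1) :
    ∃ u : (𝓞 L)ˣ, algebraMap (𝓞 L) L (u : 𝓞 L) = (x : L) := by
  obtain ⟨a, ha⟩ := HeightOneSpectrum.mem_integers_of_valuation_le_one L (x : L)
    (fun v => (hx v).le)
  obtain ⟨b, hb⟩ := HeightOneSpectrum.mem_integers_of_valuation_le_one L ((x⁻¹ : Lˣ) : L)
    (fun v => by
      rw [Units.val_inv_eq_inv_val, map_inv₀, hx v, inv_one])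
  have hinj := FaithfulSMul.algebraMap_injective (𝓞 L) L
  have hab : a * b = 1 := by
    apply hinj
    rw [map_mul, ha, hb, map_one, Units.mul_inv]
  have hba : b * a = 1 := by rw [mul_comm]; exact hab
  exact ⟨⟨a, b, hab, hba⟩, ha⟩

/-- Exactness of `(𝓞 L)ˣ → S.unit L → ℤ^S`. -/
theorem range_unitsToSU (S : Finset (HeightOneSpectrum (𝓞 L))) :
    LinearMap.range (unitsToSU L S) = LinearMap.ker (valVec L S) := by
  ext x
  rw [LinearMap.mem_range, LinearMap.mem_ker]
  constructor
  · rintro ⟨u, rfl⟩
    funext v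
    rw [valVec_apply]
    have h := HeightOneSpectrum.valuation_of_unit_eq (K := L) v.1 (Additive.toMul u)
    change Multiplicative.toAdd (v.1.valuationOfNeZero
      (Units.map (algebraMap (𝓞 L) L : 𝓞 L →* L) (Additive.toMul u))) = 0
    rw [h]
    rfl
  · intro hx
    have hval : ∀ v : HeightOneSpectrum (𝓞 L),
        v.valuation L ((((Additive.toMul x : SU L S) : Lˣ)) : L) = 1 := by
      intro v
      by_cases hv : v ∈ S
      · have h1 := congrFun hx ⟨v, hv⟩
        rw [valVec_apply] at h1
        have h2 : v.valuationOfNeZero (((Additive.toMul x : SU L S) : Lˣ)) = 1 := h1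
        rw [← HeightOneSpectrum.valuationOfNeZero_eq, h2]
        rfl
      · exact mem_SU_iff.mp (Additive.toMul x : SU L S).2 v hv
    obtain ⟨u, hu⟩ := exists_unit_of_valuation_eq_one _ hval
    refine ⟨Additive.ofMul u, ?_⟩
    apply Additive.toMul.injective
    apply Subtype.ext
    apply Units.ext
    rw [unitsToSU_apply]
    exact hu

/-- For `v ∈ S` there is an `S`-unit whose valuation vector is `-h • e_v`. -/
theorem exists_valVec_single (S : Finset (HeightOneSpectrum (𝓞 L))) (v : S) :
    ∃ x : Additive (SU L S), valVec L S x v = -(classNumber L : ℤ) ∧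
      ∀ w : S, w ≠ v → valVec L S x w = 0 := by
  classical
  obtain ⟨a, ha0, ha⟩ := exists_gen_pow L v.1
  have hinj := FaithfulSMul.algebraMap_injective (𝓞 L) L
  have ha0' : algebraMap (𝓞 L) L a ≠ 0 := fun h => ha0 (hinj (by rw [h, map_zero]))
  have hmem : Units.mk0 (algebraMap (𝓞 L) L a) ha0' ∈ SU L S := by
    rw [mem_SU_iff]
    intro w hw
    rw [Units.val_mk0, HeightOneSpectrum.valuation_of_algebraMap]
    refine intValuation_gen_other ?_ ha
    rintro rfl
    exact hw v.2
  have h1 : ∀ w : S, ((w.1.valuationOfNeZero (Units.mk0 (algebraMap (𝓞 L) L a) ha0') :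
      Multiplicative ℤ) : WithZero (Multiplicative ℤ)) = w.1.intValuation a := by
    intro w
    rw [HeightOneSpectrum.valuationOfNeZero_eq, Units.val_mk0,
      HeightOneSpectrum.valuation_of_algebraMap]
  refine ⟨Additive.ofMul ⟨_, hmem⟩, ?_, fun w hwv => ?_⟩
  · rw [valVec_apply]
    change Multiplicative.toAdd
      (v.1.valuationOfNeZero (Units.mk0 (algebraMap (𝓞 L) L a) ha0')) = _
    have h1 := h1 v
    rw [intValuation_gen_self ha] at h1
    have h2 : v.1.valuationOfNeZero (Units.mk0 (algebraMap (𝓞 L) L a) ha0') =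
        Multiplicative.ofAdd (-(classNumber L : ℤ)) := WithZero.coe_inj.mp h1
    rw [h2]
    rfl
  · rw [valVec_apply]
    change Multiplicative.toAdd
      (w.1.valuationOfNeZero (Units.mk0 (algebraMap (𝓞 L) L a) ha0')) = _
    have h1 := h1 w
    have hne : w.1 ≠ v.1 := fun h => hwv (Subtype.ext h)
    rw [intValuation_gen_other hne ha] at h1
    have h2 : w.1.valuationOfNeZero (Units.mk0 (algebraMap (𝓞 L) L a) ha0') = 1 :=
      WithZero.coe_inj.mp h1
    rw [h2]
    rfl

/-- `h • y` lies in the range of the valuation vector map. -/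
theorem classNumber_smul_mem_range (S : Finset (HeightOneSpectrum (𝓞 L))) (y : S → ℤ) :
    (classNumber L : ℤ) • y ∈ LinearMap.range (valVec L S) := by
  classical
  choose x hx using exists_valVec_single L S
  have hy : (classNumber L : ℤ) • y = ∑ v : S, (-(y v)) • valVec L S (x v) := by
    funext w
    rw [Pi.smul_apply, Finset.sum_apply, Finset.sum_eq_single w]
    · rw [Pi.smul_apply, (hx w).1, smul_eq_mul, smul_eq_mul]
      ring
    · intro v _ hvw
      rw [Pi.smul_apply, (hx v).2 w (fun h => hvw h.symm), smul_zero]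
    · intro h
      exact absurd (Finset.mem_univ w) h
  rw [hy]
  refine Submodule.sum_mem _ (fun v _ => Submodule.smul_mem _ _ ?_)
  exact LinearMap.mem_range_self _ _

/-- The range of the valuation vector map has full rank. -/
theorem finrank_range_valVec (S : Finset (HeightOneSpectrum (𝓞 L))) :
    Module.finrank ℤ (LinearMap.range (valVec L S)) = S.card := by
  classical
  have htors : Module.IsTorsion ℤ ((S → ℤ) ⧸ LinearMap.range (valVec L S)) := by
    intro q
    obtain ⟨y, rfl⟩ := Submodule.Quotient.mk_surjective _ q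
    refine ⟨⟨(classNumber L : ℤ), ?_⟩, ?_⟩
    · rw [mem_nonZeroDivisors_iff_ne_zero]
      exact_mod_cast classNumber_ne_zero L
    · change (classNumber L : ℤ) •
        (Submodule.Quotient.mk y : (S → ℤ) ⧸ LinearMap.range (valVec L S)) = 0
      rw [← Submodule.Quotient.mk_smul (LinearMap.range (valVec L S)),
        Submodule.Quotient.mk_eq_zero]
      exact classNumber_smul_mem_range L S y
  have h0 : Module.finrank ℤ ((S → ℤ) ⧸ LinearMap.range (valVec L S)) = 0 :=
    Module.finrank_eq_zero_iff_isTorsion.mpr htors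
  have h1 := Submodule.finrank_quotient_add_finrank (LinearMap.range (valVec L S))
  rw [h0, zero_add, Module.finrank_pi, Fintype.card_coe] at h1
  exact h1

/-- The group of `S`-units is finitely generated. -/
theorem finite_sUnit (S : Finset (HeightOneSpectrum (𝓞 L))) :
    Module.Finite ℤ (Additive (SU L S)) := by
  classical
  have h1 : Module.Finite ℤ (LinearMap.ker (valVec L S)) := by
    rw [← range_unitsToSU]
    exact Module.Finite.range _
  have h2 : Module.Finite ℤ (Additive (SU L S) ⧸ LinearMap.ker (valVec L S)) :=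
    Module.Finite.equiv (LinearMap.quotKerEquivRange (valVec L S)).symm
  exact Module.Finite.of_submodule_quotient (LinearMap.ker (valVec L S))

/-- **The rank of the group of `S`-units**: `rank (𝓞 L)ˣ + #S`. -/
theorem finrank_sUnit (S : Finset (HeightOneSpectrum (𝓞 L))) :
    Module.finrank ℤ (Additive (SU L S)) = NumberField.Units.rank L + S.card := by
  classical
  have := finite_sUnit L S
  have h1 := Submodule.finrank_quotient_add_finrank (LinearMap.ker (valVec L S))
  have h2 : Module.finrank ℤ (Additive (SU L S) ⧸ LinearMap.ker (valVec L S)) = S.card := by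
    rw [(LinearMap.quotKerEquivRange (valVec L S)).finrank_eq]
    exact finrank_range_valVec L S
  have h3 : Module.finrank ℤ (LinearMap.ker (valVec L S)) = NumberField.Units.rank L := by
    rw [← range_unitsToSU, LinearMap.finrank_range_of_inj (unitsToSU_injective L S)]
    exact NumberField.Units.finrank_eq L
  rw [h2, h3] at h1
  rw [← h1, add_comm]

end Fermat.Agent.S14x.HQ.H3
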