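import Fermat.Agent.S14x.HQ.Defs
import Fermat.Agent.S14x.HQ.H3_SUnitRank

/-!
# S14 / HQ leaf [RANK] (helper3): Dirichlet's unit theorem for `T`-units

`h3_stRank F : StRank F` for every number field `F`.
-/

set_option autoImplicit false

namespace Fermat.Agent.S14x.HQ

open NumberField IsDedekindDomain

/-- **[RANK]** the group of `T`-units of a number field is finitely generated of rank
`#(infinite places) - 1 + #T`. -/
theorem h3_stRank (F : Type*) [Field F] [NumberField F] : StRank F := by
  intro T
  exact ⟨H3.finite_sUnit F T, H3.finrank_sUnit F T⟩

end Fermat.Agent.S14x.HQ
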