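import Mathlib
import Fermat.Agent.S14x.HQ.Defs
import Fermat.Agent.S14x.HQ.H18_Asm
import Fermat.Agent.S14x.HQ.H18_Gen
import Fermat.Agent.S14x.HQ.H18_NormVal
import Fermat.Agent.S14x.HQ.H19_StAbs
import Fermat.Agent.S14x.HQ.H16_StH1
import Fermat.Agent.S14x.HQ.H16_Fix
import Fermat.Agent.S14x.HQ.H16_Surj
import Fermat.Agent.S14x.HQ.H3_Rank
import Fermat.Agent.S14x.HQ.H3_Count
import Fermat.Agent.S14x.HQ.H3_Adapt

/-!
# S14 / HQ: the first inequality, hypothesis-free (helper18)

* `h18_stLw K L p : StLw K L p` (HQ form);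
* `h18_asm_stLw : Asm.StLw` (the deliverable of HQ in the form of `Asm/Defs.lean`).

Leaves: `StAbs` (helper19), `StH1`, `StFix`, `StSurj` (helper16), `StRank`, `StCount`, adapter
(helper3), `StGen`, `StNormVal`, assembly (helper18).
-/

set_option autoImplicit false

open NumberField

namespace Fermat.Agent.S14x.HQ

/-- **(Lw)** the first inequality, HQ form. -/
theorem h18_stLw (K L : Type) [Field K] [NumberField K] [Field L] [NumberField L] [Algebra K L]
    (p : ℕ) : StLw K L p :=
  h18_stLw_of_leaves K L p h19_stAbs (H16.stH1 K L p) (h3_stRank K) (h3_stRank L)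
    (h18_stGen K) (h18_stGen L) (H16.stFix K L p) (h3_stCount K L p) (h18_stNormVal K L p)
    (H16.stSurj K L p)

/-- **(Lw)** the first inequality, the deliverable of HQ (`Asm/Defs.lean`, verbatim). -/
theorem h18_asm_stLw : Fermat.Agent.S14x.Asm.StLw :=
  h3_asm_stLw_of_hq fun K L _ _ _ _ _ p => h18_stLw K L p

end Fermat.Agent.S14x.HQ
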