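import Mathlib

set_option autoImplicit false

namespace Fermat.Agent.S14x.HQ

open Module

section LemmaE

variable {M : Type*} [AddCommGroup M]

theorem h19_torsion_le_comap (f : M →ₗ[ℤ] M) :
    Submodule.torsion ℤ M ≤ (Submodule.torsion ℤ M).comap f := by
  intro x hx
  rw [Submodule.mem_comap, Submodule.mem_torsion_iff] at *
  obtain ⟨a, ha⟩ := hx
  refine ⟨a, ?_⟩
  rw [Submonoid.smul_def] at ha ⊢
  rw [← map_smul, ha, map_zero]

/-- The endomorphism induced on the torsion-free quotient. -/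
noncomputable def h19_bar (f : M →ₗ[ℤ] M) :
    (M ⧸ Submodule.torsion ℤ M) →ₗ[ℤ] (M ⧸ Submodule.torsion ℤ M) :=
  (Submodule.torsion ℤ M).mapQ (Submodule.torsion ℤ M) f (h19_torsion_le_comap f)

theorem h19_bar_mk (f : M →ₗ[ℤ] M) (x : M) :
    h19_bar f (Submodule.Quotient.mk x) = Submodule.Quotient.mk (f x) := rfl

theorem h19_bar_comp (f g : M →ₗ[ℤ] M) : h19_bar (f ∘ₗ g) = h19_bar f ∘ₗ h19_bar g := by
  ext x
  rfl

theorem h19_bar_mul (f g : M →ₗ[ℤ] M) : h19_bar (f * g) = h19_bar f * h19_bar g :=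
  h19_bar_comp f g

theorem h19_bar_one : h19_bar (1 : M →ₗ[ℤ] M) = 1 := by
  ext x
  rfl

theorem h19_bar_pow (f : M →ₗ[ℤ] M) (k : ℕ) : h19_bar (f ^ k) = h19_bar f ^ k := by
  induction k with
  | zero => simpa using h19_bar_one (M := M)
  | succ k ih => rw [pow_succ, pow_succ, h19_bar_mul, ih]

theorem h19_bar_smul (n : ℤ) (f : M →ₗ[ℤ] M) : h19_bar (n • f) = n • h19_bar f := by
  ext x
  rfl

theorem h19_mem_torsion_of_nsmul {x : M} {n : ℕ} (hn : n ≠ 0) (h : n • x = 0) :
    x ∈ Submodule.torsion ℤ M := by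
  rw [Submodule.mem_torsion_iff]
  refine ⟨⟨(n : ℤ), mem_nonZeroDivisors_of_ne_zero (by exact_mod_cast hn)⟩, ?_⟩
  rw [Submonoid.smul_def]
  simpa using h

theorem h19_exists_nsmul_of_mem_torsion {x : M} (h : x ∈ Submodule.torsion ℤ M) :
    ∃ n : ℕ, n ≠ 0 ∧ n • x = 0 := by
  rw [Submodule.mem_torsion_iff] at h
  obtain ⟨a, ha⟩ := h
  rw [Submonoid.smul_def] at ha
  refine ⟨(a : ℤ).natAbs, ?_, ?_⟩
  · simpa using nonZeroDivisors.coe_ne_zero a
  · rcases Int.natAbs_eq (a : ℤ) with h | h
    · rw [h] at ha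
      simpa using ha
    · rw [h] at ha
      simpa using ha

theorem h19_ker_le_torsion (f : M →ₗ[ℤ] M) (hf : (LinearMap.ker f : Set M).Finite) :
    LinearMap.ker f ≤ Submodule.torsion ℤ M := by
  intro x hx
  haveI : Finite (LinearMap.ker f) := hf
  have h1 := isOfFinAddOrder_of_finite (⟨x, hx⟩ : LinearMap.ker f)
  have h2 : addOrderOf (⟨x, hx⟩ : LinearMap.ker f) • (⟨x, hx⟩ : LinearMap.ker f) = 0 :=
    addOrderOf_nsmul_eq_zero _
  have h3 : addOrderOf (⟨x, hx⟩ : LinearMap.ker f) • x = 0 := by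
    have := congrArg Subtype.val h2
    simpa using this
  exact h19_mem_torsion_of_nsmul (h1.addOrderOf_pos.ne') h3

theorem h19_mem_torsion_of_map (f : M →ₗ[ℤ] M) (hf : (LinearMap.ker f : Set M).Finite)
    {x : M} (hx : f x ∈ Submodule.torsion ℤ M) : x ∈ Submodule.torsion ℤ M := by
  obtain ⟨n, hn, h⟩ := h19_exists_nsmul_of_mem_torsion hx
  have h1 : n • x ∈ LinearMap.ker f := by
    rw [LinearMap.mem_ker, map_nsmul, h]
  obtain ⟨m, hm, h2⟩ := h19_exists_nsmul_of_mem_torsion (h19_ker_le_torsion f hf h1)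
  refine h19_mem_torsion_of_nsmul (mul_ne_zero hm hn) ?_
  rw [mul_smul, h2]

theorem h19_bar_injective (f : M →ₗ[ℤ] M) (hf : (LinearMap.ker f : Set M).Finite) :
    Function.Injective (h19_bar f) := by
  rw [← LinearMap.ker_eq_bot, Submodule.eq_bot_iff]
  intro y hy
  obtain ⟨x, rfl⟩ := Submodule.Quotient.mk_surjective _ y
  rw [LinearMap.mem_ker, h19_bar_mk, Submodule.Quotient.mk_eq_zero] at hy
  rw [Submodule.Quotient.mk_eq_zero]
  exact h19_mem_torsion_of_map f hf hy

theorem h19_card_range_restrict {G : Type*} [AddCommGroup G] [Finite G] (g : G →+ G) :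
    g.range.index = Nat.card g.ker := by
  have h1 := AddSubgroup.card_mul_index g.range
  have h2 := AddSubgroup.card_mul_index g.ker
  rw [AddSubgroup.index_ker] at h2
  have h3 : 0 < Nat.card g.range := Nat.card_pos
  have h4 : Nat.card g.range * g.range.index = Nat.card g.range * Nat.card g.ker := by
    rw [h1, mul_comm, h2]
  exact Nat.eq_of_mul_eq_mul_left h3 h4

theorem h19_lemmaE [Module.Finite ℤ M] (f : M →ₗ[ℤ] M)
    (hf : (LinearMap.ker f : Set M).Finite) :
    LinearMap.det (h19_bar f) ≠ 0 ∧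
    (LinearMap.range f).toAddSubgroup.index =
      (LinearMap.det (h19_bar f)).natAbs * Nat.card (LinearMap.ker f) := by
  have hinj := h19_bar_injective f hf
  have hdet : LinearMap.det (h19_bar f) ≠ 0 := by
    intro h0
    have := LinearMap.bot_lt_ker_of_det_eq_zero h0
    rw [LinearMap.ker_eq_bot.mpr hinj] at this
    exact lt_irrefl _ this
  refine ⟨hdet, ?_⟩
  -- the index of the range of `f̄`
  have h1 : (LinearMap.range (h19_bar f)).toAddSubgroup.index =
      (LinearMap.det (h19_bar f)).natAbs := by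
    have key := Submodule.natAbs_det_equiv (LinearMap.range (h19_bar f))
      (LinearEquiv.ofInjective (h19_bar f) hinj)
    have hcomp : (LinearMap.range (h19_bar f)).subtype ∘ₗ AddMonoidHom.toIntLinearMap
        ((LinearEquiv.ofInjective (h19_bar f) hinj :
          (M ⧸ Submodule.torsion ℤ M) ≃ₗ[ℤ] LinearMap.range (h19_bar f)) :
          (M ⧸ Submodule.torsion ℤ M) →+ LinearMap.range (h19_bar f)) = h19_bar f := by
      ext x
      rfl
    rw [hcomp] at key
    rw [key]
    rfl
  -- pull back along the quotient map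
  have h2 : (LinearMap.range f ⊔ Submodule.torsion ℤ M).toAddSubgroup.index =
      (LinearMap.range (h19_bar f)).toAddSubgroup.index := by
    have hs : Function.Surjective ((Submodule.torsion ℤ M).mkQ.toAddMonoidHom) :=
      Submodule.mkQ_surjective _
    rw [← AddSubgroup.index_comap_of_surjective
      (H := (LinearMap.range (h19_bar f)).toAddSubgroup) hs]
    congr 1
    ext x
    have hx : x ∈ LinearMap.range f ⊔ Submodule.torsion ℤ M ↔
        x ∈ Submodule.comap (Submodule.torsion ℤ M).mkQ (LinearMap.range (h19_bar f)) := by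
      rw [h19_bar, Submodule.range_mapQ, Submodule.comap_map_mkQ, sup_comm]
    exact hx
  -- the torsion part
  haveI : Finite (Submodule.torsion ℤ M) :=
    Module.finite_of_fg_torsion _ (Submodule.torsion_isTorsion)
  let g : (Submodule.torsion ℤ M) →+ (Submodule.torsion ℤ M) :=
    (f.restrict (h19_torsion_le_comap f)).toAddMonoidHom
  have h3 : (LinearMap.range f).toAddSubgroup.relIndex (Submodule.torsion ℤ M).toAddSubgroup =
      g.range.index := by
    rw [AddSubgroup.relIndex]
    congr 1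
    ext y
    rw [AddSubgroup.mem_addSubgroupOf, AddMonoidHom.mem_range]
    constructor
    · rintro ⟨x, hx⟩
      have hxT : x ∈ Submodule.torsion ℤ M := by
        apply h19_mem_torsion_of_map f hf
        rw [hx]
        exact y.2
      exact ⟨⟨x, hxT⟩, Subtype.ext hx⟩
    · rintro ⟨x, hx⟩
      exact ⟨x.1, congrArg Subtype.val hx⟩
  have h4 : Nat.card g.ker = Nat.card (LinearMap.ker f) := by
    refine Nat.card_congr
      { toFun := fun x => ⟨x.1.1, by
          have := x.2
          rw [AddMonoidHom.mem_ker] at this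
          exact congrArg Subtype.val this⟩
        invFun := fun y => ⟨⟨y.1, h19_ker_le_torsion f hf y.2⟩, by
          rw [AddMonoidHom.mem_ker]
          exact Subtype.ext y.2⟩
        left_inv := fun x => rfl
        right_inv := fun y => rfl }
  have h5 := AddSubgroup.relIndex_mul_index
    (H := (LinearMap.range f).toAddSubgroup)
    (K := (LinearMap.range f ⊔ Submodule.torsion ℤ M).toAddSubgroup)
    (by intro x hx; exact (le_sup_left : LinearMap.range f ≤ _) hx)
  have h6 : (LinearMap.range f).toAddSubgroup.relIndex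
      (LinearMap.range f ⊔ Submodule.torsion ℤ M).toAddSubgroup =
      (LinearMap.range f).toAddSubgroup.relIndex (Submodule.torsion ℤ M).toAddSubgroup := by
    rw [Submodule.sup_toAddSubgroup]
    exact AddSubgroup.relIndex_sup_left _ _
  rw [← h5, h6, h3, h19_card_range_restrict g, h4, h2, h1, mul_comm]

end LemmaE


section PolyId

open Polynomial

theorem h19_poly_identity (p : ℕ) (hp : p.Prime) :
    ∃ g : ℤ[X], (X - 1 : ℤ[X]) ^ (p - 1) = (∑ i ∈ Finset.range p, X ^ i) + C (p : ℤ) * g := by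
  haveI : Fact p.Prime := ⟨hp⟩
  have h1 : ((X - 1 : (ZMod p)[X])) ^ (p - 1) = ∑ i ∈ Finset.range p, X ^ i := by
    have hne : (X - 1 : (ZMod p)[X]) ≠ 0 := by
      simpa using X_sub_C_ne_zero (1 : ZMod p)
    apply mul_left_cancel₀ hne
    rw [mul_geom_sum, ← pow_succ', Nat.sub_add_cancel hp.one_le, sub_pow_char, one_pow]
  have h2 : ∀ i, (p : ℤ) ∣ ((X - 1 : ℤ[X]) ^ (p - 1) - ∑ i ∈ Finset.range p, X ^ i).coeff i := by
    intro i
    rw [← ZMod.intCast_zmod_eq_zero_iff_dvd]
    have h3 : Polynomial.map (Int.castRingHom (ZMod p))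
        ((X - 1 : ℤ[X]) ^ (p - 1) - ∑ i ∈ Finset.range p, X ^ i) = 0 := by
      simp only [Polynomial.map_sub, Polynomial.map_pow, Polynomial.map_X, Polynomial.map_one,
        Polynomial.map_sum]
      rw [h1, sub_self]
    have h4 : (Int.castRingHom (ZMod p))
        (((X - 1 : ℤ[X]) ^ (p - 1) - ∑ i ∈ Finset.range p, X ^ i).coeff i) = 0 := by
      rw [← Polynomial.coeff_map, h3, coeff_zero]
    exact h4
  obtain ⟨g, hg⟩ := (Polynomial.C_dvd_iff_dvd_coeff _ _).mpr h2
  exact ⟨g, by rw [← hg]; ring⟩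

theorem h19_end_identity {A : Type*} [AddCommGroup A] (s : Module.End ℤ A) (p : ℕ)
    (hp : p.Prime) :
    ∃ G : Module.End ℤ A, Commute G s ∧
      (s - 1) ^ (p - 1) = (∑ i ∈ Finset.range p, s ^ i) + (p : ℤ) • G := by
  obtain ⟨g, hg⟩ := h19_poly_identity p hp
  refine ⟨aeval s g, ?_, ?_⟩
  · have := (Commute.all g (X : ℤ[X])).map (aeval s)
    rwa [aeval_X] at this
  · have := congrArg (aeval s) hg
    simpa [map_sum, Algebra.smul_def] using this

end PolyId

end Fermat.Agent.S14x.HQ
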