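import Fermat.Agent.S14x.HQ.H19_Abs

set_option autoImplicit false

namespace Fermat.Agent.S14x.HQ

open Module

section Core

theorem h19_finite_of_le_torsion {M : Type*} [AddCommGroup M] [Module.Finite ℤ M]
    (S : Submodule ℤ M) (h : S ≤ Submodule.torsion ℤ M) : (S : Set M).Finite := by
  haveI : Finite (Submodule.torsion ℤ M) :=
    Module.finite_of_fg_torsion _ (Submodule.torsion_isTorsion)
  exact (Set.toFinite (Submodule.torsion ℤ M : Set M)).subset h

theorem h19_det_bar_smul_one {M : Type*} [AddCommGroup M] [Module.Finite ℤ M] (n : ℤ)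
    (g : M →ₗ[ℤ] M) :
    LinearMap.det (h19_bar (n • g)) = n ^ Module.finrank ℤ M * LinearMap.det (h19_bar g) := by
  rw [h19_bar_smul, LinearMap.det_smul, finrank_quotient_eq_of_le_torsion le_rfl]

/-- index of `n M` in `M`. -/
theorem h19_index_smul {M : Type*} [AddCommGroup M] [Module.Finite ℤ M] (n : ℕ) (hn : n ≠ 0) :
    (LinearMap.range ((n : ℤ) • (1 : M →ₗ[ℤ] M))).toAddSubgroup.index =
      n ^ Module.finrank ℤ M * Nat.card (LinearMap.ker ((n : ℤ) • (1 : M →ₗ[ℤ] M))) := by
  have hfin : (LinearMap.ker ((n : ℤ) • (1 : M →ₗ[ℤ] M)) : Set M).Finite := by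
    apply h19_finite_of_le_torsion
    intro x hx
    rw [LinearMap.mem_ker] at hx
    apply h19_mem_torsion_of_nsmul hn
    simpa using hx
  obtain ⟨-, h⟩ := h19_lemmaE _ hfin
  rw [h, h19_det_bar_smul_one, h19_bar_one, map_one, mul_one, Int.natAbs_pow,
    Int.natAbs_natCast]

theorem h19_relIndex_restrict {A : Type*} [AddCommGroup A] (f : A →ₗ[ℤ] A)
    (P : Submodule ℤ A) (hP : ∀ x ∈ P, f x ∈ P) :
    (P.toAddSubgroup.map f.toAddMonoidHom).relIndex P.toAddSubgroup =
      (LinearMap.range (f.restrict hP)).toAddSubgroup.index := by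
  rw [AddSubgroup.relIndex]
  congr 1
  ext m
  rw [AddSubgroup.mem_addSubgroupOf, AddSubgroup.mem_map]
  constructor
  · rintro ⟨y, hy, hym⟩
    exact ⟨⟨y, hy⟩, Subtype.ext hym⟩
  · rintro ⟨y, hy⟩
    exact ⟨y.1, y.2, congrArg Subtype.val hy⟩

theorem h19_relIndex_map_range {A : Type*} [AddCommGroup A] (f : A →+ A)
    (H : AddSubgroup A) :
    (H.map f).relIndex f.range = (H ⊔ f.ker).index := by
  have := AddSubgroup.relIndex_map_map f H ⊤
  rwa [top_sup_eq, AddSubgroup.relIndex_top_right, ← AddMonoidHom.range_eq_map] at this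

theorem h19_core_aux {A : Type*} [AddCommGroup A] [Module.Finite ℤ A]
    (s D N : Module.End ℤ A) (hD : D = s - 1) (p : ℕ)
    (hN : N = ∑ i ∈ Finset.range p, s ^ i) (hp : p.Prime) (hs : s ^ p = 1)
    (hH1 : ∀ x : A, N x = 0 → ∃ y : A, x = s y - y)
    (r a t : ℕ) (hr : Module.finrank ℤ A = r)
    (ha : Module.finrank ℤ (LinearMap.ker D) = a)
    (hrat : r + (p - 1) * t = p * a + (p - 1))
    (ν : (LinearMap.ker D) →+ (Fin t → ZMod p)) (hν : Function.Surjective ν)
    (hνN : ∀ (x : A) (h : N x ∈ LinearMap.ker D), ν ⟨_, h⟩ = 0) : False := by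
  classical
  haveI : Fact p.Prime := ⟨hp⟩
  obtain ⟨G, hGs, hG⟩ := h19_end_identity s p hp
  rw [← hN, ← hD] at hG
  have hDN : D * N = 0 := by rw [hD, hN, mul_geom_sum, hs, sub_self]
  have hND : N * D = 0 := by rw [hD, hN, geom_sum_mul, hs, sub_self]
  have hGD : Commute G D := by
    rw [hD]
    exact hGs.sub_right (Commute.one_right G)
  have hDN' : ∀ x, D (N x) = 0 := fun x => by
    rw [← Module.End.mul_apply, hDN]; rfl
  have hND' : ∀ x, N (D x) = 0 := fun x => by
    rw [← Module.End.mul_apply, hND]; rfl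
  have hNB : ∀ x, D x = 0 → N x = (p : ℤ) • x := by
    intro x hx
    have hsx : s x = x := by
      have : s x - x = 0 := by simpa [hD] using hx
      exact sub_eq_zero.mp this
    have hpow : ∀ i : ℕ, (s ^ i) x = x := by
      intro i
      induction i with
      | zero => simp
      | succ i ih => rw [pow_succ, Module.End.mul_apply, hsx, ih]
    rw [hN, LinearMap.sum_apply]
    simp [hpow]
  have hker : LinearMap.ker N = LinearMap.range D := by
    apply le_antisymm
    · intro x hx
      obtain ⟨y, hy⟩ := hH1 x hx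
      exact ⟨y, by simp [hD, hy]⟩
    · rintro _ ⟨y, rfl⟩
      exact hND' y
  -- the two stable submodules
  have hB : ∀ x ∈ LinearMap.ker D, N x ∈ LinearMap.ker D := fun x _ => hDN' x
  have hM : ∀ x ∈ LinearMap.range D, D x ∈ LinearMap.range D := fun x _ => ⟨x, rfl⟩
  have hGM : ∀ x ∈ LinearMap.range D, G x ∈ LinearMap.range D := by
    rintro _ ⟨y, rfl⟩
    refine ⟨G y, ?_⟩
    have := congrArg (fun φ : Module.End ℤ A => φ y) hGD.eq
    simpa [Module.End.mul_apply] using this.symm
  -- Lemma E on `B`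
  have hNres : N.restrict hB = (p : ℤ) • (1 : LinearMap.ker D →ₗ[ℤ] LinearMap.ker D) := by
    ext x
    have := hNB x.1 x.2
    simpa using this
  have hEB := h19_index_smul (M := LinearMap.ker D) p hp.ne_zero
  rw [← hNres, ← h19_relIndex_restrict N (LinearMap.ker D) hB, ha] at hEB
  -- Lemma E on `M`
  have hfinM : (LinearMap.ker (D.restrict hM) : Set (LinearMap.range D)).Finite := by
    apply h19_finite_of_le_torsion
    intro x hx
    rw [LinearMap.mem_ker] at hx
    have hx1 : D x.1 = 0 := by
      have := congrArg Subtype.val hx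
      simpa using this
    have hx2 : N x.1 = 0 := by
      obtain ⟨y, hy⟩ := x.2
      rw [← hy]
      exact hND' y
    apply h19_mem_torsion_of_nsmul hp.ne_zero
    apply Subtype.ext
    have := hNB x.1 hx1
    rw [hx2] at this
    simpa using this.symm
  obtain ⟨hdet, hEM⟩ := h19_lemmaE (D.restrict hM) hfinM
  rw [← h19_relIndex_restrict D (LinearMap.range D) hM] at hEM
  -- the determinant
  have hrankM : Module.finrank ℤ (LinearMap.range D) + a = r := by
    rw [← hr, ← ha, ← (LinearMap.quotKerEquivRange D).finrank_eq]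
    exact Submodule.finrank_quotient_add_finrank _
  have hpowD : (D.restrict hM) ^ (p - 1) = (p : ℤ) • G.restrict hGM := by
    rw [Module.End.pow_restrict]
    ext x
    have hx2 : N x.1 = 0 := by
      obtain ⟨y, hy⟩ := x.2
      rw [← hy]
      exact hND' y
    have := congrArg (fun φ : Module.End ℤ A => φ x.1) hG
    simpa [hx2] using this
  have hdetpow : LinearMap.det (h19_bar (D.restrict hM)) ^ (p - 1) =
      (p : ℤ) ^ Module.finrank ℤ (LinearMap.range D) *
        LinearMap.det (h19_bar (G.restrict hGM)) := by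
    rw [← map_pow, ← h19_bar_pow, hpowD, h19_det_bar_smul_one]
  -- the kernels
  have hκ : Nat.card (LinearMap.ker (N.restrict hB)) =
      Nat.card (LinearMap.ker (D.restrict hM)) := by
    refine Nat.card_congr
      { toFun := fun x => ⟨⟨x.1.1, by
            have h1 : N x.1.1 = 0 :=
              congrArg Subtype.val (LinearMap.mem_ker.mp x.2)
            rw [← hker]
            exact h1⟩, by
            rw [LinearMap.mem_ker]
            apply Subtype.ext
            exact x.1.2⟩
        invFun := fun x => ⟨⟨x.1.1, by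
            have h1 : D x.1.1 = 0 :=
              congrArg Subtype.val (LinearMap.mem_ker.mp x.2)
            exact h1⟩, by
            rw [LinearMap.mem_ker]
            apply Subtype.ext
            have h2 : x.1.1 ∈ LinearMap.ker N := by
              rw [hker]
              exact x.1.2
            exact h2⟩
        left_inv := fun x => rfl
        right_inv := fun x => rfl }
  haveI : Finite (LinearMap.ker (D.restrict hM)) := hfinM
  have hκpos : 0 < Nat.card (LinearMap.ker (D.restrict hM)) := Nat.card_pos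
  -- index bookkeeping
  have hkerN' : N.toAddMonoidHom.ker = (LinearMap.range D).toAddSubgroup := by
    rw [← LinearMap.ker_toAddSubgroup, hker]
  have hkerD' : D.toAddMonoidHom.ker = (LinearMap.ker D).toAddSubgroup := by
    rw [← LinearMap.ker_toAddSubgroup]
  have hrangeD' : D.toAddMonoidHom.range = (LinearMap.range D).toAddSubgroup := by
    rw [← LinearMap.range_toAddSubgroup]
  have h1 := h19_relIndex_map_range N.toAddMonoidHom (LinearMap.ker D).toAddSubgroup
  have h2 := h19_relIndex_map_range D.toAddMonoidHom (LinearMap.range D).toAddSubgroup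
  rw [hkerN'] at h1
  rw [hkerD', hrangeD', sup_comm] at h2
  have h3 : ((LinearMap.ker D).toAddSubgroup.map N.toAddMonoidHom).relIndex
      N.toAddMonoidHom.range =
      (LinearMap.det (h19_bar (D.restrict hM))).natAbs *
        Nat.card (LinearMap.ker (D.restrict hM)) := by
    rw [h1, ← h2, hEM]
  have hle1 : (LinearMap.ker D).toAddSubgroup.map N.toAddMonoidHom ≤ N.toAddMonoidHom.range :=
    AddSubgroup.map_le_range _ _
  have hle2 : N.toAddMonoidHom.range ≤ (LinearMap.ker D).toAddSubgroup := by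
    rintro _ ⟨y, rfl⟩
    exact hDN' y
  have h4 := AddSubgroup.relIndex_mul_relIndex _ _ _ hle1 hle2
  rw [h3, hEB, hκ] at h4
  -- the map `ν`
  have h5 : p ^ t ∣ N.toAddMonoidHom.range.relIndex (LinearMap.ker D).toAddSubgroup := by
    let e : (LinearMap.ker D).toAddSubgroup →+ LinearMap.ker D :=
      { toFun := fun x => ⟨x.1, x.2⟩
        map_zero' := rfl
        map_add' := fun _ _ => rfl }
    have hsurj : Function.Surjective (ν.comp e) := by
      intro y
      obtain ⟨x, hx⟩ := hν y
      exact ⟨⟨x.1, x.2⟩, hx⟩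
    have hidx : (ν.comp e).ker.index = p ^ t := by
      rw [AddSubgroup.index_ker, AddMonoidHom.range_eq_top.mpr hsurj]
      rw [Nat.card_congr (AddSubgroup.topEquiv (G := Fin t → ZMod p)).toEquiv, Nat.card_fun,
        Nat.card_zmod, Nat.card_fin]
    rw [← hidx, AddSubgroup.relIndex]
    apply AddSubgroup.index_dvd_of_le
    intro x hx
    rw [AddSubgroup.mem_addSubgroupOf] at hx
    obtain ⟨y, hy⟩ := hx
    rw [AddMonoidHom.mem_ker]
    have hy' : N y = x.1 := hy
    have hmem : N y ∈ LinearMap.ker D := hDN' y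
    have := hνN y hmem
    have hx' : e x = ⟨N y, hmem⟩ := Subtype.ext hy'.symm
    rw [AddMonoidHom.comp_apply, hx']
    exact this
  -- arithmetic
  obtain ⟨c, hc⟩ := h5
  rw [hc] at h4
  have h6 : (LinearMap.det (h19_bar (D.restrict hM))).natAbs * (p ^ t * c) = p ^ a := by
    have h7 : (LinearMap.det (h19_bar (D.restrict hM))).natAbs * (p ^ t * c) *
        Nat.card (LinearMap.ker (D.restrict hM)) =
        p ^ a * Nat.card (LinearMap.ker (D.restrict hM)) := by
      rw [← h4]; ring
    exact Nat.eq_of_mul_eq_mul_right hκpos h7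
  have h8 := congrArg Int.natAbs hdetpow
  rw [Int.natAbs_pow, Int.natAbs_mul, Int.natAbs_pow, Int.natAbs_natCast] at h8
  have hgne : (LinearMap.det (h19_bar (G.restrict hGM))).natAbs ≠ 0 := by
    intro h0
    rw [h0, mul_zero] at h8
    exact hdet (Int.natAbs_eq_zero.mp (pow_eq_zero_iff (Nat.sub_ne_zero_of_lt hp.one_lt) |>.mp h8))
  -- raise `h6` to the power `p - 1`
  have h9 := congrArg (fun n => n ^ (p - 1)) h6
  simp only [mul_pow] at h9
  rw [h8, ← pow_mul, ← pow_mul] at h9
  have h10 : p ^ (Module.finrank ℤ (LinearMap.range D) + t * (p - 1)) ∣ p ^ (a * (p - 1)) := by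
    rw [← h9, pow_add]
    exact ⟨(LinearMap.det (h19_bar (G.restrict hGM))).natAbs * c ^ (p - 1), by ring⟩
  have h11 := (Nat.pow_dvd_pow_iff_le_right hp.one_lt).mp h10
  have hp2 := hp.two_le
  obtain ⟨q, hq⟩ : ∃ q, p = q + 1 := ⟨p - 1, by omega⟩
  subst hq
  simp only [Nat.add_sub_cancel] at h11 hrat
  have e1 : (q + 1) * a = q * a + a := by ring
  have e2 : t * q = q * t := by ring
  have e3 : a * q = q * a := by ring
  rw [e1] at hrat
  rw [e2, e3] at h11
  omega

theorem h19_core {A : Type*} [AddCommGroup A] [Module.Finite ℤ A]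
    (s : Module.End ℤ A) (p : ℕ) (hp : p.Prime) (hs : s ^ p = 1)
    (hH1 : ∀ x : A, (∑ i ∈ Finset.range p, s ^ i) x = 0 → ∃ y : A, x = s y - y)
    (r a t : ℕ) (hr : Module.finrank ℤ A = r)
    (ha : Module.finrank ℤ (LinearMap.ker (s - 1)) = a)
    (hrat : r + (p - 1) * t = p * a + (p - 1))
    (ν : (LinearMap.ker (s - 1)) →+ (Fin t → ZMod p)) (hν : Function.Surjective ν)
    (hνN : ∀ (x : A) (h : (∑ i ∈ Finset.range p, s ^ i) x ∈ LinearMap.ker (s - 1)),
      ν ⟨_, h⟩ = 0) : False :=
  h19_core_aux s (s - 1) (∑ i ∈ Finset.range p, s ^ i) rfl p rfl hp hs hH1 r a t hr ha hrat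
    ν hν hνN

end Core

end Fermat.Agent.S14x.HQ
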