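import Fermat.Agent.S14x.HQ.Defs
import Fermat.Agent.S14x.HQ.H16_H1

/-!
# S14 / HQ, pieces (P1) + (P2) of the assembly [ASM-HQ] (helper19)

`X := (above K L T).unit L` (the `S`-units of `L`, `S` = primes above `T`).

* (P1) `h19_sigmaX K L T σ : X ≃* X`, the action of `σ ∈ Gal(L/K)`; `h19_sigmaX_pow_card`
  (`σ_X ^ p = 1`), `h19_prod_sigmaX` (`∏_{i<p} σ_X^i x = N(x)` for a generator `σ`).
* (P2) `h19_fixedEquiv` : `T.unit K ≃* Y` for the fixed subgroup `Y` of `σ_X` (from `StFix`),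
  `h19_finrank_fixed` : `finrank ℤ (Additive Y) = finrank ℤ (Additive (T.unit K))`.
-/

set_option autoImplicit false
set_option linter.unusedSectionVars false
set_option linter.style.haveILetI false

open IsDedekindDomain NumberField

namespace Fermat.Agent.S14x.HQ

variable (K L : Type) [Field K] [Field L] [NumberField K] [NumberField L] [Algebra K L]

theorem h19_map_mem_unit (T : Set (HeightOneSpectrum (𝓞 K))) (σ : L ≃ₐ[K] L) (x : Lˣ)
    (hx : x ∈ (above K L T).unit L) :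
    Units.map (σ : L →* L) x ∈ (above K L T).unit L := by
  intro w hw
  have hw' : H16.smulH σ⁻¹ w ∉ above K L T := by
    show ¬ ((H16.smulH σ⁻¹ w).under (𝓞 K) ∈ T)
    rw [H16.under_smulH]
    exact hw
  have h1 := hx _ hw'
  have h2 := H16.valuation_smulH K L σ (H16.smulH σ⁻¹ w) (x : L)
  have h3 : H16.smulH σ (H16.smulH σ⁻¹ w) = w := by
    apply HeightOneSpectrum.ext
    simp [H16.smulH_asIdeal]
  rw [h3] at h2
  show w.valuation L (σ (x : L)) = 1
  rw [h2]
  exact h1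

/-- The action of `σ ∈ Gal(L/K)` on the `S`-units of `L`, `S` the set of primes above `T`. -/
noncomputable def h19_sigmaX (T : Set (HeightOneSpectrum (𝓞 K))) (σ : L ≃ₐ[K] L) :
    ((above K L T).unit L) ≃* ((above K L T).unit L) where
  toFun x := ⟨Units.map (σ : L →* L) x.1, h19_map_mem_unit K L T σ x.1 x.2⟩
  invFun x := ⟨Units.map ((σ⁻¹ : L ≃ₐ[K] L) : L →* L) x.1, h19_map_mem_unit K L T σ⁻¹ x.1 x.2⟩
  left_inv x := by
    apply Subtype.ext
    apply Units.ext
    show σ⁻¹ (σ ((x.1 : Lˣ) : L)) = _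
    exact σ.symm_apply_apply _
  right_inv x := by
    apply Subtype.ext
    apply Units.ext
    show σ (σ⁻¹ ((x.1 : Lˣ) : L)) = _
    exact σ.apply_symm_apply _
  map_mul' x y := by
    apply Subtype.ext
    apply Units.ext
    show σ (((x.1 : Lˣ) : L) * ((y.1 : Lˣ) : L)) = _
    rw [map_mul]
    rfl

theorem h19_sigmaX_coe (T : Set (HeightOneSpectrum (𝓞 K))) (σ : L ≃ₐ[K] L)
    (x : (above K L T).unit L) :
    (((h19_sigmaX K L T σ x : (above K L T).unit L) : Lˣ) : L) = σ ((x : Lˣ) : L) := rfl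

theorem h19_sigmaX_pow_coe (T : Set (HeightOneSpectrum (𝓞 K))) (σ : L ≃ₐ[K] L) (i : ℕ)
    (x : (above K L T).unit L) :
    ((((h19_sigmaX K L T σ ^ i) x : (above K L T).unit L) : Lˣ) : L) =
      (σ ^ i) ((x : Lˣ) : L) := by
  induction i generalizing x with
  | zero => rfl
  | succ i ih =>
    rw [pow_succ, pow_succ]
    show ((((h19_sigmaX K L T σ ^ i) (h19_sigmaX K L T σ x) : (above K L T).unit L) : Lˣ) : L) = _
    rw [ih]
    rfl

variable {K L}

theorem h19_orderOf_gen [IsGalois K L] {p : ℕ} (hp : p.Prime) (hfin : Module.finrank K L = p)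
    (σ : L ≃ₐ[K] L) (hσ : ∀ τ : L ≃ₐ[K] L, τ ∈ Subgroup.zpowers σ) : orderOf σ = p := by
  have h1 : Nat.card (L ≃ₐ[K] L) = p := by
    rw [IsGalois.card_aut_eq_finrank, hfin]
  rw [← h1, ← Nat.card_zpowers]
  have : Subgroup.zpowers σ = ⊤ := by
    ext τ
    simp [hσ τ]
  rw [this, Nat.card_congr (Subgroup.topEquiv (G := L ≃ₐ[K] L)).toEquiv]

variable (K L)

theorem h19_sigmaX_pow_card {p : ℕ} (h : UnramCyclic K L p)
    (T : Set (HeightOneSpectrum (𝓞 K))) (σ : L ≃ₐ[K] L)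
    (x : (above K L T).unit L) : (h19_sigmaX K L T σ ^ p) x = x := by
  haveI := h.galois
  apply Subtype.ext
  apply Units.ext
  rw [h19_sigmaX_pow_coe]
  have h1 : Nat.card (L ≃ₐ[K] L) = p := by
    rw [IsGalois.card_aut_eq_finrank, h.finrank]
  have h2 : σ ^ p = 1 := by
    rw [← h1]
    exact pow_card_eq_one'
  rw [h2]
  rfl

theorem h19_prod_pow_eq_norm {p : ℕ} (h : UnramCyclic K L p) (σ : L ≃ₐ[K] L)
    (hσ : ∀ τ : L ≃ₐ[K] L, τ ∈ Subgroup.zpowers σ) (x : L) :
    ∏ i ∈ Finset.range p, (σ ^ i) x = algebraMap K L (Algebra.norm K x) := by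
  classical
  haveI := h.galois
  have hord := h19_orderOf_gen h.prime h.finrank σ hσ
  rw [Algebra.norm_eq_prod_automorphisms]
  have hinj : Set.InjOn (fun i : ℕ => σ ^ i) (Finset.range p : Set ℕ) := by
    intro i hi j hj hij
    have hi' : i < orderOf σ := by rw [hord]; exact Finset.mem_range.mp hi
    have hj' : j < orderOf σ := by rw [hord]; exact Finset.mem_range.mp hj
    exact pow_injOn_Iio_orderOf hi' hj' hij
  have himg : Finset.image (fun i : ℕ => σ ^ i) (Finset.range p) = Finset.univ := by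
    apply Finset.eq_univ_of_card
    rw [Finset.card_image_of_injOn hinj, Finset.card_range, ← Nat.card_eq_fintype_card,
      IsGalois.card_aut_eq_finrank, h.finrank]
  rw [← himg, Finset.prod_image hinj]

theorem h19_prod_sigmaX {p : ℕ} (h : UnramCyclic K L p)
    (T : Set (HeightOneSpectrum (𝓞 K))) (σ : L ≃ₐ[K] L)
    (hσ : ∀ τ : L ≃ₐ[K] L, τ ∈ Subgroup.zpowers σ) (x : (above K L T).unit L) :
    ((∏ i ∈ Finset.range p, (h19_sigmaX K L T σ ^ i) x : (above K L T).unit L) : Lˣ) =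
      inclU K L (normU K L (x : Lˣ)) := by
  apply Units.ext
  have h1 : (((∏ i ∈ Finset.range p, (h19_sigmaX K L T σ ^ i) x : (above K L T).unit L) : Lˣ) : L)
      = ∏ i ∈ Finset.range p, (σ ^ i) ((x : Lˣ) : L) := by
    have h0 := map_prod ((Units.coeHom L).comp ((above K L T).unit L).subtype)
      (fun i => (h19_sigmaX K L T σ ^ i) x) (Finset.range p)
    refine h0.trans ?_
    exact Finset.prod_congr rfl fun i _ => h19_sigmaX_pow_coe K L T σ i x
  rw [h1, h19_prod_pow_eq_norm K L h σ hσ]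
  rfl

/-- If `∏_{i<p} σ_X^i x = 1` then `N(x) = 1`. -/
theorem h19_normU_eq_one_of_prod {p : ℕ} (h : UnramCyclic K L p)
    (T : Set (HeightOneSpectrum (𝓞 K))) (σ : L ≃ₐ[K] L)
    (hσ : ∀ τ : L ≃ₐ[K] L, τ ∈ Subgroup.zpowers σ) (x : (above K L T).unit L)
    (hx : ∏ i ∈ Finset.range p, (h19_sigmaX K L T σ ^ i) x = 1) :
    normU K L (x : Lˣ) = 1 := by
  have h1 := h19_prod_sigmaX K L h T σ hσ x
  rw [hx] at h1
  apply Units.ext
  have h2 : ((inclU K L (normU K L (x : Lˣ)) : Lˣ) : L) = 1 := by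
    rw [← h1]; rfl
  have h3 : algebraMap K L ((normU K L (x : Lˣ) : Kˣ) : K) = algebraMap K L 1 := by
    rw [map_one]; exact h2
  exact (algebraMap K L).injective h3

section Fixed

/-- (P2) the fixed subgroup of `σ_X` is the image of the `T`-units of `K`. -/
theorem h19_fixedEquiv {p : ℕ} (h : UnramCyclic K L p) (hFix : StFix K L p)
    (T : Set (HeightOneSpectrum (𝓞 K))) (σ : L ≃ₐ[K] L)
    (hσ : ∀ τ : L ≃ₐ[K] L, τ ∈ Subgroup.zpowers σ)
    (Y : Subgroup ((above K L T).unit L))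
    (hY : ∀ x, x ∈ Y ↔ h19_sigmaX K L T σ x = x) :
    ∃ e : (T.unit K) ≃* Y, ∀ c : T.unit K,
      (((e c : Y) : (above K L T).unit L) : Lˣ) = inclU K L (c : Kˣ) := by
  have hfixall : ∀ x : (above K L T).unit L, h19_sigmaX K L T σ x = x →
      ∀ τ : L ≃ₐ[K] L, τ ((x : Lˣ) : L) = ((x : Lˣ) : L) := by
    intro x hx τ
    have hσx : σ ((x : Lˣ) : L) = ((x : Lˣ) : L) := by
      have := congrArg (fun y : (above K L T).unit L => ((y : Lˣ) : L)) hx
      exact this
    obtain ⟨n, rfl⟩ := Subgroup.mem_zpowers_iff.mp (hσ τ)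
    have hstab : σ ∈ MulAction.stabilizer (L ≃ₐ[K] L) ((x : Lˣ) : L) := hσx
    have := Subgroup.zpow_mem _ hstab n
    exact this
  have hmemX : ∀ c : T.unit K, inclU K L (c : Kˣ) ∈ (above K L T).unit L := fun c =>
    ((hFix h T (inclU K L (c : Kˣ))).mpr ⟨c, c.2, rfl⟩).1
  have hmemY : ∀ c : T.unit K,
      (⟨inclU K L (c : Kˣ), hmemX c⟩ : (above K L T).unit L) ∈ Y := by
    intro c
    rw [hY]
    apply Subtype.ext
    apply Units.ext
    show σ (algebraMap K L ((c : Kˣ) : K)) = algebraMap K L ((c : Kˣ) : K)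
    exact σ.commutes _
  let f : (T.unit K) →* Y :=
    { toFun := fun c => ⟨⟨inclU K L (c : Kˣ), hmemX c⟩, hmemY c⟩
      map_one' := by
        apply Subtype.ext
        apply Subtype.ext
        show inclU K L ((1 : T.unit K) : Kˣ) = 1
        simp
      map_mul' := fun c d => by
        apply Subtype.ext
        apply Subtype.ext
        show inclU K L ((c * d : T.unit K) : Kˣ) = inclU K L (c : Kˣ) * inclU K L (d : Kˣ)
        simp }
  have hinj : Function.Injective f := by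
    intro c d hcd
    have h1 : inclU K L (c : Kˣ) = inclU K L (d : Kˣ) :=
      congrArg (fun y : Y => ((y : (above K L T).unit L) : Lˣ)) hcd
    have h2 : algebraMap K L ((c : Kˣ) : K) = algebraMap K L ((d : Kˣ) : K) :=
      congrArg (fun y : Lˣ => (y : L)) h1
    exact Subtype.ext (Units.ext ((algebraMap K L).injective h2))
  have hsurj : Function.Surjective f := by
    intro y
    have hy := (hY _).mp y.2
    obtain ⟨c, hc, hcx⟩ := (hFix h T ((y : (above K L T).unit L) : Lˣ)).mp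
      ⟨(y : (above K L T).unit L).2, hfixall _ hy⟩
    exact ⟨⟨c, hc⟩, Subtype.ext (Subtype.ext hcx)⟩
  exact ⟨MulEquiv.ofBijective f ⟨hinj, hsurj⟩, fun c => rfl⟩

theorem h19_finrank_fixed {p : ℕ} (h : UnramCyclic K L p) (hFix : StFix K L p)
    (T : Set (HeightOneSpectrum (𝓞 K))) (σ : L ≃ₐ[K] L)
    (hσ : ∀ τ : L ≃ₐ[K] L, τ ∈ Subgroup.zpowers σ)
    (Y : Subgroup ((above K L T).unit L))
    (hY : ∀ x, x ∈ Y ↔ h19_sigmaX K L T σ x = x) :
    Module.finrank ℤ (Additive Y) = Module.finrank ℤ (Additive (T.unit K)) := by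
  obtain ⟨e, -⟩ := h19_fixedEquiv K L h hFix T σ hσ Y hY
  exact ((MulEquiv.toAdditive e).toIntLinearEquiv.finrank_eq).symm

end Fixed

end Fermat.Agent.S14x.HQ
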