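import Fermat.Agent.S14x.HQ.Defs
import Fermat.Agent.S14x.HQ.H3_Rank
import Fermat.Agent.S14x.HQ.H3_Count

/-!
# S14 / HQ (helper3): the primes above a finite set and the rank identity

For `L / K` unramified of prime degree `p` (`UnramCyclic K L p`) and a finite set `T` of primes
of `K`, with `t` the number of inert primes in `T`:

* `h3_above_finite`      : `above K L T` is finite;
* `h3_card_aboveSet`     : `#(above K L T) + (p - 1) t = p #T`;
* `h3_finite_above_unit` : the group of `above K L T`-units of `L` is finitely generated;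
* `h3_rank_identity`     : `rank L^S + (p - 1) t = p rank K^T + (p - 1)`.
-/

set_option autoImplicit false
set_option linter.unusedSectionVars false
set_option linter.style.haveILetI false

namespace Fermat.Agent.S14x.HQ

open NumberField IsDedekindDomain

section

variable (K L : Type*) [Field K] [NumberField K] [Field L] [NumberField L] [Algebra K L]

/-- The set of primes of `L` above a given prime of `K` is finite. -/
theorem h3_fiber_finite (v : HeightOneSpectrum (𝓞 K)) :
    {w : HeightOneSpectrum (𝓞 L) | w.under (𝓞 K) = v}.Finite := by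
  have hfin : Finite (v.asIdeal.primesOver (𝓞 L)) :=
    (IsDedekindDomain.primesOver_finite v.asIdeal (𝓞 L)).to_subtype
  have : Finite {w : HeightOneSpectrum (𝓞 L) // w.under (𝓞 K) = v} :=
    Finite.of_equiv _ (h3_equivPrimesOver (L := L) v).symm
  exact Set.finite_coe_iff.mp this

/-- The set of primes of `L` above a finite set of primes of `K` is finite. -/
theorem h3_above_finite (T : Finset (HeightOneSpectrum (𝓞 K))) :
    (above K L (T : Set (HeightOneSpectrum (𝓞 K)))).Finite := by
  have h : above K L (T : Set (HeightOneSpectrum (𝓞 K))) =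
      ⋃ v ∈ T, {w : HeightOneSpectrum (𝓞 L) | w.under (𝓞 K) = v} := by
    ext w
    simp [above]
  rw [h]
  exact Set.Finite.biUnion T.finite_toSet (fun v _ => h3_fiber_finite K L v)

/-- The number of primes above `v`: `1` if `v` is inert, `p` otherwise. -/
theorem h3_card_fiber (p : ℕ) (h : UnramCyclic K L p) (v : HeightOneSpectrum (𝓞 K)) :
    (Inert K L v → Nat.card {w : HeightOneSpectrum (𝓞 L) // w.under (𝓞 K) = v} = 1) ∧
    (¬ Inert K L v → Nat.card {w : HeightOneSpectrum (𝓞 L) // w.under (𝓞 K) = v} = p) := by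
  refine ⟨fun hv => h3_card_above_of_inert v hv, fun hv => ?_⟩
  rcases h3_card_above_eq K L p h v with h1 | h1
  · exact absurd (h3_inert_of_card v h1) hv
  · exact h1

open Classical in
/-- `#(above K L T) + (p - 1) t = p #T`, `t` the number of inert primes in `T`. -/
theorem h3_card_aboveSet (p : ℕ) (h : UnramCyclic K L p) (T : Finset (HeightOneSpectrum (𝓞 K))) :
    Nat.card (above K L (T : Set (HeightOneSpectrum (𝓞 K)))) +
      (p - 1) * Nat.card {v : HeightOneSpectrum (𝓞 K) // v ∈ T ∧ Inert K L v} = p * T.card := by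
  set S : Finset (HeightOneSpectrum (𝓞 L)) := (h3_above_finite K L T).toFinset with hS
  have hmemS : ∀ w, w ∈ S ↔ w.under (𝓞 K) ∈ T := by
    intro w
    rw [hS, Set.Finite.mem_toFinset]
    rfl
  have h1 : Nat.card (above K L (T : Set (HeightOneSpectrum (𝓞 K)))) = S.card :=
    Nat.subtype_card S (fun w => hmemS w)
  have h2 : Nat.card {v : HeightOneSpectrum (𝓞 K) // v ∈ T ∧ Inert K L v} =
      (T.filter (Inert K L)).card :=
    Nat.subtype_card (T.filter (Inert K L)) (fun v => Finset.mem_filter)
  have h3 : S.card = ∑ v ∈ T, (S.filter (fun w => w.under (𝓞 K) = v)).card :=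
    Finset.card_eq_sum_card_fiberwise (fun w hw => (hmemS w).mp hw)
  have h4 : ∀ v ∈ T, (S.filter (fun w => w.under (𝓞 K) = v)).card =
      Nat.card {w : HeightOneSpectrum (𝓞 L) // w.under (𝓞 K) = v} := by
    intro v hv
    symm
    refine Nat.subtype_card _ (fun w => ?_)
    rw [Finset.mem_filter, hmemS]
    constructor
    · intro hw; exact hw.2
    · intro hw; exact ⟨hw ▸ hv, hw⟩
  have h5 : ∀ v ∈ T, (S.filter (fun w => w.under (𝓞 K) = v)).card +
      (p - 1) * (if Inert K L v then 1 else 0) = p := by
    intro v hv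
    rw [h4 v hv]
    have hp1 : 1 ≤ p := h.prime.one_lt.le
    by_cases hi : Inert K L v
    · rw [(h3_card_fiber K L p h v).1 hi, if_pos hi]
      omega
    · rw [(h3_card_fiber K L p h v).2 hi, if_neg hi]
      omega
  rw [h1, h2, h3, Finset.card_filter, Finset.mul_sum, ← Finset.sum_add_distrib,
    Finset.sum_congr rfl h5, Finset.sum_const, smul_eq_mul, mul_comm]

/-- The group of `above K L T`-units is finitely generated. -/
theorem h3_finite_above_unit (T : Finset (HeightOneSpectrum (𝓞 K))) :
    Module.Finite ℤ (Additive ((above K L (T : Set (HeightOneSpectrum (𝓞 K)))).unit L)) := by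
  have h := (h3_stRank L (h3_above_finite K L T).toFinset).1
  rw [Set.Finite.coe_toFinset] at h
  exact h

/-- **The rank identity** `r + (p - 1) t = p a + (p - 1)`. -/
theorem h3_rank_identity (p : ℕ) (h : UnramCyclic K L p)
    (T : Finset (HeightOneSpectrum (𝓞 K))) :
    Module.finrank ℤ (Additive ((above K L (T : Set (HeightOneSpectrum (𝓞 K)))).unit L)) +
      (p - 1) * Nat.card {v : HeightOneSpectrum (𝓞 K) // v ∈ T ∧ Inert K L v} =
    p * Module.finrank ℤ (Additive ((T : Set (HeightOneSpectrum (𝓞 K))).unit K)) + (p - 1) := by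
  classical
  have hr := (h3_stRank L (h3_above_finite K L T).toFinset).2
  rw [Set.Finite.coe_toFinset] at hr
  have ha := (h3_stRank K T).2
  have hc := h3_card_aboveSet K L p h T
  have hw := h3_card_infinitePlace K L p h
  have hcard : ((h3_above_finite K L T).toFinset).card =
      Nat.card (above K L (T : Set (HeightOneSpectrum (𝓞 K)))) := by
    symm
    refine Nat.subtype_card _ (fun w => ?_)
    rw [Set.Finite.mem_toFinset]
  rw [hr, ha, hw, hcard]
  have hpos : 0 < Fintype.card (InfinitePlace K) := Fintype.card_pos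
  have hp1 : 1 ≤ p := h.prime.one_lt.le
  obtain ⟨w', hw'⟩ : ∃ w', Fintype.card (InfinitePlace K) = w' + 1 :=
    ⟨Fintype.card (InfinitePlace K) - 1, by omega⟩
  obtain ⟨p', hp'⟩ : ∃ p', p = p' + 1 := ⟨p - 1, by omega⟩
  rw [hw'] at *
  subst hp'
  simp only [Nat.add_sub_cancel] at hc ⊢
  have e1 : (p' + 1) * (w' + 1) - 1 = (p' + 1) * w' + p' := by
    rw [Nat.mul_succ]; omega
  rw [e1]
  have e2 : (p' + 1) * (w' + T.card) = (p' + 1) * w' + (p' + 1) * T.card := Nat.mul_add _ _ _
  rw [e2]
  omega

end

end Fermat.Agent.S14x.HQ
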